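import Fermat.Agent.Carayol.Rational

/-!
# Normalised functions of fixed torsion classes

A class of order dividing `m` fixed by a group `H` of automorphisms of the constants has a function
with coefficients fixed by `H` and leading coefficient one; it is unique up to `m`-th powers of
such functions.
-/

set_option autoImplicit false
set_option linter.unusedSectionVars false

noncomputable section

namespace Fermat.Agent.RT.InertiaTW

open ModularCurve AlgebraicCurve Fermat.Agent.Arith Fermat.Agent.JacTorsion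
open Fermat.Agent.Carayol (exists_eq_mul_of_ord leadingCoeff_smul leadingCoeff_algebraMap_mul
  eq_of_leadingCoeff)

variable {H : Subgroup (QBar ≃ₐ[ℚ] QBar)} {N m : ℕ} [NeZero N] [NeZero m]

local notation "FN" => modularFunctionFieldBar N

local notation "gal" σ => arithmeticGalois (L := QBar) (modularFunctionFieldFull N) σ

/-- The expansion of a function with divisible divisor. -/
def serOf (f : divGrp QBar FN m) : LaurentSeries QBar := (((f : FNˣ) : FN) : LaurentSeries QBar)

theorem serOf_mul (f g : divGrp QBar FN m) : serOf (f * g) = serOf f * serOf g := rfl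

theorem serOf_ne_zero (f : divGrp QBar FN m) : serOf f ≠ 0 := fun h =>
  Units.ne_zero (f : FNˣ) (Subtype.ext h)

variable (H) in
/-- `f` is a normalised fixed function of the class `P`. -/
structure IsClassFun (P : Pic0.torsion QBar FN m) (f : divGrp QBar FN m) : Prop where
  cls : toTorsion (Additive.ofMul f) = P
  fix : Carayol.CoeffFixed H (serOf f)
  lead : (serOf f).leadingCoeff = 1

theorem exists_classFun {P : Pic0.torsion QBar FN m}
    (hP : ∀ σ ∈ H, σ • (P : JZero N) = P) : ∃ f, IsClassFun H P f := by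
  obtain ⟨D, hD, hfix⟩ := Carayol.exists_fixed_rep hP
  have hm := Pic0.mem_torsion.mp P.2
  rw [← hD] at hm
  have hp : ((m : ℤ) • (D : Divisor QBar FN)).IsPrincipal := by
    have h := (QuotientAddGroup.eq_zero_iff ((m : ℤ) • D)).mp hm
    rw [AddSubgroup.mem_addSubgroupOf, AddSubgroup.coe_zsmul] at h
    exact h
  obtain ⟨f, hf0, hfc, hfl, hford⟩ := Carayol.exists_fixed_fun hp fun σ hσ => by
    rw [smul_comm, hfix σ hσ]
  have hmem : Units.mk0 f hf0 ∈ divGrp QBar FN m := fun Q => by
    rw [Units.val_mk0, ← hford Q, Finsupp.smul_apply, smul_eq_mul]; exact dvd_mul_right _ _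
  refine ⟨⟨_, hmem⟩, Subtype.ext ?_, hfc, hfl⟩
  refine Eq.trans (congrArg Pic0.mk (Subtype.ext (eq_of_smul_eq (m := m) ?_))) hD
  show (m : ℤ) • divQuot ⟨_, hmem⟩ = _
  rw [smul_divQuot]
  refine Finsupp.ext fun Q => ?_
  rw [div_apply]
  exact (hford Q).symm

theorem IsClassFun.mul {P Q : Pic0.torsion QBar FN m} {f g : divGrp QBar FN m}
    (hf : IsClassFun H P f) (hg : IsClassFun H Q g) : IsClassFun H (P + Q) (f * g) := by
  refine ⟨by rw [ofMul_mul, map_add, hf.cls, hg.cls], fun σ hσ => ?_, ?_⟩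
  · rw [serOf_mul, map_mul, hf.fix σ hσ, hg.fix σ hσ]
  · rw [serOf_mul, HahnSeries.leadingCoeff_mul, hf.lead, hg.lead, one_mul]

theorem order_pow' (x : LaurentSeries QBar) : ∀ n : ℕ, (x ^ n).leadingCoeff = x.leadingCoeff ^ n
  | 0 => by rw [pow_zero, pow_zero, HahnSeries.leadingCoeff_one]
  | n + 1 => by rw [pow_succ, HahnSeries.leadingCoeff_mul, order_pow' x n, pow_succ]

set_option maxHeartbeats 800000 in
/-- Uniqueness up to normalised fixed `m`-th powers. -/
theorem IsClassFun.unique {P : Pic0.torsion QBar FN m} {f g : divGrp QBar FN m}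
    (hf : IsClassFun H P f) (hg : IsClassFun H P g) :
    ∃ h : FN, h ≠ 0 ∧ Carayol.CoeffFixed H (h : LaurentSeries QBar) ∧
      serOf f = serOf g * (h : LaurentSeries QBar) ^ m := by
  have h0 : toTorsion (Additive.ofMul (f * g⁻¹)) = 0 := by
    rw [ofMul_mul, ofMul_inv, map_add, map_neg, hf.cls, hg.cls, add_neg_cancel]
  obtain ⟨u, hu⟩ := (mem_powGrp _ _).mp ((toTorsion_eq_zero_iff _).mp h0)
  set l := ((u : FN) : LaurentSeries QBar).leadingCoeff with hl
  have hl0 : l ≠ 0 := HahnSeries.leadingCoeff_ne_zero.mpr fun e => u.ne_zero (Subtype.ext e)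
  set h : FN := algebraMap QBar FN l⁻¹ * (u : FN) with hh
  have hcl : algebraMap QBar FN l⁻¹ ≠ 0 := by simpa using hl0
  have hh0 : h ≠ 0 := mul_ne_zero hcl u.ne_zero
  have e : serOf f = serOf g * ((u : FN) : LaurentSeries QBar) ^ m := by
    have h1 : (f : FNˣ) = (g : FNˣ) * u ^ m := by
      rw [hu, Subgroup.coe_mul, Subgroup.coe_inv, mul_comm (f : FNˣ), mul_inv_cancel_left]
    exact congrArg (fun z : FNˣ => ((z : FN) : LaurentSeries QBar)) h1
  have hlm : l ^ m = 1 := by
    have := congrArg HahnSeries.leadingCoeff e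
    rwa [HahnSeries.leadingCoeff_mul, hf.lead, hg.lead, one_mul, order_pow', eq_comm] at this
  have e2 : serOf f = serOf g * (h : LaurentSeries QBar) ^ m := by
    rw [e]
    congr 1
    show _ = (algebraMap QBar (LaurentSeries QBar) l⁻¹ * ((u : FN) : LaurentSeries QBar)) ^ m
    rw [mul_pow, ← map_pow, inv_pow, hlm, inv_one, map_one, one_mul]
  have hlead : (h : LaurentSeries QBar).leadingCoeff = 1 := by
    rw [hh, leadingCoeff_algebraMap_mul, inv_mul_cancel₀ hl0]
  refine ⟨h, hh0, Carayol.coeffFixed_iff.mpr fun σ hσ => ?_, e2⟩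
  have hne : (gal σ) • h ≠ 0 := (_root_.map_ne_zero (SemilinearAut.toRingAut (gal σ))).mpr hh0
  have hpow : ((gal σ) • h) ^ m = h ^ m := by
    refine Subtype.ext ?_
    have := congrArg (coeffMap (σ : QBar →+* QBar)) e2
    rw [map_mul, map_pow, hf.fix σ hσ, hg.fix σ hσ, e2] at this
    exact (mul_left_cancel₀ (serOf_ne_zero g) this).symm
  obtain ⟨c, hc⟩ := exists_eq_mul_of_ord hne hh0 fun Q => by
    have := congrArg Q.ord hpow
    rw [FF.ord_pow, FF.ord_pow] at this
    exact mul_left_cancel₀ (Int.natCast_ne_zero.mpr (NeZero.ne m)) this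
  exact eq_of_leadingCoeff hc hh0 (by rw [leadingCoeff_smul, hlead, map_one])

/-- The conjugate of a function with divisible divisor. -/
def galDiv (σ : QBar ≃ₐ[ℚ] QBar) (f : divGrp QBar FN m) : divGrp QBar FN m :=
  ⟨Units.map (SemilinearAut.toRingAut (gal σ)).toRingHom.toMonoidHom (f : FNˣ), fun Q => by
    show (m : ℤ) ∣ Q.ord ((gal σ) • ((f : FNˣ) : FN))
    rw [← smul_inv_smul (gal σ) Q, SemilinearAut.ord_smul]
    exact f.2 _⟩

theorem serOf_galDiv (σ : QBar ≃ₐ[ℚ] QBar) (f : divGrp QBar FN m) :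
    serOf (galDiv σ f) = coeffMap (σ : QBar →+* QBar) (serOf f) := rfl

theorem toTorsion_galDiv (σ : QBar ≃ₐ[ℚ] QBar) (f : divGrp QBar FN m) :
    ((toTorsion (Additive.ofMul (galDiv σ f))) : JZero N) =
      σ • ((toTorsion (Additive.ofMul f)) : JZero N) := by
  show Pic0.mk _ = σ • Pic0.mk _
  rw [galois_smul_pic0_def, SemilinearAut.pic0_smul_mk]
  refine congrArg Pic0.mk (Subtype.ext ?_)
  refine eq_of_smul_eq (m := m) ?_
  show (m : ℤ) • divQuot (galDiv σ f) = (m : ℤ) • ((gal σ) • divQuot f)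
  rw [← smul_comm (gal σ), smul_divQuot, smul_divQuot]
  refine Finsupp.ext fun Q => ?_
  rw [SemilinearAut.divisor_smul_apply, div_apply, div_apply]
  show Q.ord ((gal σ) • ((f : FNˣ) : FN)) = _
  conv_lhs => rw [← smul_inv_smul (gal σ) Q]
  rw [SemilinearAut.ord_smul]

theorem IsClassFun.galois {P P' : Pic0.torsion QBar FN m} {f : divGrp QBar FN m}
    (hf : IsClassFun H P f) {σ : QBar ≃ₐ[ℚ] QBar} (hσ : ∀ τ ∈ H, σ⁻¹ * τ * σ ∈ H)
    (hP' : (P' : JZero N) = σ • (P : JZero N)) : IsClassFun H P' (galDiv σ f) := by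
  refine ⟨Subtype.ext ?_, fun τ hτ => ?_, ?_⟩
  · rw [toTorsion_galDiv, hf.cls, hP']
  · rw [serOf_galDiv]
    conv_rhs => rw [← hf.fix _ (hσ τ hτ)]
    rw [coeffMap_coeffMap, coeffMap_coeffMap]
    refine coeffMap_congr (RingHom.ext fun x => ?_) _
    show τ (σ x) = σ ((σ⁻¹ * τ * σ) x)
    rw [← AlgEquiv.mul_apply, ← AlgEquiv.mul_apply, ← mul_assoc, ← mul_assoc, mul_inv_cancel,
      one_mul]
  · rw [serOf_galDiv]
    exact (leadingCoeff_smul σ ((f : FNˣ) : FN)).trans (by
      show σ (serOf f).leadingCoeff = 1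
      rw [hf.lead, map_one])

end Fermat.Agent.RT.InertiaTW

end
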