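import Fermat.Agent.Carayol.Omega.Lift
import Mathlib.NumberTheory.ModularForms.CongruenceSubgroups
import Mathlib.Algebra.Module.Hom

/-!
# The action of `SL₂(𝔽_q)` on homomorphisms of `Γ(qn)`, and rescaling to lower unipotent level

`SL₂(𝔽_q)` acts on `Hom(Γ(qn), A)` through lifts congruent to one modulo `n`. Conjugation by
`diag(1, q)` maps `Γ(qn)` into `Γ₀(q²R)` and into `Γ₁(qR)` for `R ∣ n`.
-/

set_option autoImplicit false

noncomputable section

open CongruenceSubgroup Matrix.SpecialLinearGroup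
open scoped MatrixGroups

namespace Fermat.Agent.RT.InertiaTW

variable {q n : ℕ}

theorem entry_mem_Gamma {N : ℕ} {γ : SL(2, ℤ)} (h : γ ∈ Gamma N) :
    (N : ℤ) ∣ γ 0 0 - 1 ∧ (N : ℤ) ∣ γ 0 1 ∧ (N : ℤ) ∣ γ 1 0 ∧ (N : ℤ) ∣ γ 1 1 - 1 := by
  obtain ⟨h1, h2, h3, h4⟩ := Gamma_mem.mp h
  simp only [← ZMod.intCast_zmod_eq_zero_iff_dvd, Int.cast_sub, Int.cast_one, h1, h2, h3, h4,
    sub_self, and_self]

theorem mem_Gamma_mul (hcop : q.Coprime n) {γ : SL(2, ℤ)}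
    (hq : map (Int.castRingHom (ZMod q)) γ = 1) (hn : γ ∈ Gamma n) : γ ∈ Gamma (q * n) := by
  obtain ⟨a1, a2, a3, a4⟩ := entry_mem_Gamma (N := q) (Gamma_mem'.mpr hq)
  obtain ⟨b1, b2, b3, b4⟩ := entry_mem_Gamma hn
  have h : ∀ x : ℤ, (q : ℤ) ∣ x → (n : ℤ) ∣ x → ((x : ℤ) : ZMod (q * n)) = 0 := fun x h1 h2 => by
    rw [ZMod.intCast_zmod_eq_zero_iff_dvd, Nat.cast_mul]
    exact IsCoprime.mul_dvd (Int.isCoprime_iff_nat_coprime.mpr (by simpa using hcop)) h1 h2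
  refine Gamma_mem.mpr ⟨?_, h _ a2 b2, h _ a3 b3, ?_⟩
  · simpa [sub_eq_zero] using h _ a1 b1
  · simpa [sub_eq_zero] using h _ a4 b4

theorem exists_lift [NeZero (q * n)] (hcop : q.Coprime n) (s : SL(2, ZMod q)) :
    ∃ γ : SL(2, ℤ), γ ∈ Gamma n ∧ map (Int.castRingHom (ZMod q)) γ = s := by
  set e := ZMod.chineseRemainder hcop
  let M : Matrix (Fin 2) (Fin 2) (ZMod (q * n)) :=
    Matrix.of fun i j => e.symm (s i j, (1 : Matrix (Fin 2) (Fin 2) (ZMod n)) i j)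
  have hM : M.det = 1 := by
    apply e.injective
    have h := s.det_coe
    rw [Matrix.det_fin_two] at h ⊢
    simp [M, h, Prod.ext_iff]
  obtain ⟨γ, hγ⟩ := Carayol.Omega.exists_redMat_eq hM
  have key : ∀ i j, (((γ i j : ℤ) : ZMod q), ((γ i j : ℤ) : ZMod n)) =
      (s i j, (1 : Matrix (Fin 2) (Fin 2) (ZMod n)) i j) := fun i j => by
    have := congrArg e (congrFun (congrFun hγ i) j)
    simpa [M, Carayol.Omega.redMat, Prod.ext_iff] using this
  refine ⟨γ, ?_, ?_⟩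
  · refine Gamma_mem.mpr ⟨?_, ?_, ?_, ?_⟩ <;>
      exact ((Prod.ext_iff.mp (key _ _)).2).trans (by simp)
  · ext i j
    simpa using (Prod.ext_iff.mp (key i j)).1

variable [NeZero (q * n)] [hcop : Fact (q.Coprime n)]

/-- A lift congruent to one modulo `n`. -/
def liftSL (s : SL(2, ZMod q)) : SL(2, ℤ) := (exists_lift (n := n) hcop.out s).choose

theorem liftSL_mem (s : SL(2, ZMod q)) : liftSL (n := n) s ∈ Gamma n :=
  (exists_lift (n := n) hcop.out s).choose_spec.1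

theorem map_liftSL (s : SL(2, ZMod q)) :
    map (Int.castRingHom (ZMod q)) (liftSL (n := n) s) = s :=
  (exists_lift (n := n) hcop.out s).choose_spec.2

variable {A : Type*} [AddCommGroup A]

/-- Precomposition with conjugation. -/
def conjHomG {N : ℕ} (l : SL(2, ℤ)) :
    (Additive (Gamma N) →+ A) →+ (Additive (Gamma N) →+ A) where
  toFun φ := φ.comp (MonoidHom.toAdditive
    (((MulAut.conj l).toMonoidHom.comp (Gamma N).subtype).codRestrict (Gamma N)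
      fun γ => (Gamma_normal N).conj_mem _ γ.2 l))
  map_zero' := rfl
  map_add' _ _ := rfl

theorem conjHomG_apply {N : ℕ} (l : SL(2, ℤ)) (φ : Additive (Gamma N) →+ A) (γ : Gamma N) :
    conjHomG l φ (Additive.ofMul γ) =
      φ (Additive.ofMul ⟨l * γ * l⁻¹, (Gamma_normal N).conj_mem _ γ.2 l⟩) := rfl

theorem conjHomG_mul {N : ℕ} (l m : SL(2, ℤ)) (φ : Additive (Gamma N) →+ A) :
    conjHomG (l * m) φ = conjHomG m (conjHomG l φ) := by
  refine AddMonoidHom.ext fun γ => ?_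
  obtain ⟨γ, rfl⟩ := Additive.ofMul.surjective γ
  rw [conjHomG_apply, conjHomG_apply, conjHomG_apply]
  congr 2
  exact Subtype.ext (by group)

theorem conjHomG_of_mem {N : ℕ} {c : SL(2, ℤ)} (hc : c ∈ Gamma N) (φ : Additive (Gamma N) →+ A) :
    conjHomG c φ = φ := by
  refine AddMonoidHom.ext fun γ => ?_
  obtain ⟨γ, rfl⟩ := Additive.ofMul.surjective γ
  rw [conjHomG_apply, show (⟨c * γ * c⁻¹, (Gamma_normal N).conj_mem _ γ.2 c⟩ : Gamma N) =
    ⟨c, hc⟩ * γ * (⟨c, hc⟩ : Gamma N)⁻¹ from Subtype.ext rfl, ofMul_mul, ofMul_mul, ofMul_inv,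
    map_add, map_add, map_neg]
  abel

omit [NeZero (q * n)] in
theorem conjHomG_congr {l m : SL(2, ℤ)} (hl : l ∈ Gamma n) (hm : m ∈ Gamma n)
    (h : map (Int.castRingHom (ZMod q)) l = map (Int.castRingHom (ZMod q)) m)
    (φ : Additive (Gamma (q * n)) →+ A) : conjHomG l φ = conjHomG m φ := by
  have hc : l * m⁻¹ ∈ Gamma (q * n) := mem_Gamma_mul hcop.out
    (by rw [map_mul, map_inv, h, mul_inv_cancel]) (mul_mem hl (inv_mem hm))
  conv_lhs => rw [show l = l * m⁻¹ * m by group]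
  rw [conjHomG_mul, conjHomG_of_mem hc]

instance : DistribMulAction SL(2, ZMod q) (Additive (Gamma (q * n)) →+ A) where
  smul s φ := conjHomG (liftSL (n := n) s⁻¹) φ
  one_smul φ := by
    show conjHomG (liftSL (n := n) (1 : SL(2, ZMod q))⁻¹) φ = φ
    rw [conjHomG_congr (liftSL_mem _) (one_mem _) (by rw [map_liftSL, inv_one, map_one]) φ,
      conjHomG_of_mem (one_mem _)]
  mul_smul s t φ := by
    show conjHomG (liftSL (n := n) (s * t)⁻¹) φ =
      conjHomG (liftSL (n := n) s⁻¹) (conjHomG (liftSL (n := n) t⁻¹) φ)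
    rw [← conjHomG_mul]
    exact conjHomG_congr (liftSL_mem _) (mul_mem (liftSL_mem _) (liftSL_mem _))
      (by rw [map_mul, map_liftSL, map_liftSL, map_liftSL, mul_inv_rev]) φ
  smul_zero s := map_zero _
  smul_add s φ ψ := map_add _ φ ψ

theorem smul_eq_conjHomG {s : SL(2, ZMod q)} {l : SL(2, ℤ)} (hl : l ∈ Gamma n)
    (h : map (Int.castRingHom (ZMod q)) l = s⁻¹) (φ : Additive (Gamma (q * n)) →+ A) :
    s • φ = conjHomG l φ :=
  conjHomG_congr (liftSL_mem _) hl (by rw [map_liftSL, h]) φ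

theorem smul_apply_eq {s : SL(2, ZMod q)} (φ : Additive (Gamma (q * n)) →+ A)
    (γ : Gamma (q * n)) : (s • φ) (Additive.ofMul γ) = φ (Additive.ofMul
      ⟨liftSL (n := n) s⁻¹ * γ * (liftSL (n := n) s⁻¹)⁻¹,
        (Gamma_normal _).conj_mem _ γ.2 _⟩) := rfl

instance {O : Type*} [Semiring O] [Module O A] :
    SMulCommClass SL(2, ZMod q) O (Additive (Gamma (q * n)) →+ A) :=
  ⟨fun _ _ _ => rfl⟩

/-- The action is natural in the coefficients. -/
theorem comp_smul {B : Type*} [AddCommGroup B] (g : A →+ B) (s : SL(2, ZMod q))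
    (φ : Additive (Gamma (q * n)) →+ A) : g.comp (s • φ) = s • g.comp φ := rfl

/-! ### Rescaling -/

variable (q n) in
/-- Conjugation by `diag(1, q)`. -/
def rescaleFun (γ : Gamma (q * n)) : SL(2, ℤ) :=
  ⟨!![(γ : SL(2, ℤ)) 0 0, (γ : SL(2, ℤ)) 0 1 / (q : ℤ);
      (γ : SL(2, ℤ)) 1 0 * (q : ℤ), (γ : SL(2, ℤ)) 1 1], by
    have h := (γ : SL(2, ℤ)).det_coe
    rw [Matrix.det_fin_two] at h
    have hd : (q : ℤ) ∣ (γ : SL(2, ℤ)) 0 1 :=
      (Int.natCast_dvd_natCast.mpr (dvd_mul_right q n)).trans (entry_mem_Gamma γ.2).2.1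
    rw [Matrix.det_fin_two_of]
    linear_combination h - (γ : SL(2, ℤ)) 1 0 * Int.ediv_mul_cancel hd⟩

omit hcop [NeZero (q * n)] in
theorem upper_div_mul (γ : Gamma (q * n)) :
    (γ : SL(2, ℤ)) 0 1 / (q : ℤ) * (q : ℤ) = (γ : SL(2, ℤ)) 0 1 :=
  Int.ediv_mul_cancel
    ((Int.natCast_dvd_natCast.mpr (dvd_mul_right q n)).trans (entry_mem_Gamma γ.2).2.1)

variable (q n) in
/-- Conjugation by `diag(1, q)`, as a homomorphism. -/
def rescale : Gamma (q * n) →* SL(2, ℤ) where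
  toFun := rescaleFun q n
  map_one' := by
    ext i j
    fin_cases i <;> fin_cases j <;> simp [rescaleFun]
  map_mul' γ δ := by
    have hq : (q : ℤ) ≠ 0 := Int.natCast_ne_zero.mpr (left_ne_zero_of_mul (NeZero.ne (q * n)))
    have e1 := upper_div_mul γ
    have e2 := upper_div_mul δ
    have e3 := upper_div_mul (γ * δ)
    ext i j
    fin_cases i <;> fin_cases j <;>
      simp [rescaleFun, Matrix.mul_apply, Fin.sum_univ_two] at e3 ⊢
    · linear_combination -((δ : SL(2, ℤ)) 1 0) * e1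
    · refine mul_right_cancel₀ hq ?_
      linear_combination e3 - (γ : SL(2, ℤ)) 0 0 * e2 - (δ : SL(2, ℤ)) 1 1 * e1
    · ring
    · linear_combination -((γ : SL(2, ℤ)) 1 0) * e2

omit hcop in
theorem coe_rescale (γ : Gamma (q * n)) :
    (rescale q n γ : Matrix (Fin 2) (Fin 2) ℤ) =
      !![(γ : SL(2, ℤ)) 0 0, (γ : SL(2, ℤ)) 0 1 / (q : ℤ);
        (γ : SL(2, ℤ)) 1 0 * (q : ℤ), (γ : SL(2, ℤ)) 1 1] := rfl

omit hcop in
theorem rescale_mem_Gamma0 {N R : ℕ} (hN : N ∣ q ^ 2 * R) (hR : R ∣ n) (γ : Gamma (q * n)) :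
    rescale q n γ ∈ Gamma0 N := by
  rw [Gamma0_mem, ZMod.intCast_zmod_eq_zero_iff_dvd, coe_rescale]
  obtain ⟨c, hc⟩ := (entry_mem_Gamma γ.2).2.2.1
  obtain ⟨k, rfl⟩ := hR
  refine (Int.natCast_dvd_natCast.mpr hN).trans ?_
  simp only [Matrix.of_apply, Matrix.cons_val', Matrix.cons_val_zero, Matrix.cons_val_one,
    Matrix.cons_val_fin_one, Fin.isValue]
  rw [hc]
  push_cast
  exact ⟨(k : ℤ) * c, by ring⟩

omit hcop in
theorem rescale_mem_Gamma1 {R : ℕ} (hR : R ∣ n) (γ : Gamma (q * n)) :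
    rescale q n γ ∈ Gamma1 (q * R) := by
  obtain ⟨h1, -, h3, h4⟩ := entry_mem_Gamma γ.2
  have hd : ((q * R : ℕ) : ℤ) ∣ ((q * n : ℕ) : ℤ) :=
    Int.natCast_dvd_natCast.mpr (Nat.mul_dvd_mul_left q hR)
  rw [Gamma1_mem, coe_rescale]
  refine ⟨?_, ?_, ?_⟩
  · simpa [sub_eq_zero] using (ZMod.intCast_zmod_eq_zero_iff_dvd _ _).mpr (hd.trans h1)
  · simpa [sub_eq_zero] using (ZMod.intCast_zmod_eq_zero_iff_dvd _ _).mpr (hd.trans h4)
  · simpa using (ZMod.intCast_zmod_eq_zero_iff_dvd _ _).mpr ((hd.trans h3).mul_right (q : ℤ))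

end Fermat.Agent.RT.InertiaTW
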