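import Fermat.Agent.RT.InertiaTW.GroupSum
import Fermat.Agent.RT.InertiaTW.LevelAction
import Fermat.Agent.GaloisReps.JacobianModel

/-!
# Vectors of coordinates as homomorphisms on `Γ(qn)`

A vector of coordinates with values in `B` gives a homomorphism on `Γ₀(N)`, hence by the
Atkin–Lehner conjugation and rescaling one on `Γ(qn)`, naturally in `B`.
-/

set_option autoImplicit false
set_option linter.unusedSectionVars false

noncomputable section

open CongruenceSubgroup
open scoped MatrixGroups

namespace Fermat.Agent.RT.InertiaTW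

open Fermat.Agent.GaloisReps (coord dualHom atkinHom coord_dualHom dualHom_mem eq_sum_dualHom
  coord_apply comp_mem_ellParHoms)

variable {q n R N : ℕ} [NeZero (q * n)] [NeZero N] (hR : R ∣ n) (hN : N ∣ q * R * q)

section ResHom

include hR hN in
theorem rescale_mem_level (γ : Gamma (q * n)) : rescale q n γ ∈ Gamma0 N :=
  rescale_mem_Gamma0 (hN.trans (dvd_of_eq (by ring))) hR γ

variable (B : Type) [AddCommGroup B]

/-- Restriction along the rescaling. -/
def resHom : (Additive (Gamma0 N) →+ B) →+ (Additive (Gamma (q * n)) →+ B) where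
  toFun φ := φ.comp (MonoidHom.toAdditive
    ((rescale q n).codRestrict (Gamma0 N) (rescale_mem_level hR hN)))
  map_zero' := rfl
  map_add' _ _ := rfl

theorem resHom_apply (φ : Additive (Gamma0 N) →+ B) (γ : Gamma (q * n)) :
    resHom hR hN B φ (Additive.ofMul γ) =
      φ (Additive.ofMul ⟨rescale q n γ, rescale_mem_level hR hN γ⟩) := rfl

/-- The homomorphism with given coordinates. -/
def homOfVec : (Fin (2 * Gamma0.genus N) → B) →+ (Additive (Gamma0 N) →+ B) where
  toFun w := ∑ i, (zmultiplesHom B (w i)).comp (dualHom N i)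
  map_zero' := AddMonoidHom.ext fun x => by simp
  map_add' v w := AddMonoidHom.ext fun x => by simp [Finset.sum_add_distrib]

theorem homOfVec_apply (w : Fin (2 * Gamma0.genus N) → B) :
    homOfVec B w = ∑ i, (zmultiplesHom B (w i)).comp (dualHom N i) := rfl

theorem homOfVec_coord {φ : Additive (Gamma0 N) →+ B}
    (hφ : φ ∈ Gamma0.ellParHoms (Gamma0 N) B) : homOfVec B (coord N B φ) = φ :=
  (eq_sum_dualHom hφ).symm

/-- The homomorphism on `Γ(qn)` with given coordinates. -/
def piVec : (Fin (2 * Gamma0.genus N) → B) →+ (Additive (Gamma (q * n)) →+ B) :=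
  (resHom hR hN B).comp ((atkinHom N B).comp (homOfVec B))

theorem piVec_coord {φ : Additive (Gamma0 N) →+ B}
    (hφ : φ ∈ Gamma0.ellParHoms (Gamma0 N) B) :
    piVec hR hN B (coord N B φ) = resHom hR hN B (atkinHom N B φ) := by
  show resHom hR hN B (atkinHom N B (homOfVec B (coord N B φ))) = _
  rw [homOfVec_coord B hφ]

variable {B} {B' : Type} [AddCommGroup B'] (g : B →+ B')

theorem comp_homOfVec (w : Fin (2 * Gamma0.genus N) → B) :
    g.comp (homOfVec B w) = homOfVec B' (fun i => g (w i)) := by
  refine AddMonoidHom.ext fun x => ?_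
  simp only [homOfVec_apply, AddMonoidHom.comp_apply, AddMonoidHom.finsetSum_apply,
    zmultiplesHom_apply, map_sum, map_zsmul]

/-- Naturality. -/
theorem comp_piVec (w : Fin (2 * Gamma0.genus N) → B) :
    g.comp (piVec hR hN B w) = piVec hR hN B' (fun i => g (w i)) := by
  show g.comp (resHom hR hN B (atkinHom N B (homOfVec B w))) =
    resHom hR hN B' (atkinHom N B' (homOfVec B' fun i => g (w i)))
  rw [← comp_homOfVec g w, GaloisReps.atkinHom_comp]
  rfl

end ResHom

section Ring

variable (B : Type) [CommRing B]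

theorem piVec_smul (c : B) (w : Fin (2 * Gamma0.genus N) → B) :
    piVec hR hN B (c • w) = c • piVec hR hN B w :=
  (comp_piVec hR hN (AddMonoidHom.mulLeft c) w).symm

variable [Fact q.Prime] [Fact (q.Coprime n)]

/-- The trace to the lower unipotents of the twist of the homomorphism with given coordinates. -/
def twPi (χ : (ZMod q)ˣ →* B) :
    (Fin (2 * Gamma0.genus N) → B) →ₗ[B] (Additive (Gamma (q * n)) →+ B) where
  toFun w := lowerTr (q := q) (twistOp χ (piVec hR hN B w))
  map_add' v w := by
    simp only [map_add, twistOp, lowerTr, smul_add, Finset.sum_add_distrib]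
  map_smul' c w := by
    simp only [piVec_smul, twistOp, lowerTr, Finset.smul_sum, RingHom.id_apply, smul_comm _ c]

theorem twPi_apply (χ : (ZMod q)ˣ →* B) (w : Fin (2 * Gamma0.genus N) → B) :
    twPi hR hN B χ w = lowerTr (q := q) (twistOp χ (piVec hR hN B w)) := rfl

variable {B} {B' : Type} [CommRing B'] (g : B →+* B')

/-- Naturality of the twisted trace. -/
theorem comp_twPi (χ : (ZMod q)ˣ →* B) (w : Fin (2 * Gamma0.genus N) → B) :
    g.toAddMonoidHom.comp (twPi hR hN B χ w) =
      twPi hR hN B' (g.toMonoidHom.comp χ) (fun i => g (w i)) := by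
  refine AddMonoidHom.ext fun x => ?_
  obtain ⟨γ, rfl⟩ := Additive.ofMul.surjective x
  simp only [twPi_apply, twistOp, lowerTr, Finset.smul_sum, AddMonoidHom.comp_apply,
    AddMonoidHom.finsetSum_apply, map_sum]
  refine Finset.sum_congr rfl fun s _ => Finset.sum_congr rfl fun v _ => ?_
  rw [smul_comm (sMinus s) (χ v), smul_comm (sMinus s) ((g.toMonoidHom.comp χ) v),
    AddMonoidHom.smul_apply, AddMonoidHom.smul_apply, smul_eq_mul, smul_eq_mul,
    show (fun i => g (w i)) = fun i => g.toAddMonoidHom (w i) from rfl,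
    ← comp_piVec hR hN g.toAddMonoidHom w, ← comp_smul, ← comp_smul]
  exact map_mul g _ _

end Ring

end Fermat.Agent.RT.InertiaTW

end
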