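import Fermat.Agent.RT.InertiaTW.TwistGeom
import Mathlib.RingTheory.Localization.FractionRing
import Mathlib.LinearAlgebra.Dual.Lemmas
import Mathlib.RingTheory.IntegralClosure.IsIntegralClosure.Basic

/-!
# Relations between integral matrices hold over the complex numbers

A linear form vanishing on the integral solutions of an integral system vanishes on all its
solutions. Hence the geometric theorem holds for complex eigenvectors of inertia.
-/

set_option autoImplicit false
set_option linter.unusedSectionVars false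

noncomputable section

open scoped MatrixGroups

namespace Fermat.Agent.RT.InertiaTW

open Matrix

section Descent

variable {S K : Type*} [CommRing S] [IsDomain S] [Field K] {j : S →+* K}
  (hj : Function.Injective j) {d : ℕ}

include hj in
/-- Descent of an implication between linear equations. -/
theorem dotProduct_eq_zero_of_descent {ι : Type*} (M : ι → Fin d → S) (b : Fin d → S)
    (h : ∀ w : Fin d → S, (∀ i, M i ⬝ᵥ w = 0) → b ⬝ᵥ w = 0) (w : Fin d → K)
    (hw : ∀ i, (j ∘ M i) ⬝ᵥ w = 0) : (j ∘ b) ⬝ᵥ w = 0 := by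
  let F := FractionRing S
  let : Algebra F K := (IsFractionRing.lift hj).toAlgebra
  have hF : ∀ s : S, algebraMap F K (algebraMap S F s) = j s := IsFractionRing.lift_algebraMap hj
  refine (Module.forall_dual_apply_eq_zero_iff F _).mp fun φ => ?_
  have hφ : ∀ c : Fin d → S, φ ((j ∘ c) ⬝ᵥ w) = (algebraMap S F ∘ c) ⬝ᵥ fun i => φ (w i) := by
    intro c
    rw [dotProduct, map_sum]
    refine Finset.sum_congr rfl fun i _ => ?_
    rw [Function.comp_apply, Function.comp_apply, ← hF, ← Algebra.smul_def, map_smul, smul_eq_mul]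
  obtain ⟨s, hs⟩ := IsLocalization.exist_integer_multiples (nonZeroDivisors S) Finset.univ
    fun i => φ (w i)
  choose z hz using fun i => hs i (Finset.mem_univ i)
  have hinj : Function.Injective (algebraMap S F) := IsFractionRing.injective S F
  have hz' : ∀ c : Fin d → S, algebraMap S F (c ⬝ᵥ z) =
      algebraMap S F s * φ ((j ∘ c) ⬝ᵥ w) := fun c => by
    rw [hφ, dotProduct, dotProduct, map_sum, Finset.mul_sum]
    refine Finset.sum_congr rfl fun i _ => ?_
    rw [map_mul, hz, Algebra.smul_def, Function.comp_apply]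
    ring
  have hb := h z fun i => hinj (by rw [hz', hw, map_zero, mul_zero, map_zero])
  have := hz' b
  rw [hb, map_zero, eq_comm, mul_eq_zero] at this
  exact this.resolve_left fun h0 =>
    nonZeroDivisors.coe_ne_zero s (hinj (h0.trans (map_zero _).symm))

include hj in
/-- Descent of an implication between matrix equations. -/
theorem mulVec_eq_zero_of_descent {ι κ : Type*} (M : ι → Matrix (Fin d) (Fin d) S)
    (B : Matrix κ (Fin d) S)
    (h : ∀ w : Fin d → S, (∀ i, M i *ᵥ w = 0) → B *ᵥ w = 0) (w : Fin d → K)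
    (hw : ∀ i, (M i).map j *ᵥ w = 0) : B.map j *ᵥ w = 0 := by
  funext k
  exact dotProduct_eq_zero_of_descent hj (fun x : ι × Fin d => M x.1 x.2) (B k)
    (fun v hv => congrFun (h v fun i => funext fun l => hv (i, l)) k) w
    fun x => congrFun (hw x.1) x.2

end Descent

open CongruenceSubgroup
open Fermat.Agent.Arith (QBar)
open Fermat.Agent.GaloisReps (TorsionIso torsionIso)

variable {q n p R N : ℕ} [Fact q.Prime] [Fact p.Prime] [NeZero n] [NeZero (q * n)] [NeZero N]
  [Fact (q.Coprime n)] (hR : R ∣ n) (hN : N ∣ q * R * q) (hc : GaloisReps.ConjProperty N)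

local notation "GAL" => TorsionIso.gal (torsionIso N p hc)

theorem isIntegral_apply_units {S : Type*} [CommRing S] [Algebra ℤ_[p] S]
    (θ : (ZMod q)ˣ →* S) (u : (ZMod q)ˣ) : IsIntegral ℤ_[p] (θ u) :=
  IsIntegral.of_pow (orderOf_pos u) (by
    rw [← map_pow, pow_orderOf_eq_one, map_one]; exact isIntegral_one)

/-- The geometric theorem over the complex numbers. -/
theorem twPi_eq_zero_complex (hpq : p ≠ q) (ι : ℤ_[p] →+* ℂ) (hι : Function.Injective ι)
    (θ χ : (ZMod q)ˣ →* ℂ) (h₁ : ∑ a, θ a * χ a = 0) (h₂ : ∑ a, θ a * χ a⁻¹ = 0)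
    {A : ValuationSubring QBar} (hA : A.LiesOverPrime q) {L : ℕ} (hL : L = 7 ∨ L = 9)
    (hLn : L ∣ n) (w : Fin (2 * Gamma0.genus N) → ℂ)
    (hw : ∀ σ ∈ A.inertiaSubgroupIn ℚ, ∀ d : (ZMod q)ˣ,
      (∀ μ : QBar, μ ^ q = 1 → σ μ = μ ^ (d : ZMod q).val) →
      ((GAL σ).map ι).mulVec w = θ d • w) :
    twPi (q := q) (n := n) hR hN ℂ χ w = 0 := by
  classical
  let : Algebra ℤ_[p] ℂ := ι.toAlgebra
  let gens : Set ℂ := Set.range θ ∪ Set.range χ
  let S : Subalgebra ℤ_[p] ℂ := Algebra.adjoin ℤ_[p] gens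
  have : Module.Finite ℤ_[p] S := Module.Finite.iff_fg.mpr <|
    fg_adjoin_of_finite ((Set.finite_range θ).union (Set.finite_range χ)) fun x hx => by
      rcases hx with ⟨u, rfl⟩ | ⟨u, rfl⟩ <;> exact isIntegral_apply_units _ u
  have : FaithfulSMul ℤ_[p] ℂ := (faithfulSMul_iff_algebraMap_injective _ _).mpr hι
  have : Module.Free ℤ_[p] S := Module.free_of_finite_type_torsion_free'
  let j : S →+* ℂ := S.val.toRingHom
  have hj : Function.Injective j := Subtype.val_injective
  let θS : (ZMod q)ˣ →* S :=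
    θ.codRestrict S fun u => Algebra.subset_adjoin (Or.inl ⟨u, rfl⟩)
  let χS : (ZMod q)ˣ →* S :=
    χ.codRestrict S fun u => Algebra.subset_adjoin (Or.inr ⟨u, rfl⟩)
  have hsum₁ : ∑ a, θS a * χS a = 0 := hj (by
    rw [map_sum, map_zero]; exact h₁)
  have hsum₂ : ∑ a, θS a * χS a⁻¹ = 0 := hj (by
    rw [map_sum, map_zero]; exact h₂)
  let E : Fin (2 * Gamma0.genus N) → Fin (2 * Gamma0.genus N) → S := fun i => Pi.single i 1
  let B : Matrix (Additive (Gamma (q * n))) (Fin (2 * Gamma0.genus N)) S :=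
    fun x i => twPi (q := q) (n := n) hR hN S χS (E i) x
  have hB : ∀ (v : Fin (2 * Gamma0.genus N) → S) x,
      twPi (q := q) (n := n) hR hN S χS v x = (B *ᵥ v) x := fun v x => by
    conv_lhs => rw [pi_eq_sum_univ' v]
    simp only [map_sum, map_smul, AddMonoidHom.finsetSum_apply, AddMonoidHom.smul_apply,
      smul_eq_mul, Matrix.mulVec, dotProduct]
    exact Finset.sum_congr rfl fun i _ => mul_comm _ _
  let M : {x : (QBar ≃ₐ[ℚ] QBar) × (ZMod q)ˣ // x.1 ∈ A.inertiaSubgroupIn ℚ ∧
      ∀ μ : QBar, μ ^ q = 1 → x.1 μ = μ ^ (x.2 : ZMod q).val} →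
      Matrix (Fin (2 * Gamma0.genus N)) (Fin (2 * Gamma0.genus N)) S :=
    fun x => (GAL x.1.1).map (algebraMap ℤ_[p] S) - θS x.1.2 • 1
  have key : ∀ v : Fin (2 * Gamma0.genus N) → S, (∀ x, M x *ᵥ v = 0) → B *ᵥ v = 0 := by
    intro v hv
    funext x
    rw [← hB, twPi_eq_zero hR hN hc hpq θS χS hsum₁ hsum₂ hA hL hLn v fun σ hσ d hd => ?_]
    · rfl
    · have := hv ⟨(σ, d), hσ, hd⟩
      rwa [Matrix.sub_mulVec, sub_eq_zero, Matrix.smul_mulVec, Matrix.one_mulVec] at this
  have hres := mulVec_eq_zero_of_descent hj M B key w fun x => by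
    have := hw x.1.1 x.2.1 x.1.2 x.2.2
    have e : (M x).map j = (GAL x.1.1).map ι - θ x.1.2 • 1 := by
      ext a b
      by_cases hab : a = b
      · subst hab; simp [M]; rfl
      · simp [M, hab]; rfl
    rw [e, Matrix.sub_mulVec, this, Matrix.smul_mulVec, Matrix.one_mulVec, sub_self]
  refine AddMonoidHom.ext fun x => ?_
  have hBj : ∀ i, j (B x i) = twPi (q := q) (n := n) hR hN ℂ χ (Pi.single i 1) x := fun i => by
    have e := comp_twPi (q := q) (n := n) hR hN j χS (E i)
    have e2 : (fun k => j (E i k)) = Pi.single i 1 := funext fun k => by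
      rcases eq_or_ne k i with rfl | h
      · simp [E]
      · simp [E, h]
    rw [e2] at e
    exact DFunLike.congr_fun e x
  rw [AddMonoidHom.zero_apply, pi_eq_sum_univ' w]
  simp only [map_sum, map_smul, AddMonoidHom.finsetSum_apply, AddMonoidHom.smul_apply, smul_eq_mul,
    ← hBj]
  exact (Finset.sum_congr rfl fun i _ => mul_comm _ _).trans (congrFun hres x)

end Fermat.Agent.RT.InertiaTW

end
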