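import Fermat.Agent.RT.InertiaTW.Identity
import Mathlib.GroupTheory.GroupAction.Defs
import Mathlib.Algebra.BigOperators.GroupWithZero.Action

/-!
# Twisting and tracing an eigenvector of the lower Borel subgroup

If `f` is fixed by the lower unipotent matrices and is an eigenvector of `diag(u⁻¹, u)` with
a nontrivial character, then the trace to the lower unipotents of the double twist of `f` by `χ`
is `χ(-1) q (q - 1) f`.
-/

set_option autoImplicit false

namespace Fermat.Agent.RT.InertiaTW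

open Carayol Matrix.SpecialLinearGroup
open scoped MatrixGroups

variable {q : ℕ} [Fact q.Prime] {O : Type*} [CommRing O] {M : Type*} [AddCommGroup M] [Module O M]
  [DistribMulAction (SL(2, ZMod q)) M] [SMulCommClass (SL(2, ZMod q)) O M]
  (χ : (ZMod q)ˣ →* O)

/-- `u⁺` in the special linear group. -/
def sPlus (a : ZMod q) : SL(2, ZMod q) := ⟨!![1, a; 0, 1], by simp [Matrix.det_fin_two]⟩

/-- `u⁻` in the special linear group. -/
def sMinus (a : ZMod q) : SL(2, ZMod q) := ⟨!![1, 0; a, 1], by simp [Matrix.det_fin_two]⟩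

/-- The Weyl element in the special linear group. -/
def sWeyl : SL(2, ZMod q) := ⟨!![0, 1; -1, 0], by simp [Matrix.det_fin_two]⟩

/-- `diag(u⁻¹, u)` in the special linear group. -/
def sDiag (u : (ZMod q)ˣ) : SL(2, ZMod q) :=
  ⟨!![((u⁻¹ : (ZMod q)ˣ) : ZMod q), 0; 0, (u : ZMod q)], by
    rw [Matrix.det_fin_two_of, mul_zero, sub_zero, Units.inv_mul]⟩

/-- The twisting operator `∑ χ(u) u⁺`. -/
def twistOp (x : M) : M := ∑ u : (ZMod q)ˣ, χ u • (sPlus (u : ZMod q) • x)

/-- The trace to the lower unipotents. -/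
def lowerTr (x : M) : M := ∑ s : ZMod q, (sMinus s) • x

theorem coe_sPlus (a : ZMod q) :
    (sPlus a : Matrix (Fin 2) (Fin 2) (ZMod q)) = !![1, a; 0, 1] := rfl

theorem coe_sMinus (a : ZMod q) :
    (sMinus a : Matrix (Fin 2) (Fin 2) (ZMod q)) = !![1, 0; a, 1] := rfl

theorem coe_sWeyl :
    ((sWeyl : SL(2, ZMod q)) : Matrix (Fin 2) (Fin 2) (ZMod q)) = !![0, 1; -1, 0] := rfl

theorem coe_sDiag (u : (ZMod q)ˣ) : (sDiag u : Matrix (Fin 2) (Fin 2) (ZMod q)) =
    !![((u⁻¹ : (ZMod q)ˣ) : ZMod q), 0; 0, (u : ZMod q)] := rfl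

theorem sPlus_mul (a b : ZMod q) : sPlus a * sPlus b = sPlus (a + b) :=
  Subtype.ext (by simp [coe_sPlus, add_comm])

theorem sPlus_zero : sPlus (0 : ZMod q) = 1 :=
  Subtype.ext (by simp [coe_sPlus, Matrix.one_fin_two])

theorem sMinus_mul (a b : ZMod q) : sMinus a * sMinus b = sMinus (a + b) :=
  Subtype.ext (by simp [coe_sMinus])

/-- Bruhat: `u⁺(u) = u⁻(1/u) w diag(1/u, u) u⁻(1/u)`. -/
theorem sPlus_units (u : (ZMod q)ˣ) : sPlus (u : ZMod q) =
    sMinus ((u⁻¹ : (ZMod q)ˣ) : ZMod q) * sWeyl * sDiag u *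
      sMinus ((u⁻¹ : (ZMod q)ˣ) : ZMod q) := by
  refine Subtype.ext ?_
  have := u.ne_zero
  rw [Matrix.SpecialLinearGroup.coe_mul, Matrix.SpecialLinearGroup.coe_mul,
    Matrix.SpecialLinearGroup.coe_mul, coe_sPlus, coe_sMinus, coe_sWeyl, coe_sDiag,
    Matrix.mul_fin_two, Matrix.mul_fin_two, Matrix.mul_fin_two, Units.val_inv_eq_inv_val]
  ext i j
  fin_cases i <;> fin_cases j <;>
    simp only [Fin.zero_eta, Fin.mk_one, Fin.isValue, Matrix.cons_val', Matrix.cons_val_zero,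
      Matrix.cons_val_one, Matrix.cons_val_fin_one, Matrix.of_apply] <;>
    field_simp <;> ring

theorem sum_sPlus (x : M) :
    ∑ v : ZMod q, (sPlus v) • x =
      x + ∑ u : (ZMod q)ˣ, (sPlus (u : ZMod q)) • x := by
  classical
  rw [← Finset.add_sum_erase _ _ (Finset.mem_univ (0 : ZMod q)), sPlus_zero, one_smul]
  congr 1
  refine (Finset.sum_bij (fun (u : (ZMod q)ˣ) _ => (u : ZMod q)) (fun u _ => ?_) (fun a _ b _ => Units.ext)
    (fun v hv => ⟨Units.mk0 v (Finset.ne_of_mem_erase hv), Finset.mem_univ _, rfl⟩)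
    (fun u _ => rfl)).symm
  exact Finset.mem_erase.mpr ⟨u.ne_zero, Finset.mem_univ _⟩

theorem lowerTr_sMinus (s : ZMod q) (x : M) :
    lowerTr (q := q) ((sMinus s) • x) = lowerTr (q := q) x := by
  simp only [lowerTr, smul_smul, sMinus_mul]
  exact Fintype.sum_equiv (Equiv.addRight s) _ _ fun _ => rfl

/-- The double twist of `f` is `χ(-1) (q f - ∑ u⁺ f)`. -/
theorem twistOp_twistOp (hχ : ∑ u : (ZMod q)ˣ, χ u = 0) (f : M) :
    twistOp χ (∑ w : (ZMod q)ˣ, χ w⁻¹ • ((sPlus (w : ZMod q)) • f)) =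
      χ (-1) • ((q : ℤ) • f - ∑ v : ZMod q, (sPlus v) • f) := by
  classical
  simp only [twistOp, Finset.smul_sum, smul_comm (sPlus _) (χ _), smul_smul,
    sPlus_mul]
  rw [Finset.sum_comm]
  have h1 : ∀ w : (ZMod q)ˣ, ∑ u : (ZMod q)ˣ,
      (χ u * χ w⁻¹) • ((sPlus ((u : ZMod q) + (w : ZMod q))) • f) =
        ∑ r : (ZMod q)ˣ, χ r • ((sPlus (((r : ZMod q) + 1) * (w : ZMod q))) • f) :=
    fun w => Fintype.sum_equiv (Equiv.mulRight w⁻¹) _ _ fun u => by
      rw [Equiv.coe_mulRight, map_mul]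
      congr 3
      rw [Units.val_mul, add_mul, one_mul, mul_assoc, Units.inv_mul, mul_one]
  simp only [h1]
  rw [Finset.sum_comm]
  have h2 : ∀ r : (ZMod q)ˣ, r ≠ -1 →
      ∑ w : (ZMod q)ˣ, χ r • ((sPlus (((r : ZMod q) + 1) * (w : ZMod q))) • f) =
        χ r • (∑ v : ZMod q, (sPlus v) • f - f) := fun r hr => by
    have hr0 : (r : ZMod q) + 1 ≠ 0 := fun h => hr (Units.ext (by
      rw [Units.val_neg, Units.val_one]; exact eq_neg_of_add_eq_zero_left h))
    rw [← Finset.smul_sum, sum_sPlus, add_sub_cancel_left]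
    refine congrArg _ (Fintype.sum_equiv (Equiv.mulLeft (Units.mk0 _ hr0)) _ _ fun w => ?_)
    rw [Equiv.coe_mulLeft, Units.val_mul, Units.val_mk0]
  rw [← Finset.add_sum_erase _ _ (Finset.mem_univ (-1 : (ZMod q)ˣ)),
    Finset.sum_congr rfl fun r hr => h2 r (Finset.ne_of_mem_erase hr), ← Finset.sum_smul,
    Finset.sum_erase_eq_sub (Finset.mem_univ _), hχ, zero_sub]
  simp only [Units.val_neg, Units.val_one, neg_add_cancel, zero_mul, sPlus_zero, one_smul,
    Finset.sum_const, ← natCast_zsmul, natCast_card_units]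
  rw [sub_smul, one_smul, ← smul_comm (χ (-1)) (q : ℤ), smul_sub, smul_sub, neg_smul, neg_smul]
  abel

/-- The trace of the double twist. -/
theorem lowerTr_twistOp_twistOp (hχ : ∑ u : (ZMod q)ˣ, χ u = 0) {μ : (ZMod q)ˣ → O}
    (hμ : ∑ u : (ZMod q)ˣ, μ u = 0) {f : M}
    (hU : ∀ s : ZMod q, (sMinus s) • f = f)
    (hD : ∀ u : (ZMod q)ˣ, (sDiag u) • f = μ u • f) :
    lowerTr (q := q) (twistOp χ
      (∑ w : (ZMod q)ˣ, χ w⁻¹ • ((sPlus (w : ZMod q)) • f))) =
      χ (-1) • (((q : ℤ) * ((q : ℤ) - 1)) • f) := by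
  classical
  have hq : lowerTr (q := q) f = (q : ℤ) • f := by
    simp [lowerTr, hU, ZMod.card]
  have hadd : ∀ x y : M, lowerTr (q := q) (x - y) = lowerTr (q := q) x - lowerTr (q := q) y :=
    fun x y => by simp [lowerTr, smul_sub, Finset.sum_sub_distrib]
  have hsm : ∀ (c : O) (x : M), lowerTr (q := q) (c • x) = c • lowerTr (q := q) x := fun c x => by
    simp only [lowerTr, Finset.smul_sum, smul_comm _ c]
  have hsum : lowerTr (q := q) (∑ v : ZMod q, (sPlus v) • f) = (q : ℤ) • f := by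
    have e : ∀ u : (ZMod q)ˣ, lowerTr (q := q) ((sPlus (u : ZMod q)) • f) =
        μ u • lowerTr (q := q) ((sWeyl) • f) := fun u => by
      rw [sPlus_units, mul_smul, hU, mul_smul, hD, smul_comm _ (μ u), hsm, mul_smul,
        lowerTr_sMinus]
    have : lowerTr (q := q) (∑ u : (ZMod q)ˣ, (sPlus (u : ZMod q)) • f) =
        ∑ u : (ZMod q)ˣ, lowerTr (q := q) ((sPlus (u : ZMod q)) • f) := by
      simp only [lowerTr, Finset.smul_sum]
      exact Finset.sum_comm
    have hadd' : ∀ x y : M, lowerTr (q := q) (x + y) = lowerTr (q := q) x + lowerTr (q := q) y :=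
      fun x y => by simp [lowerTr, smul_add, Finset.sum_add_distrib]
    rw [sum_sPlus, hadd', this, Finset.sum_congr rfl fun u _ => e u, ← Finset.sum_smul, hμ,
      zero_smul, add_zero, hq]
  rw [twistOp_twistOp χ hχ, hsm, hadd, hsum]
  congr 1
  have hz : lowerTr (q := q) ((q : ℤ) • f) = (q : ℤ) • lowerTr (q := q) f := by
    simp [lowerTr, Finset.smul_sum, smul_comm _ q]
  rw [hz, hq, smul_smul, mul_sub, mul_one, sub_smul]

end Fermat.Agent.RT.InertiaTW
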