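import Fermat.Agent.Carayol.Rational
import Mathlib.LinearAlgebra.Lagrange

/-!
# The inertia elements fixing the `q`-th roots of unity

An element fixed by them is a polynomial in a primitive root `ζ` over the field fixed by inertia
(Lagrange interpolation along the orbit of `ζ`).
-/

set_option autoImplicit false

noncomputable section

namespace Fermat.Agent.RT.InertiaTW

open Fermat.Agent.Arith
open Fermat.Agent.Carayol (inertiaField mem_inertiaField)

variable (A : ValuationSubring QBar) (q : ℕ)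

/-- The inertia elements fixing the `q`-th roots of unity. -/
def inertiaOne : Subgroup (QBar ≃ₐ[ℚ] QBar) where
  carrier := {σ | σ ∈ A.inertiaSubgroupIn ℚ ∧ ∀ μ : QBar, μ ^ q = 1 → σ μ = μ}
  one_mem' := ⟨one_mem _, fun _ _ => rfl⟩
  mul_mem' {σ τ} hσ hτ :=
    ⟨mul_mem hσ.1 hτ.1, fun μ hμ => by rw [AlgEquiv.mul_apply, hτ.2 μ hμ, hσ.2 μ hμ]⟩
  inv_mem' {σ} hσ := ⟨inv_mem hσ.1, fun μ hμ => σ.injective (by
    rw [← AlgEquiv.mul_apply, mul_inv_cancel, AlgEquiv.one_apply, hσ.2 μ hμ])⟩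

variable {A q} [Fact q.Prime] (hA : A.LiesOverPrime q) {ζ : QBar} (hζ : IsPrimitiveRoot ζ q)

include hζ in
theorem eq_pow_of_apply {σ : QBar ≃ₐ[ℚ] QBar} {a : ℕ} (h : σ ζ = ζ ^ a) {μ : QBar}
    (hμ : μ ^ q = 1) : σ μ = μ ^ a := by
  obtain ⟨i, -, rfl⟩ := hζ.eq_pow_of_pow_eq_one hμ
  rw [map_pow, h, ← pow_mul, ← pow_mul, mul_comm]

include hA in
theorem exists_inertia_unit (d : (ZMod q)ˣ) :
    ∃ σ ∈ A.inertiaSubgroupIn ℚ, ∀ μ : QBar, μ ^ q = 1 → σ μ = μ ^ (d : ZMod q).val := by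
  have hq : q.Prime := Fact.out
  obtain ⟨ζ, hζ⟩ := HasEnoughRootsOfUnity.exists_primitiveRoot QBar q
  obtain ⟨σ, hσ, h⟩ := Mazur.Eisenstein.exists_inertia_apply hA hq (m := 0) (ζ := ζ)
    (η := ζ ^ (d : ZMod q).val) (by rwa [zero_add, pow_one])
    (by rw [zero_add, pow_one]; exact hζ.pow_of_coprime _ (ZMod.val_coe_unit_coprime d))
  exact ⟨σ, hσ, fun μ hμ => eq_pow_of_apply hζ h hμ⟩

omit [Fact q.Prime] in
include hζ in
theorem apply_eq_of_fixed {σ τ : QBar ≃ₐ[ℚ] QBar} (hσ : σ ∈ A.inertiaSubgroupIn ℚ)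
    (hτ : τ ∈ A.inertiaSubgroupIn ℚ) (h : σ ζ = τ ζ) [NeZero q] {c : QBar}
    (hc : c ∈ IntermediateField.fixedField (inertiaOne A q)) : σ c = τ c := by
  have hmem : τ⁻¹ * σ ∈ inertiaOne A q := by
    refine ⟨mul_mem (inv_mem hτ) hσ, fun μ hμ => ?_⟩
    obtain ⟨i, -, rfl⟩ := hζ.eq_pow_of_pow_eq_one hμ
    rw [map_pow, AlgEquiv.mul_apply, h, ← AlgEquiv.mul_apply, inv_mul_cancel, AlgEquiv.one_apply]
  have := congrArg τ ((IntermediateField.mem_fixedField_iff _ _).mp hc _ hmem)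
  rwa [← AlgEquiv.mul_apply, mul_inv_cancel_left] at this

include hA hζ in
/-- An element fixed by `inertiaOne A q` is a combination of powers of `ζ` with coefficients in the
inertia field. -/
theorem exists_sum_of_fixed {c : QBar} (hc : c ∈ IntermediateField.fixedField (inertiaOne A q)) :
    ∃ (m : ℕ) (a : ℕ → QBar), (∀ i, a i ∈ inertiaField A) ∧
      c = ∑ i ∈ Finset.range m, a i * ζ ^ i := by
  classical
  have hq : q.Prime := Fact.out
  choose σ hσ hσζ' using fun u : (ZMod q)ˣ => exists_inertia_unit hA u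
  have hσζ : ∀ u, σ u ζ = ζ ^ (u : ZMod q).val := fun u => hσζ' u ζ hζ.pow_eq_one
  let v : (ZMod q)ˣ → QBar := fun u => ζ ^ (u : ZMod q).val
  have hv : Function.Injective v := fun u u' h => Units.ext
    (ZMod.val_injective q (hζ.pow_inj (ZMod.val_lt _) (ZMod.val_lt _) h))
  set r : (ZMod q)ˣ → QBar := fun u => σ u c with hr
  set P := Lagrange.interpolate Finset.univ v r with hP
  have hev : ∀ u, P.eval (v u) = r u := fun u =>
    Lagrange.eval_interpolate_at_node r hv.injOn (Finset.mem_univ u)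
  have hfix : ∀ τ ∈ A.inertiaSubgroupIn ℚ, P.map (τ : QBar →+* QBar) = P := by
    intro τ hτ
    refine Lagrange.eq_interpolate_of_eval_eq r hv.injOn ?_ fun u _ => ?_
    · exact (Polynomial.degree_map_le).trans_lt (Lagrange.degree_interpolate_lt r hv.injOn)
    obtain ⟨i, -, hi⟩ := hζ.eq_pow_of_pow_eq_one
      (show (τ.symm ζ) ^ q = 1 by rw [← map_pow, hζ.pow_eq_one, map_one])
    obtain ⟨u', hu'⟩ : ∃ u' : (ZMod q)ˣ, v u' = τ.symm (v u) := by
      obtain ⟨j, hjq, hj⟩ := hζ.eq_pow_of_pow_eq_one (show (τ.symm (v u)) ^ q = 1 by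
        rw [← map_pow, ← pow_mul, mul_comm, pow_mul, hζ.pow_eq_one, one_pow, map_one])
      have hj0 : (j : ZMod q) ≠ 0 := fun h0 => by
        rw [ZMod.natCast_eq_zero_iff] at h0
        obtain rfl : j = 0 := Nat.eq_zero_of_dvd_of_lt h0 hjq
        rw [pow_zero, eq_comm, map_eq_one_iff _ τ.symm.injective] at hj
        exact (u.ne_zero) ((ZMod.val_eq_zero _).mp
          (Nat.eq_zero_of_dvd_of_lt (hζ.dvd_of_pow_eq_one _ hj) (ZMod.val_lt _)))
      exact ⟨Units.mk0 _ hj0, by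
        show ζ ^ (j : ZMod q).val = _
        rw [ZMod.val_natCast, Nat.mod_eq_of_lt hjq, hj]⟩
    have e : v u = τ (v u') := by rw [hu', AlgEquiv.apply_symm_apply]
    rw [e]
    show (P.map (τ : QBar →+* QBar)).eval ((τ : QBar →+* QBar) (v u')) = r u
    rw [Polynomial.eval_map_apply, hev]
    show τ (σ u' c) = σ u c
    rw [← AlgEquiv.mul_apply]
    refine apply_eq_of_fixed hζ (mul_mem hτ (hσ u')) (hσ u) ?_ hc
    rw [AlgEquiv.mul_apply, hσζ, hσζ]
    exact e.symm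
  refine ⟨P.natDegree + 1, P.coeff, fun i => (mem_inertiaField A).mpr fun τ hτ => ?_, ?_⟩
  · conv_rhs => rw [← hfix τ hτ]
    rw [Polynomial.coeff_map]
    rfl
  · rw [← Polynomial.eval_eq_sum_range]
    have h1 := hev 1
    simp only [v, Units.val_one, ZMod.val_one, pow_one, hr] at h1
    rw [h1]
    refine (apply_eq_of_fixed hζ (one_mem _) (hσ 1) ?_ hc)
    rw [hσζ, Units.val_one, ZMod.val_one, pow_one, AlgEquiv.one_apply]

end Fermat.Agent.RT.InertiaTW

end
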