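import Fermat.Agent.RT.InertiaTW.ClassFun
import Fermat.Agent.RT.InertiaTW.InertiaOne
import Fermat.Agent.Carayol.Bound.Main

/-!
# Classes fixed by the inertia elements fixing `μ_q` as units of the field of level `q n`

`f ↦ f (τ/q)` sends the normalised function of such a class to a unit of the field of level `q n`
over the field fixed by inertia, well defined up to `m`-th powers. The diagonal matrices of
determinant one fix it and `diag(1, d)` acts as an inertia element moving `μ_q` by `d`.
-/

set_option autoImplicit false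
set_option linter.unusedSectionVars false

noncomputable section

open scoped Classical

namespace Fermat.Agent.RT.InertiaTW

open ModularCurve AlgebraicCurve Matrix Fermat.Agent.Arith Fermat.Agent.Carayol
open Fermat.Agent.Carayol.Omega
open Fermat.Agent.JacTorsion (divGrp toTorsion)

/-- What is fixed for the integral study at `q`. -/
structure QData (q n : ℕ) [NeZero (q * n)] where
  /-- The place. -/
  A : ValuationSubring QBar
  hA : A.LiesOverPrime q
  /-- The embedding and the root of unity. -/
  E : Setup (q * n) QBar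
  hι : E.ι = JacTorsion.ιQ
  hcop : q.Coprime n
  /-- The order of the marked point. -/
  L : ℕ
  hL : L = 7 ∨ L = 9
  hLn : L ∣ n

attribute [local instance 2000] serAlg

theorem _root_.IsPrimitiveRoot.modEq_of_pow_eq_tw {M : Type*} [CommMonoid M] {ζ : M} {k : ℕ}
    [NeZero k] (hζ : IsPrimitiveRoot ζ k) {a b : ℕ} (h : ζ ^ a = ζ ^ b) : a ≡ b [MOD k] := by
  rw [pow_eq_pow_mod a hζ.pow_eq_one, pow_eq_pow_mod b hζ.pow_eq_one] at h
  exact hζ.pow_inj (Nat.mod_lt _ (NeZero.pos k)) (Nat.mod_lt _ (NeZero.pos k)) h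

namespace QData

variable {q n R N m : ℕ} [NeZero (q * n)] [Fact q.Prime] [NeZero n] [NeZero N] [NeZero m]
  (D : QData q n)

/-- The field of constants. -/
abbrev base : IntermediateField ℚ QBar := inertiaField D.A

/-- The field of level `q n`. -/
abbrev Om : Type := D.E.field D.base

/-- A shortcut, as the search for this instance is slow. -/
instance instAlgebraOm : Algebra D.base D.Om := SubalgebraClass.toAlgebra (D.E.field D.base)

/-- The level structure. -/
def level : TateLevel D.base D.Om :=
  D.E.tateLevel D.base D.hcop Fact.out D.L D.hL D.hLn fun d =>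
    exists_aut_inertiaField D.hA Fact.out
      ((Fact.out : q.Prime).coprime_iff_not_dvd.1 D.hcop) D.E.isPrimitiveRoot d

/-- The action of `GL₂(𝔽_q)`. -/
def act : GL (Fin 2) (ZMod q) →* (D.Om ≃ₐ[D.base] D.Om) := D.level.act

theorem act_moves (g : GL (Fin 2) (ZMod q)) :
    D.E.Moves D.base (D.act g) (liftMat D.hcop (g : Matrix (Fin 2) (Fin 2) (ZMod q))) :=
  D.E.act_moves D.base Fact.out D.L D.hL D.hLn D.hcop _ g

theorem goodPt : GoodPt (markLabel D.hcop D.L) := by
  have hord := nsmul_markLabel_eq_zero_iff D.hcop (NeZero.ne n) D.hLn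
  constructor <;> intro h
  · have := Nat.le_of_dvd (by norm_num) ((hord 2).mp h); have := D.hL; omega
  · have := Nat.le_of_dvd (by norm_num) ((hord 3).mp h); have := D.hL; omega

/-- A primitive `q`-th root of unity. -/
def zq : QBar := D.E.ζ ^ n

theorem isPrimitiveRoot_zq : IsPrimitiveRoot D.zq q :=
  D.E.isPrimitiveRoot.pow (Nat.pos_of_ne_zero (NeZero.ne (q * n))) (mul_comm q n)

theorem C_zq_mem : HahnSeries.C D.zq ∈ D.E.field D.base := by
  have := D.E.zetaS_mem (k := D.base) (n : ZMod (q * n))
  rwa [ZMod.val_natCast, Nat.mod_eq_of_lt (lt_mul_left (Nat.pos_of_ne_zero (NeZero.ne n))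
    (Fact.out : q.Prime).one_lt)] at this

/-- The constants fixed by the group. -/
theorem C_mem_field {c : QBar} (hc : c ∈ IntermediateField.fixedField (inertiaOne D.A q)) :
    HahnSeries.C c ∈ D.E.field D.base := by
  obtain ⟨r, a, ha, rfl⟩ := exists_sum_of_fixed D.hA D.isPrimitiveRoot_zq hc
  rw [map_sum]
  refine sum_mem fun i _ => ?_
  rw [map_mul, map_pow]
  refine mul_mem ?_ (pow_mem D.C_zq_mem i)
  have := (D.E.field D.base).algebraMap_mem (⟨a i, ha i⟩ : D.base)
  rwa [algebraMap_laurent_comp] at this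

variable (hR : R ∣ n) (hN : N ∣ q * R * q)

include hR hN in
theorem qExpand_mem {x : LaurentSeries QBar} (hx : x ∈ ratField (inertiaOne D.A q) N) :
    qExpand QBar n x ∈ D.E.field D.base := by
  induction hx using IntermediateField.adjoin_induction with
  | mem z hz =>
    obtain ⟨d, hd, hdN, rfl⟩ := hz
    have := hd
    exact D.E.qExpand_jd_mem D.base D.goodPt D.hcop Fact.out hR (hdN.trans hN)
  | algebraMap c =>
    rw [IsScalarTower.algebraMap_apply (IntermediateField.fixedField (inertiaOne D.A q)) QBar (LaurentSeries QBar),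
      algebraMap_laurent_comp, HahnSeries.C_apply, ModularCurve.qExpand_single, mul_zero,
      ← HahnSeries.C_apply]
    exact D.C_mem_field c.2
  | add a b _ _ ha hb => rw [map_add]; exact add_mem ha hb
  | inv a _ ha => rw [map_inv₀]; exact inv_mem ha
  | mul a b _ _ ha hb => rw [map_mul]; exact mul_mem ha hb

/-- `x ↦ x (q ^ n)`. -/
def toField : ratField (inertiaOne D.A q) N →+* D.Om where
  toFun x := ⟨qExpand QBar n (x : LaurentSeries QBar), D.qExpand_mem hR hN x.2⟩
  map_one' := Subtype.ext (map_one (qExpand QBar n))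
  map_mul' _ _ := Subtype.ext (map_mul (qExpand QBar n) _ _)
  map_zero' := Subtype.ext (map_zero (qExpand QBar n))
  map_add' _ _ := Subtype.ext (map_add (qExpand QBar n) _ _)

theorem coe_toField (x : ratField (inertiaOne D.A q) N) :
    ((D.toField hR hN x : D.Om) : LaurentSeries QBar) = qExpand QBar n (x : LaurentSeries QBar) :=
  rfl

/-- Constants of `Om` have trivial valuation. -/
theorem valuation_const (v : Valuation D.Om (WithZero (Multiplicative ℤ)))
    (hv : ∀ c : D.base, c ≠ 0 → v (algebraMap D.base D.Om c) = 1) {z : D.Om} {c : QBar}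
    (hz : (z : LaurentSeries QBar) = HahnSeries.C c) (hc : c ≠ 0) : v z = 1 := by
  have key : ∀ (w : D.Om) (b : QBar), (w : LaurentSeries QBar) = HahnSeries.C b → v w ≤ 1 := by
    intro w b hw
    obtain ⟨P, hP, hPb⟩ :=
      (Algebra.IsIntegral.tower_top (R := ℚ) : Algebra.IsIntegral D.base QBar).isIntegral b
    let κ : D.base →+* v.integer := (algebraMap D.base D.Om).codRestrict v.integer fun c => by
      rcases eq_or_ne c 0 with rfl | hc
      · rw [map_zero]; exact zero_mem _
      · exact (hv c hc).le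
    refine Valuation.Integers.mem_of_integral (Valuation.integer.integers v) ⟨P.map κ, hP.map κ, ?_⟩
    rw [Polynomial.eval₂_map, show (algebraMap v.integer D.Om).comp κ = algebraMap D.base D.Om from
      RingHom.ext fun _ => rfl]
    refine Subtype.val_injective ?_
    show (D.E.field D.base).subtype (Polynomial.eval₂ _ w P) = (D.E.field D.base).subtype 0
    rw [map_zero, Polynomial.hom_eval₂, show (D.E.field D.base).subtype w = HahnSeries.C b from hw,
      show ((D.E.field D.base).subtype : D.Om →+* LaurentSeries QBar).comp (algebraMap D.base D.Om) =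
        (HahnSeries.C : QBar →+* LaurentSeries QBar).comp (algebraMap D.base QBar) from
        RingHom.ext fun c => algebraMap_laurent_comp c, ← Polynomial.hom_eval₂, hPb, map_zero]
  refine le_antisymm (key z c hz) ?_
  have hz0 : z ≠ 0 := fun h => hc (HahnSeries.C_injective (by rw [← hz, h, map_zero]; rfl))
  have h := key z⁻¹ c⁻¹ (by rw [map_inv₀, ← hz]; rfl)
  rw [map_inv₀] at h
  exact (inv_le_one₀ (zero_lt_iff.mpr (v.ne_zero_iff.mpr hz0))).mp h

/-- The diagonal matrices of determinant one fix the image. -/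
theorem act_toField_of_diag {g : GL (Fin 2) (ZMod q)}
    (h01 : (g : Matrix (Fin 2) (Fin 2) (ZMod q)) 0 1 = 0)
    (h10 : (g : Matrix (Fin 2) (Fin 2) (ZMod q)) 1 0 = 0)
    (hdet : (g : Matrix (Fin 2) (Fin 2) (ZMod q)).det = 1)
    (x : ratField (inertiaOne D.A q) N) : D.act g (D.toField hR hN x) = D.toField hR hN x := by
  let F : Subfield D.Om := (RingHom.eqLocusField (D.act g).toRingEquiv.toRingHom (RingHom.id D.Om))
  suffices h : ∀ y (hy : y ∈ ratField (inertiaOne D.A q) N),
      D.toField hR hN ⟨y, hy⟩ ∈ F from h x x.2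
  have hz : D.act g (⟨_, D.C_zq_mem⟩ : D.Om) = ⟨_, D.C_zq_mem⟩ := by
    have e : (⟨_, D.C_zq_mem⟩ : D.Om) = D.E.fz D.base (n : ZMod (q * n)) := by
      refine Subtype.ext ?_
      show HahnSeries.C D.zq = HahnSeries.C (D.E.ζ ^ (n : ZMod (q * n)).val)
      rw [ZMod.val_natCast, Nat.mod_eq_of_lt (lt_mul_left (Nat.pos_of_ne_zero (NeZero.ne n))
        (Fact.out : q.Prime).one_lt)]
      rfl
    obtain ⟨hM, hz, -⟩ := D.act_moves g
    rw [e, hz, show (liftMat D.hcop (g : Matrix (Fin 2) (Fin 2) (ZMod q))).det = 1 from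
      (crt D.hcop).injective (by rw [crt_det_liftMat, hdet, map_one]; rfl), one_mul]
  intro y hy
  induction hy using IntermediateField.adjoin_induction with
  | mem z hz' =>
    obtain ⟨d, hd, hdN, rfl⟩ := hz'
    have := hd
    exact D.E.fixed_diag D.goodPt D.hcop Fact.out hR (hdN.trans hN) h01 h10 (D.act_moves g) rfl
  | algebraMap c =>
    obtain ⟨r, a, ha, hc⟩ := exists_sum_of_fixed D.hA D.isPrimitiveRoot_zq c.2
    have e : D.toField hR hN ⟨algebraMap _ _ c, (ratField _ N).algebraMap_mem c⟩ =
        ∑ i ∈ Finset.range r, algebraMap D.base D.Om ⟨a i, ha i⟩ *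
          (⟨_, D.C_zq_mem⟩ : D.Om) ^ i := by
      refine Subtype.ext ?_
      push_cast
      show qExpand QBar n (algebraMap (IntermediateField.fixedField (inertiaOne D.A q)) (LaurentSeries QBar) c) = _
      rw [IsScalarTower.algebraMap_apply (IntermediateField.fixedField (inertiaOne D.A q)) QBar
        (LaurentSeries QBar), algebraMap_laurent_comp, HahnSeries.C_apply, ModularCurve.qExpand_single,
        mul_zero, ← HahnSeries.C_apply]
      show HahnSeries.C (c : QBar) = _
      rw [hc, map_sum]
      refine Finset.sum_congr rfl fun i _ => ?_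
      rw [map_mul, map_pow]
      congr 1
      exact (algebraMap_laurent_comp (⟨a i, ha i⟩ : D.base)).symm
    rw [e]
    refine sum_mem fun i _ => mul_mem ?_ (pow_mem hz i)
    exact (D.act g).commutes _
  | add a b ha hb iha ihb => exact (map_add (D.toField hR hN) ⟨a, ha⟩ ⟨b, hb⟩) ▸ add_mem iha ihb
  | inv a ha iha => exact (map_inv₀ (D.toField hR hN) ⟨a, ha⟩) ▸ inv_mem iha
  | mul a b ha hb iha ihb => exact (map_mul (D.toField hR hN) ⟨a, ha⟩ ⟨b, hb⟩) ▸ mul_mem iha ihb

/-- `diag(1, d)` is the conjugation of the coefficients by an inertia element. -/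
theorem act_toField_galois {σ : QBar ≃ₐ[ℚ] QBar} (hσ : σ ∈ D.A.inertiaSubgroupIn ℚ)
    {d : (ZMod q)ˣ} (hd : ∀ μ : QBar, μ ^ q = 1 → σ μ = μ ^ (d : ZMod q).val)
    (x x' : ratField (inertiaOne D.A q) N)
    (h : (x' : LaurentSeries QBar) = coeffMap (σ : QBar →+* QBar) (x : LaurentSeries QBar)) :
    D.act (diagElt 1 d) (D.toField hR hN x) = D.toField hR hN x' := by
  have hq : q.Prime := Fact.out
  let σk : QBar ≃ₐ[D.base] QBar :=
    { σ.toRingEquiv with commutes' := fun x => (mem_inertiaField D.A).mp x.2 σ hσ }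
  obtain ⟨c, e, hc, hσc, he, he'⟩ := D.E.exists_moves_conj D.base σk
  have hnq : ¬ q ∣ n := hq.coprime_iff_not_dvd.1 D.hcop
  have hpr := D.E.isPrimitiveRoot
  have hcd : (crt D.hcop) (c : ZMod (q * n)) = ((d : ZMod q), 1) := by
    rw [map_natCast]
    refine Prod.ext ?_ ?_
    · rw [Prod.fst_natCast]
      have e1 : (D.E.ζ ^ n) ^ c = (D.E.ζ ^ n) ^ (d : ZMod q).val := by
        rw [← pow_mul, mul_comm n c, pow_mul, ← hσc, ← map_pow]
        exact hd _ D.isPrimitiveRoot_zq.pow_eq_one
      have e2 : c ≡ (d : ZMod q).val [MOD q] :=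
        D.isPrimitiveRoot_zq.modEq_of_pow_eq_tw e1
      rw [(ZMod.natCast_eq_natCast_iff _ _ _).mpr e2, ZMod.natCast_zmod_val]
    · rw [Prod.snd_natCast]
      have hζn : IsPrimitiveRoot (D.E.ζ ^ q) n :=
        hpr.pow (Nat.pos_of_ne_zero (NeZero.ne (q * n))) rfl
      have e1 : (D.E.ζ ^ q) ^ c = (D.E.ζ ^ q) ^ 1 := by
        rw [← pow_mul, mul_comm q c, pow_mul, ← hσc, ← map_pow, pow_one]
        exact Arith.inertia_root D.hA hq hσ hζn.pow_eq_one hnq
      rw [(ZMod.natCast_eq_natCast_iff _ _ _).mpr (hζn.modEq_of_pow_eq_tw e1), Nat.cast_one]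
  have hM : liftMat D.hcop ((diagElt 1 d : GL (Fin 2) (ZMod q)) : Matrix (Fin 2) (Fin 2) (ZMod q)) =
      diagMat (q * n) (c : ZMod (q * n)) := by
    ext i j
    apply (crt D.hcop).injective
    rw [crt_liftMat]
    fin_cases i <;> fin_cases j <;>
      simp only [diagMat, diagElt, Fin.zero_eta, Fin.mk_one, Matrix.of_apply, Matrix.cons_val',
        Matrix.cons_val_zero, Matrix.cons_val_one, Matrix.cons_val_fin_one, Fin.isValue, map_one,
        map_zero, Units.val_one, hcd] <;> simp
  have hg := D.act_moves (diagElt 1 d)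
  rw [hM] at hg
  rw [he.ext hg |>.symm]
  refine Subtype.ext ?_
  rw [he', coe_toField, coe_toField, ModularCurve.coeffMap_qExpand, h]
  rfl

end QData

end Fermat.Agent.RT.InertiaTW

end
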