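import Fermat.Agent.RT.InertiaTW.QuadEigen
import Mathlib.LinearAlgebra.Matrix.Vec

/-!
# No eigencharacter of inertia other than `χ^{±1}`

If the plane representation spans the matrices and inertia at `q` has the eigencharacter `θ` on it
with `θ χ` and `θ χ⁻¹` of sum zero, then every complex eigenvector of the good Hecke operators with
the eigenvalues of the plane is killed by the trace to the lower unipotents of the twist by `χ`.
-/

set_option autoImplicit false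
set_option linter.unusedSectionVars false

noncomputable section

open CongruenceSubgroup IsLocalRing
open scoped MatrixGroups Pointwise

namespace Fermat.Agent.RT.InertiaTW

open Fermat.Agent.Arith (QBar mem_inertia_smul_iff liesOverPrime_smul_iff)
open Fermat.Agent.GaloisReps (AbsGal TorsionIso torsionIso TorsionGalois)

variable {q n p R N : ℕ} [Fact q.Prime] [Fact p.Prime] [NeZero n] [NeZero (q * n)] [NeZero N]
  [Fact (q.Coprime n)] (hR : R ∣ n) (hN : N ∣ q * R * q) (hc : GaloisReps.ConjProperty N)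
  (G : TorsionGalois N p)
  {O : Type} [CommRing O] [IsDomain O] [IsDiscreteValuationRing O]

/-- The matrices `X` with `f (X e Y) = 0` are all, when they contain a spanning set. -/
theorem eq_zero_of_span {K M : Type*} [Field K] [AddCommGroup M] [Module K M]
    (f : Matrix (Fin 2) (Fin 2) K →ₗ[K] M) {T : Set (Matrix (Fin 2) (Fin 2) K)}
    (hT : Submodule.span K T = ⊤) {v : Fin 2 → K} (hv : v ≠ 0)
    (h : ∀ X ∈ T, ∀ c : Fin 2 → K, ∀ Y : Matrix (Fin 2) (Fin 2) K,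
      f (X * Matrix.vecMulVec v c * Y) = 0) : f = 0 := by
  have hall : ∀ (X : Matrix (Fin 2) (Fin 2) K) (c : Fin 2 → K), f (X * Matrix.vecMulVec v c) = 0 := by
    intro X c
    have hX : X ∈ Submodule.span K T := hT ▸ Submodule.mem_top
    induction hX using Submodule.span_induction with
    | mem Z hZ => simpa using h Z hZ c 1
    | zero => rw [zero_mul, map_zero]
    | add Z W _ _ h1 h2 => rw [add_mul, map_add, h1, h2, add_zero]
    | smul a Z _ h1 => rw [Matrix.smul_mul, map_smul, h1, smul_zero]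
  refine LinearMap.ext fun A => ?_
  obtain ⟨i, hi⟩ := Function.ne_iff.mp hv
  rw [LinearMap.zero_apply, Matrix.matrix_eq_sum_single A, map_sum]
  refine Finset.sum_eq_zero fun a _ => ?_
  rw [map_sum]
  refine Finset.sum_eq_zero fun b _ => ?_
  have e : Matrix.single a b (A a b) =
      Matrix.single a i ((v i)⁻¹) * Matrix.vecMulVec v (Pi.single b (A a b)) := by
    have hi' : v i ≠ 0 := hi
    ext k l
    simp [Matrix.mul_apply, Matrix.vecMulVec_apply, Matrix.single_apply, Pi.single_apply, ite_and,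
      eq_comm, hi']
    split_ifs <;> rfl
  rw [e]
  exact hall _ _

set_option maxHeartbeats 800000 in
include G hc in
/-- The vanishing. -/
theorem twPi_eq_zero_of_eigen (hpq : p ≠ q) (ιO : ℤ_[p] →+* O) {j : O →+* ℂ}
    (hj : Function.Injective j) (hι : Function.Injective (j.comp ιO))
    (ρ : AbsGal →* Matrix (Fin 2) (Fin 2) O)
    (hcont : ∀ m : ℕ, ∃ L : IntermediateField ℚ (AlgebraicClosure ℚ), FiniteDimensional ℚ L ∧
      ∀ σ : AbsGal, (∀ x ∈ L, σ x = x) → ∀ a b, (ρ σ - 1) a b ∈ maximalIdeal O ^ m)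
    (hpO : (p : O) ∈ maximalIdeal O) {S : Finset ℕ} {lamO : ℕ → O} {lam : ℕ → ℂ}
    (hfrob : ∀ ℓ : ℕ, ℓ.Prime → ℓ ∉ S → ∀ A : ValuationSubring (AlgebraicClosure ℚ),
      A.LiesOverPrime ℓ → ∀ σ : AbsGal, A.IsFrobeniusAt σ ℓ →
        (ρ σ).trace = lamO ℓ ∧ (ρ σ).det = (ℓ : O))
    (hlam : ∀ ℓ : ℕ, ℓ.Prime → ℓ ∉ S → j (lamO ℓ) = lam ℓ)
    (hspan : Submodule.span ℂ (Set.range fun σ => (ρ σ).map j) = ⊤)
    {A : ValuationSubring QBar} (hA : A.LiesOverPrime q) {v : Fin 2 → ℂ} (hv : v ≠ 0)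
    (θ χ : (ZMod q)ˣ →* ℂ) (h₁ : ∑ a, θ a * χ a = 0) (h₂ : ∑ a, θ a * χ a⁻¹ = 0)
    (hθ : ∀ σ ∈ A.inertiaSubgroupIn ℚ, ∀ d : (ZMod q)ˣ,
      (∀ μ : QBar, μ ^ q = 1 → σ μ = μ ^ (d : ZMod q).val) →
      ((ρ σ).map j).mulVec v = θ d • v)
    {L : ℕ} (hL : L = 7 ∨ L = 9) (hLn : L ∣ n) {w : Fin (2 * Gamma0.genus N) → ℂ}
    (hw : w ∈ eigW N S ℂ lam) :
    twPi (q := q) (n := n) hR hN ℂ χ w = 0 := by
  let ρK : AbsGal →* Matrix (Fin 2) (Fin 2) ℂ := (j.mapMatrix.toMonoidHom).comp ρ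
  obtain ⟨Φ, hΦ⟩ := exists_algHom_of_quadratic (A := Module.End ℂ (eigW N S ℂ lam))
    (ρ := ρK)
    (r := galW (torsionIso N p hc) G (j.comp ιO) (S := S) (lam := lam))
    (fun g => galW_quadratic (torsionIso N p hc) G ιO ρ hcont hpO hfrob hj lam hlam g) hspan
  let y : eigW N S ℂ lam := ⟨w, hw⟩
  let f : Matrix (Fin 2) (Fin 2) ℂ →ₗ[ℂ] (Additive (Gamma (q * n)) →+ ℂ) :=
    (twPi (q := q) (n := n) hR hN ℂ χ).comp ((eigW N S ℂ lam).subtype.comp
      ((LinearMap.applyₗ y).comp Φ.toLinearMap))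
  suffices hf : f = 0 by
    have := LinearMap.congr_fun hf 1
    simpa [f, y] using this
  refine eq_zero_of_span f hspan hv ?_
  rintro _ ⟨τ, rfl⟩ c Y
  show twPi hR hN ℂ χ ((Φ (ρK τ * Matrix.vecMulVec v c * Y) y : eigW N S ℂ lam) :
    Fin (2 * Gamma0.genus N) → ℂ) = 0
  refine twPi_eq_zero_complex (q := q) (n := n) hR hN hc hpq (j.comp ιO) hι θ χ h₁ h₂
    ((liesOverPrime_smul_iff (g := τ)).mpr hA) hL hLn _ fun σ hσ d hd => ?_
  set σ₀ := τ⁻¹ * σ * τ with hσ₀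
  have hσ₀A : σ₀ ∈ A.inertiaSubgroupIn ℚ := (mem_inertia_smul_iff (g := τ)).mp (by
    rw [hσ₀]; group; exact hσ)
  have hσ₀d : ∀ μ : QBar, μ ^ q = 1 → σ₀ μ = μ ^ (d : ZMod q).val := fun μ hμ => by
    rw [hσ₀, AlgEquiv.mul_apply, AlgEquiv.mul_apply, hd (τ μ) (by rw [← map_pow, hμ, map_one]),
      map_pow, ← AlgEquiv.mul_apply, inv_mul_cancel, AlgEquiv.one_apply]
  have e : ρK σ * (ρK τ * Matrix.vecMulVec v c * Y) =
      θ d • (ρK τ * Matrix.vecMulVec v c * Y) := by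
    have hmove : ρK σ * ρK τ = ρK τ * ρK σ₀ := by
      rw [← map_mul, ← map_mul, hσ₀]; group
    rw [← mul_assoc, ← mul_assoc, hmove, mul_assoc (ρK τ), Matrix.mul_vecMulVec]
    rw [show (ρK σ₀).mulVec v = θ d • v from hθ σ₀ hσ₀A d hσ₀d, Matrix.smul_vecMulVec,
      Matrix.mul_smul, Matrix.smul_mul]
  have := congrArg (fun X => ((Φ X y : eigW N S ℂ lam) : Fin (2 * Gamma0.genus N) → ℂ)) e
  simp only [map_mul Φ, map_smul, hΦ, Module.End.mul_apply, LinearMap.smul_apply,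
    Submodule.coe_smul, coe_galW] at this ⊢
  exact this

end Fermat.Agent.RT.InertiaTW

end
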