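import Fermat.Agent.RT.InertiaTW.TwistPeriod
import Fermat.Agent.RT.InertiaTW.Coeffs
import Fermat.Agent.RT.GammaH.Twist
import Fermat.Agent.RT.GammaH.NebHecke
import Fermat.Agent.NewformLocal.Toric.Homs

/-!
# A vector which the twisted trace does not kill

The twist by `χ` of a form of nebentypus `χ⁻²` at `q` has trivial nebentypus on `Γ₀(q²R)` and gives
a vector with the eigenvalues of the twist; the trace to the lower unipotents of the twist by `χ`
of its periods on `Γ(qn)` is a nonzero multiple of the periods of the form.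
-/

set_option autoImplicit false
set_option linter.unusedSectionVars false

noncomputable section

open UpperHalfPlane hiding I
open CongruenceSubgroup Matrix.SpecialLinearGroup ModularFormClass
open scoped MatrixGroups ModularForm

namespace Fermat.Agent.RT.InertiaTW

open Fermat.Agent.Periods (IsPrimitive periodMapLin periodMapLin_apply periodMap_eq
  periodMap_mem_parabolicHoms)
open Fermat.Agent.RT.GammaH (IsNeb HasCoeff seqOp nebWeight transl translSum det_transl_pos)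
open Fermat.Agent.GaloisReps (coord atkinHom opMat homOp coord_homOp)

variable {q R : ℕ} [Fact q.Prime] [NeZero R] [NeZero (q ^ 2 * R)]
  {χ : DirichletCharacter ℂ q} {f : ℍ → ℂ} {a : ℕ → ℂ}

/-- The weights of the twist. -/
def twistWeight (χ : DirichletCharacter ℂ q) (x : ZMod q) : ℂ :=
  (gaussSum χ⁻¹ ZMod.stdAddChar)⁻¹ * χ⁻¹ x

theorem gaussSum_ne_zero_twist (hχ : χ ≠ 1) : gaussSum χ⁻¹ ZMod.stdAddChar ≠ 0 := by
  have : NeZero q := ⟨(Fact.out : q.Prime).ne_zero⟩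
  exact gaussSum_ne_zero_of_nontrivial (by simp [NeZero.ne q]) (inv_ne_one.2 hχ)
    (ZMod.isPrimitive_stdAddChar q)

theorem sum_units_of_ne_one {ψ : DirichletCharacter ℂ q} (hψ : ψ ≠ 1) :
    ∑ u : (ZMod q)ˣ, ψ (u : ZMod q) = 0 := by
  refine sum_hom_units_eq_zero (ψ.toMonoidHom.comp (Units.coeHom (ZMod q))) fun h => hψ ?_
  exact MulChar.ext fun u => (DFunLike.congr_fun h u).trans (MulChar.one_apply_coe u).symm

/-- The twist as a form on `Γ₀(q²R)`. -/
theorem exists_twistForm [NeZero q] (hχ : χ ≠ 1) (hf : IsNeb (q * R) (χ⁻¹ ^ 2) f)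
    (ha : HasCoeff f a) :
    ∃ F : CuspForm (Gamma0 (q ^ 2 * R)) 2, ⇑F = translSum q (twistWeight χ) f ∧
      ∀ n, qCoeff F n = χ (n : ZMod q) * a n := by
  have : NeZero (q * R * q) := ⟨by
    simp [NeZero.ne q, NeZero.ne R]⟩
  obtain ⟨Φ, hΦ, hΦa, hΦe⟩ := GammaH.exists_twist_prime (dvd_mul_right q R) (dvd_refl q)
    (dvd_mul_right q R) hf ha (α := χ) hχ
  have hone : χ⁻¹ ^ 2 * DirichletCharacter.changeLevel (dvd_refl q) χ ^ 2 = 1 := by
    rw [DirichletCharacter.changeLevel_self, ← mul_pow, inv_mul_cancel, one_pow]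
  rw [hone] at hΦ
  have hsub : ∀ γ ∈ Gamma0 (q ^ 2 * R), Φ ∣[(2 : ℤ)] γ = Φ := fun γ hγ => by
    have hγ' : γ ∈ Gamma0 (q * R * q) := by
      rwa [show q * R * q = q ^ 2 * R by ring]
    rw [hΦ.neb γ hγ', MulChar.one_apply, one_smul]
    have := DeligneSerre.isUnit_lowerRight hγ'
    have h := this.map (ZMod.castHom (dvd_mul_left q (q * R)) (ZMod q))
    rwa [map_intCast] at h
  refine ⟨DeligneSerre.mkCuspForm (Gamma0 (q ^ 2 * R)) 2 Φ hsub hΦ.cusp.1
    (fun γ => by simpa [SlashAction.slash_one] using (hΦ.cusp.slash_SL γ).2 1), hΦe, fun n => ?_⟩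
  exact hΦ.qCoeff_eq (dvd_mul_left q (q * R)) hΦa n

/-- The twist has the twisted eigenvalues. -/
theorem heckeOp_twistForm [NeZero q] {F : CuspForm (Gamma0 (q ^ 2 * R)) 2}
    (hF : ∀ n, qCoeff F n = χ (n : ZMod q) * a n) {ℓ : ℕ} (hℓ : ℓ.Prime)
    (hℓN : ¬ ℓ ∣ q ^ 2 * R) {lam : ℂ}
    (heig : ∀ n, seqOp (nebWeight (χ⁻¹ ^ 2)) ℓ a n = χ⁻¹ (ℓ : ZMod q) * lam * a n) :
    (HeckeDuality.heckeOp (q ^ 2 * R) 2 ℓ hℓ).1 F = lam • F := by
  have hu : IsUnit ((ℓ : ℕ) : ZMod q) := by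
    rw [ZMod.isUnit_iff_coprime]
    exact hℓ.coprime_iff_not_dvd.mpr fun h => hℓN ((h.trans (dvd_pow_self q two_ne_zero)).mul_right R)
  have hinv : χ (ℓ : ZMod q) * χ⁻¹ (ℓ : ZMod q) = 1 := by
    rw [← MulChar.mul_apply, mul_inv_cancel, MulChar.one_apply hu]
  refine HeckeDuality.ext_coeff fun n => ?_
  rw [HeckeDuality.coeff_heckeOp, HeckeDuality.coeff_smul, HeckeDuality.eulerWeight, if_neg hℓN]
  simp only [hF]
  have h := heig n
  rw [seqOp] at h
  by_cases hn : ℓ ∣ n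
  · obtain ⟨k, rfl⟩ := hn
    rw [if_pos (dvd_mul_right ℓ k), Nat.mul_div_cancel_left _ hℓ.pos, nebWeight,
      MulChar.pow_apply' _ two_ne_zero] at h
    rw [if_pos (dvd_mul_right ℓ k), Nat.mul_div_cancel_left _ hℓ.pos]
    push_cast
    simp only [map_mul]
    linear_combination χ (ℓ : ZMod q) ^ 2 * χ (k : ZMod q) * h
      - χ (k : ZMod q) * (ℓ : ℂ) * a k * (χ (ℓ : ZMod q) * χ⁻¹ (ℓ : ZMod q) + 1) * hinv
      + χ (ℓ : ZMod q) * χ (k : ZMod q) * lam * a (ℓ * k) * hinv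
  · rw [if_neg hn, add_zero] at h
    rw [if_neg hn, add_zero]
    push_cast
    simp only [map_mul]
    linear_combination χ (n : ZMod q) * χ (ℓ : ZMod q) * h + χ (n : ZMod q) * lam * a n * hinv

variable {n : ℕ} [NeZero (q * n)] [Fact (q.Coprime n)] (hR : R ∣ n)
  (hN : q ^ 2 * R ∣ q * R * q)

/-- The periods of the twist on `Γ(qn)`. -/
theorem resHom_periodMap [NeZero q] (hneg : χ (-1) = 1) (hf : IsNeb (q * R) (χ⁻¹ ^ 2) f)
    {F : CuspForm (Gamma0 (q ^ 2 * R)) 2} (hF : ⇑F = translSum q (twistWeight χ) f) :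
    resHom hR hN ℂ (periodMapLin (q ^ 2 * R) F) =
      (gaussSum χ⁻¹ ZMod.stdAddChar)⁻¹ • ∑ u : (ZMod q)ˣ,
        (χ.toMonoidHom.comp (Units.coeHom (ZMod q))) u⁻¹ •
          sPlus (u : ZMod q) • rescPer hf hR := by
  classical
  obtain ⟨G, hG⟩ := exists_primitive_neb hf
  set w := twistWeight χ
  have hFG : IsPrimitive ⇑F (fun z => ∑ x : ZMod q, w x * G (transl q x.val • z)) := by
    intro τ
    have hτ : F τ = ∑ x : ZMod q, w x * (f ∣[(2 : ℤ)] transl q x.val) τ := by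
      rw [hF, GammaH.translSum, Finset.sum_apply]
      rfl
    rw [hτ]
    exact HasDerivAt.fun_sum (u := Finset.univ) fun x (_ : x ∈ Finset.univ) =>
      (hG.comp_smul (det_transl_pos q x.val) τ).const_mul (w x)
  refine AddMonoidHom.ext fun y => ?_
  obtain ⟨γ, rfl⟩ := Additive.ofMul.surjective y
  set z := UpperHalfPlane.I
  rw [resHom_apply, periodMapLin_apply, periodMap_eq hFG _ z, ← Finset.sum_sub_distrib]
  simp only [← mul_sub, ← sPlus_smul_rescPer hf hR hG _ γ z]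
  rw [← Fintype.sum_equiv (Equiv.neg (ZMod q))
    (fun v => w (-v) * (sPlus v • rescPer hf hR) (Additive.ofMul γ)) _ fun v => by
      rw [Equiv.neg_apply, neg_neg],
    ← Finset.add_sum_erase _ _ (Finset.mem_univ (0 : ZMod q))]
  have hw0 : w (-0) = 0 := by
    simp [w, twistWeight, MulChar.map_zero]
  rw [hw0, zero_mul, zero_add, AddMonoidHom.smul_apply, AddMonoidHom.finsetSum_apply,
    Finset.smul_sum]
  refine (Finset.sum_bij (fun (u : (ZMod q)ˣ) _ => (u : ZMod q))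
    (fun u _ => Finset.mem_erase.mpr ⟨u.ne_zero, Finset.mem_univ _⟩) (fun a _ b _ => Units.ext)
    (fun v hv => ⟨Units.mk0 v (Finset.ne_of_mem_erase hv), Finset.mem_univ _, rfl⟩)
    fun u _ => ?_).symm
  rw [AddMonoidHom.smul_apply, smul_eq_mul, smul_eq_mul]
  show _ * (χ ((u⁻¹ : (ZMod q)ˣ) : ZMod q) * _) = twistWeight χ (-(u : ZMod q)) * _
  rw [twistWeight, ← mul_assoc]
  congr 2
  rw [MulChar.inv_apply, show -(u : ZMod q) = ((-u : (ZMod q)ˣ) : ZMod q) from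
    (Units.val_neg u).symm, Ring.inverse_unit, Units.val_inv_eq_inv_val,
    Units.val_inv_eq_inv_val, Units.val_neg, inv_neg, neg_eq_neg_one_mul, map_mul, hneg, one_mul]

include hR hN in
/-- A twist eigenform of level `q ^ 2 * R` gives an eigenvector with nonzero twisted projection. -/
theorem exists_witness [NeZero q] (hχ : χ ≠ 1) (hχ2 : χ ^ 2 ≠ 1) (hneg : χ (-1) = 1)
    (hf : IsNeb (q * R) (χ⁻¹ ^ 2) f) (ha : HasCoeff f a) (hf0 : f ≠ 0) {S : Finset ℕ}
    (hS : ∀ v : ℕ, v.Prime → v ∣ q * R → v ∈ S) {lam : ℕ → ℂ}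
    (heig : ∀ ℓ : ℕ, ℓ.Prime → ℓ ∉ S → ∀ k : ℕ,
      seqOp (nebWeight (χ⁻¹ ^ 2)) ℓ a k = χ⁻¹ (ℓ : ZMod q) * lam ℓ * a k) :
    ∃ w : Fin (2 * Gamma0.genus (q ^ 2 * R)) → ℂ,
      (∀ (ℓ : ℕ) (hℓ : ℓ.Prime), ℓ ∉ S →
        ((opMat (q ^ 2 * R) ℓ hℓ).map (Int.castRingHom ℂ)).mulVec w = lam ℓ • w) ∧
      twPi (q := q) (n := n) hR hN ℂ (χ.toMonoidHom.comp (Units.coeHom (ZMod q))) w ≠ 0 := by
  set N := q ^ 2 * R with hNdef
  obtain ⟨F, hFf, hFa⟩ := exists_twistForm hχ hf ha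
  have hpar : periodMapLin N F ∈ Gamma0.ellParHoms (Gamma0 N) ℂ :=
    Gamma0.isParabolicHom_iff_mem_ellParHoms.mp
      ((ModularCurve.Period.mem_parabolicHoms_iff (R := ℂ)).mp (periodMap_mem_parabolicHoms F))
  refine ⟨coord N ℂ (atkinHom N ℂ (periodMapLin N F)), fun ℓ hℓ hℓS => ?_, ?_⟩
  · have hℓN : ¬ ℓ ∣ N := fun h => hℓS (hS ℓ hℓ (by
      rcases (Nat.Prime.dvd_mul hℓ).mp h with h | h
      · exact (hℓ.dvd_of_dvd_pow h).mul_right R
      · exact h.mul_left q))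
    rw [← coord_homOp ℓ hℓ (GaloisReps.atkinHom_mem hpar)]
    have e1 : homOp N ℂ ℓ hℓ (atkinHom N ℂ (periodMapLin N F)) =
        atkinHom N ℂ (homOp N ℂ ℓ hℓ (periodMapLin N F)) := by
      rw [GaloisReps.homOp, dif_neg hℓN]
      exact NewformLocal.Toric.homT_atkinHom hℓ hℓN ℤ _
    rw [e1, GaloisReps.homOp_periodMap, heckeOp_twistForm hFa hℓ hℓN (heig ℓ hℓ hℓS), map_smul]
    rfl
  · rw [twPi_apply, piVec_coord hR hN ℂ (GaloisReps.atkinHom_mem hpar),
      GaloisReps.atkinHom_atkinHom, resHom_periodMap hR hN hneg hf hFf]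
    set χu := χ.toMonoidHom.comp (Units.coeHom (ZMod q))
    set c := (gaussSum χ⁻¹ ZMod.stdAddChar)⁻¹
    have hlin : ∀ x : Additive (Gamma (q * n)) →+ ℂ,
        lowerTr (q := q) (twistOp χu (c • x)) = c • lowerTr (q := q) (twistOp χu x) := fun x => by
      simp only [lowerTr, twistOp, Finset.smul_sum, smul_comm _ c]
    rw [hlin, lowerTr_twistOp_twistOp χu (sum_units_of_ne_one hχ)
      (μ := fun u => (χ⁻¹ ^ 2) ((u⁻¹ : (ZMod q)ˣ) : ZMod q)) ?_
      (sMinus_smul_rescPer hf hR) (sDiag_smul_rescPer hf hR)]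
    · refine smul_ne_zero (inv_ne_zero (gaussSum_ne_zero_twist hχ))
        (smul_ne_zero ?_ ?_)
      · show χ ((-1 : (ZMod q)ˣ) : ZMod q) ≠ 0
        rw [Units.val_neg, Units.val_one, hneg]
        exact one_ne_zero
      · rw [← Int.cast_smul_eq_zsmul ℂ]
        refine smul_ne_zero ?_ (rescPer_ne_zero hf hR hf0)
        have := (Fact.out : q.Prime).two_le
        exact Int.cast_ne_zero.mpr (mul_ne_zero (by omega) (by omega))
    · refine Eq.trans ?_ (sum_units_of_ne_one (show χ⁻¹ ^ 2 ≠ 1 by rw [inv_pow]; exact inv_ne_one.2 hχ2))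
      exact Fintype.sum_equiv (Equiv.inv (ZMod q)ˣ) _ _ fun u => rfl

end Fermat.Agent.RT.InertiaTW

end
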