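import Fermat.Agent.RT.InertiaTW.Statement
import Fermat.Agent.RT.InertiaTW.Inertia
import Fermat.Agent.RT.InertiaTW.NoOther
import Fermat.Agent.RT.InertiaTW.TwistWitness
import Fermat.Agent.GaloisReps.Results
import Fermat.Agent.Arith.TraceSpan
import Mathlib.RingTheory.IntegralDomain

/-!
# Inertia at a prime of twisted level

A common eigenvector of inertia with a character other than `χ^{±1}` would make the twist of `f`
killed by the trace to the lower unipotents of the twist by `χ`, which is false.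
-/

set_option autoImplicit false
set_option linter.unusedSectionVars false

noncomputable section

open CongruenceSubgroup IsLocalRing
open scoped Matrix

namespace Fermat.Agent.RT.InertiaTW

open Fermat.Agent.GaloisReps (AbsGal torsionIso torsionGalois conjProperty exists_padicHom)

theorem chi_facts {p q : ℕ} [Fact p.Prime] [Fact q.Prime] (hp2 : p ≠ 2)
    {χ : DirichletCharacter ℂ q} (hχ : χ ≠ 1) (hpow : ∃ k : ℕ, χ ^ p ^ k = 1) :
    p ∣ q - 1 ∧ χ (-1) = 1 ∧ χ ^ 2 ≠ 1 := by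
  have hp : p.Prime := Fact.out
  obtain ⟨k, hk⟩ := hpow
  obtain ⟨i, hik, hi⟩ := (Nat.dvd_prime_pow hp).mp (orderOf_dvd_of_pow_eq_one hk)
  have hi0 : i ≠ 0 := fun h => hχ (orderOf_eq_one_iff.mp (by rw [hi, h, pow_zero]))
  have hcard : χ ^ (q - 1) = 1 := by
    refine MulChar.ext fun u => ?_
    rw [MulChar.pow_apply_coe, MulChar.one_apply_coe, ← map_pow, ← Units.val_pow_eq_pow_val,
      ← ZMod.card_units q, pow_card_eq_one, Units.val_one, map_one]
  refine ⟨((dvd_pow_self p hi0).trans (dvd_of_eq hi.symm)).trans (orderOf_dvd_of_pow_eq_one hcard),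
    ?_, fun h2 => ?_⟩
  · have h1 : χ (-1) ^ 2 = 1 := by rw [← map_pow, neg_one_sq, map_one]
    have hu : IsUnit (-1 : ZMod q) := isUnit_one.neg
    have h2 : χ (-1) ^ p ^ k = 1 := by
      rw [← MulChar.pow_apply' χ (pow_ne_zero _ hp.ne_zero), hk, MulChar.one_apply hu]
    have hodd : Odd (p ^ k) := (hp.odd_of_ne_two hp2).pow
    obtain ⟨r, hr⟩ := hodd
    rwa [hr, pow_succ, pow_mul, h1, one_pow, one_mul] at h2
  · have h3 : p ∣ 2 := ((dvd_pow_self p hi0).trans (dvd_of_eq hi.symm)).trans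
      (orderOf_dvd_of_pow_eq_one h2)
    exact hp2 ((Nat.prime_dvd_prime_iff_eq hp Nat.prime_two).mp h3)

/-- A common eigenvector of inertia has the eigencharacter `χ` or `χ⁻¹`. -/
theorem traceInertiaFor {p q R M : ℕ} [Fact p.Prime] [Fact q.Prime] [NeZero R] [NeZero M]
    [NeZero (q ^ 2 * R)] {g : CuspForm (CongruenceSubgroup.Gamma0 M) 2} (hpq : p ≠ q)
    (hqR : ¬ q ∣ R) (hES : GaloisReps.CongruenceProperty (q ^ 2 * R) p) (hpq1 : p ∣ q - 1)
    (h2p : ¬ 2 * p ∣ q + 1) {χ : DirichletCharacter ℂ q} (hχ : χ ≠ 1) (hneg : χ (-1) = 1)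
    (hχ2 : χ ^ 2 ≠ 1) : TraceInertiaFor p q R M g χ := by
  intro f a hf ha hf0 S hS heig O _ _ _ _ _ _ hpO j hj ρ habs hfrob A hA hinertia σ hσ u hu
  have hq : q.Prime := Fact.out
  have hp : p.Prime := Fact.out
  have : NeZero q := ⟨hq.ne_zero⟩
  let b := Module.finBasisOfFinrankEq O ρ.V ρ.finrank_eq
  let ρM := Fermat.Agent.Deform.matOf ρ b
  have hdetM : ∀ g, (ρM g).det = LinearMap.det (ρ.ρ g) := fun g =>
    LinearMap.det_toMatrix b (ρ.ρ g)
  have htrM : ∀ g, (ρM g).trace = ρ.trace g := fun g =>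
    (LinearMap.trace_eq_matrix_trace O b (ρ.ρ g)).symm
  have hcont := Fermat.Agent.Deform.isCont_matOf ρ b
  let : Algebra O ℂ := j.toAlgebra
  obtain ⟨v, θ, hv, hθ⟩ := exists_inertia_eigen (K := ℂ) (R := O) hj hA hq hp h2p hpq1 hpO ρM
    hcont (fun τ hτ => (hdetM τ).trans (hinertia τ hτ).1)
    (fun τ hτ => by rw [htrM]; exact (hinertia τ hτ).2)
  -- the trace
  have htrace : j (ρ.trace σ) = θ u + θ u⁻¹ := by
    have hv' := hθ σ hσ u hu
    set X : Matrix (Fin 2) (Fin 2) ℂ := (ρM σ).map j with hX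
    have h0 : (X - θ u • 1).det = 0 := Matrix.exists_mulVec_eq_zero_iff.mp ⟨v, hv, by
      rw [Matrix.sub_mulVec, Matrix.smul_mulVec, Matrix.one_mulVec, sub_eq_zero]; exact hv'⟩
    have hd1 : X.det = 1 := by
      rw [show X = j.mapMatrix (ρM σ) from rfl, ← RingHom.map_det, hdetM, (hinertia σ hσ).1, map_one]
    have htr : j (ρ.trace σ) = X.trace := by
      rw [← htrM, hX, Matrix.trace_fin_two, Matrix.trace_fin_two, map_add]; rfl
    rw [Matrix.det_fin_two] at h0 hd1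
    simp only [Matrix.sub_apply, Matrix.smul_apply, Matrix.one_apply_eq, smul_eq_mul, mul_one,
      Matrix.one_apply_ne (show (0 : Fin 2) ≠ 1 by decide),
      Matrix.one_apply_ne (show (1 : Fin 2) ≠ 0 by decide), mul_zero, sub_zero] at h0
    have hinv : θ u * θ u⁻¹ = 1 := by rw [← map_mul, mul_inv_cancel, map_one]
    rw [htr, Matrix.trace_fin_two]
    linear_combination -(θ u⁻¹) * h0 + θ u⁻¹ * hd1 - (X 0 0 + X 1 1 - θ u) * hinv
  rw [htrace]
  let χu : (ZMod q)ˣ →* ℂ := χ.toMonoidHom.comp (Units.coeHom (ZMod q))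
  have hinvu : ∀ a : (ZMod q)ˣ, χ⁻¹ (a : ZMod q) = χu a⁻¹ := fun a => by
    rw [MulChar.inv_apply, Ring.inverse_unit]; rfl
  rw [hinvu u, show χ (u : ZMod q) = χu u from rfl]
  by_cases hcase : θ = χu ∨ ∀ a, θ a = χu a⁻¹
  · rcases hcase with h | h
    · rw [h]
    · rw [h, h, inv_inv, add_comm]
  exfalso
  push Not at hcase
  obtain ⟨hne1, a₀, hne2⟩ := hcase
  have h₁ : ∑ a, θ a * χu a = 0 := by
    refine sum_hom_units_eq_zero (θ * χu) fun h => hne2 ?_
    have h' := DFunLike.congr_fun h a₀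
    rw [MonoidHom.mul_apply, MonoidHom.one_apply] at h'
    calc θ a₀ = θ a₀ * (χu a₀ * χu a₀⁻¹) := by rw [← map_mul, mul_inv_cancel, map_one, mul_one]
      _ = χu a₀⁻¹ := by rw [← mul_assoc, h', one_mul]
  let χi : (ZMod q)ˣ →* ℂ := χu.comp (invMonoidHom : (ZMod q)ˣ →* (ZMod q)ˣ)
  have h₂ : ∑ a, θ a * χu a⁻¹ = 0 := by
    refine sum_hom_units_eq_zero (θ * χi) fun h => hne1 (MonoidHom.ext fun a => ?_)
    have h' : θ a * χu a⁻¹ = 1 := DFunLike.congr_fun h a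
    calc θ a = θ a * (χu a⁻¹ * χu a) := by rw [← map_mul, inv_mul_cancel, map_one, mul_one]
      _ = χu a := by rw [← mul_assoc, h', one_mul]
  -- the eigenvalues
  classical
  choose! B hB using fun (ℓ : ℕ) (hℓ : ℓ.Prime) => Arith.exists_liesOverPrime hℓ
  choose! F hF using fun (ℓ : ℕ) (hℓ : ℓ.Prime) => Arith.exists_isFrobeniusAt (hB ℓ hℓ) hℓ
  let lamO : ℕ → O := fun ℓ => (ρM (F ℓ)).trace
  have hlam : ∀ ℓ : ℕ, ℓ.Prime → ℓ ∉ S → j (lamO ℓ) = (ModularFormClass.qCoeff g) ℓ := fun ℓ hℓ hℓS => by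
    show j (ρM (F ℓ)).trace = _
    rw [htrM]
    exact (hfrob ℓ hℓ hℓS (B ℓ) (hB ℓ hℓ) (F ℓ) (hF ℓ hℓ)).1
  have hfrobM : ∀ ℓ : ℕ, ℓ.Prime → ℓ ∉ S → ∀ A' : ValuationSubring (AlgebraicClosure ℚ),
      A'.LiesOverPrime ℓ → ∀ τ : AbsGal, A'.IsFrobeniusAt τ ℓ →
        (ρM τ).trace = lamO ℓ ∧ (ρM τ).det = (ℓ : O) := fun ℓ hℓ hℓS A' hA' τ hτ => by
    refine ⟨hj ?_, (hdetM τ).trans (hfrob ℓ hℓ hℓS A' hA' τ hτ).2⟩
    rw [hlam ℓ hℓ hℓS, htrM]
    exact (hfrob ℓ hℓ hℓS A' hA' τ hτ).1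
  -- the level
  let L : ℕ := if q = 7 then 9 else 7
  have hL : L = 7 ∨ L = 9 := by simp only [L]; split_ifs <;> simp
  have hLq : q.Coprime L := by
    simp only [L]
    split_ifs with h
    · subst h; norm_num
    · exact (Nat.coprime_primes hq (by norm_num)).mpr h
  let n := L * R
  have : NeZero n := ⟨mul_ne_zero (by rcases hL with h | h <;> omega) (NeZero.ne R)⟩
  have : NeZero (q * n) := ⟨mul_ne_zero hq.ne_zero (NeZero.ne n)⟩
  have : Fact (q.Coprime n) := ⟨hLq.mul_right ((Nat.Prime.coprime_iff_not_dvd hq).mpr hqR)⟩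
  obtain ⟨w, hw, hne⟩ := exists_witness (q := q) (R := R) (n := n) (Dvd.intro_left L rfl)
    (dvd_of_eq (by ring)) hχ hχ2 hneg hf ha hf0 (S := S)
    (fun ℓ hℓ hd => hS ℓ hℓ (hd.mul_right p)) (lam := (ModularFormClass.qCoeff g)) heig
  obtain ⟨ιO⟩ := exists_padicHom O hpO
  refine hne (twPi_eq_zero_of_eigen (Dvd.intro_left L rfl) (dvd_of_eq (by ring))
    (conjProperty (q ^ 2 * R)) (torsionGalois (q ^ 2 * R) p hES) hpq ιO hj
    (GaloisReps.injective_padicHom _) ρM hcont hpO hfrobM hlam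
    (Deform.span_map_eq_top j (Arith.span_matOf_eq_top ρ habs b)) hA hv θ χu h₁ h₂ hθ hL
    (dvd_mul_right L R) hw)

/-- Inertia at a prime of twisted level has the eigenvalues `χ^{±1}`. -/
theorem traceInertia (p q R M : ℕ) [Fact p.Prime] [Fact q.Prime] [NeZero R] [NeZero M]
    (g : CuspForm (CongruenceSubgroup.Gamma0 M) 2) : TraceInertia p q R M g := by
  intro hp2 hpq hqR _ _ hES χ hχ hpow
  obtain ⟨hpq1, hneg, hχ2⟩ := chi_facts hp2 hχ hpow
  have hp : p.Prime := Fact.out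
  have : NeZero (q ^ 2 * R) :=
    ⟨mul_ne_zero (pow_ne_zero 2 (Fact.out : q.Prime).ne_zero) (NeZero.ne R)⟩
  refine traceInertiaFor hpq hqR hES hpq1 (fun h => hp2 ?_) hχ hneg hχ2
  have h1 := Nat.dvd_sub ((dvd_mul_left p 2).trans h) hpq1
  rw [show q + 1 - (q - 1) = 2 by have := (Fact.out : q.Prime).two_le; omega] at h1
  exact (Nat.prime_dvd_prime_iff_eq hp Nat.prime_two).mp h1

end Fermat.Agent.RT.InertiaTW

end
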