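import Fermat.Agent.ModFun.Affine
import Fermat.Agent.ModFun.MerH
import Fermat.Agent.RT.InertiaTW.LevelAction

/-!
# The substitution `τ ↦ τ/q` on meromorphic functions
-/

set_option autoImplicit false

noncomputable section

open UpperHalfPlane hiding I
open CongruenceSubgroup
open Fermat.Agent.ModFun
open scoped MatrixGroups Manifold

namespace Fermat.Agent.RT.InertiaTW

variable (q : ℕ) [NeZero q]

/-- `f ↦ f (τ/q)` on holomorphic functions. -/
def scaleHol : HolH →ₐ[ℂ] HolH where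
  toFun f := ⟨fun τ => (f : ℍ → ℂ) (affine 1 0 q τ), mdifferentiable_comp_affine 1 0 q f.2⟩
  map_one' := rfl
  map_mul' _ _ := rfl
  map_zero' := rfl
  map_add' _ _ := rfl
  commutes' _ := rfl

theorem affine_surjective : Function.Surjective (affine 1 0 q) := fun τ =>
  ⟨scaleH q τ, UpperHalfPlane.ext (by
    rw [coe_affine, coe_scaleH]
    have : (q : ℂ) ≠ 0 := Nat.cast_ne_zero.mpr (NeZero.ne q)
    push_cast
    field_simp
    ring)⟩

theorem scaleHol_injective : Function.Injective (scaleHol q) := fun f g h => by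
  refine Subtype.ext (funext fun τ => ?_)
  obtain ⟨σ, rfl⟩ := affine_surjective q τ
  exact congrFun (congrArg Subtype.val h) σ

/-- `x ↦ x (τ/q)` on meromorphic functions. -/
def scaleMer : MerH →+* MerH :=
  IsFractionRing.lift (A := HolH)
    (g := (algebraMap HolH MerH).comp (scaleHol q).toRingHom)
    ((IsFractionRing.injective HolH MerH).comp (scaleHol_injective q))

theorem scaleMer_algebraMap (f : HolH) :
    scaleMer q (algebraMap HolH MerH f) = algebraMap HolH MerH (scaleHol q f) :=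
  IsFractionRing.lift_algebraMap _ f

theorem scaleMer_const (c : ℂ) : scaleMer q (algebraMap ℂ MerH c) = algebraMap ℂ MerH c := by
  rw [IsScalarTower.algebraMap_apply ℂ HolH MerH, scaleMer_algebraMap, AlgHom.commutes]

variable {q}

/-- Conjugates under `diag(1, q)`. -/
structure IsRescale (q : ℕ) (γ δ : SL(2, ℤ)) : Prop where
  upperLeft : δ 0 0 = γ 0 0
  upperRight : δ 0 1 * (q : ℤ) = γ 0 1
  lowerLeft : δ 1 0 = γ 1 0 * (q : ℤ)
  lowerRight : δ 1 1 = γ 1 1

theorem affine_smul {γ δ : SL(2, ℤ)} (h : IsRescale q γ δ) (τ : ℍ) :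
    affine 1 0 q (γ • τ) = δ • affine 1 0 q τ := by
  refine UpperHalfPlane.ext ?_
  have hq : (q : ℂ) ≠ 0 := Nat.cast_ne_zero.mpr (NeZero.ne q)
  have h01 : (δ 0 1 : ℂ) * q = γ 0 1 := by exact_mod_cast congrArg (Int.cast : ℤ → ℂ) h.upperRight
  have h00 : (δ 0 0 : ℂ) = γ 0 0 := by exact_mod_cast congrArg (Int.cast : ℤ → ℂ) h.upperLeft
  have h10 : (δ 1 0 : ℂ) = γ 1 0 * q := by exact_mod_cast congrArg (Int.cast : ℤ → ℂ) h.lowerLeft
  have h11 : (δ 1 1 : ℂ) = γ 1 1 := by exact_mod_cast congrArg (Int.cast : ℤ → ℂ) h.lowerRight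
  have hsm : ∀ (g : SL(2, ℤ)) (σ : ℍ), ((g • σ : ℍ) : ℂ) =
      ((g 0 0 : ℂ) * σ + g 0 1) / ((g 1 0 : ℂ) * σ + g 1 1) := fun g σ => by
    rw [UpperHalfPlane.specialLinearGroup_apply]; simp
  rw [coe_affine, hsm, hsm, coe_affine]
  have hden : ((γ 1 0 : ℂ) * τ + γ 1 1) ≠ 0 := by
    rw [← Wp.denom_eq]; exact UpperHalfPlane.denom_ne_zero _ τ
  rw [h00, h10, h11, ← h01]
  push_cast
  field_simp
  ring

theorem actMer_scaleMer {γ δ : SL(2, ℤ)} (h : IsRescale q γ δ) (x : MerH) :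
    actMer γ (scaleMer q x) = scaleMer q (actMer δ x) := by
  obtain ⟨a, b, -, rfl⟩ := IsFractionRing.div_surjective (A := HolH) x
  have e : ∀ f : HolH, actHol γ (scaleHol q f) = scaleHol q (actHol δ f) := fun f =>
    Subtype.ext (funext fun τ => congrArg (f : ℍ → ℂ) (affine_smul h τ))
  simp only [map_div₀, scaleMer_algebraMap, actMer_algebraMap, e]

omit [NeZero q] in
theorem isRescale_rescale {n : ℕ} [NeZero (q * n)] (γ : Gamma (q * n)) :
    IsRescale q (γ : SL(2, ℤ)) (rescale q n γ) := by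
  refine ⟨?_, ?_, ?_, ?_⟩ <;> simp [coe_rescale, upper_div_mul]

end Fermat.Agent.RT.InertiaTW
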