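import Fermat.Agent.RT.InertiaTW.Descend
import Fermat.Agent.RT.InertiaTW.Quadratic
import Fermat.Agent.GaloisReps.Matching
import Fermat.Agent.Arith.Frobenius

/-!
# Galois on the complex eigenvectors of the lattice

On the common eigenvectors of the good Hecke operators with the eigenvalues of the traces of
Frobenius of a plane representation, every Galois element is killed by its characteristic
polynomial on the plane.
-/

set_option autoImplicit false
set_option linter.unusedSectionVars false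

noncomputable section

open CongruenceSubgroup IsLocalRing

namespace Fermat.Agent.RT.InertiaTW

open Fermat.Agent.GaloisReps (AbsGal TorsionIso TorsionGalois opMat latticeMat powerTrace
  map_powerTrace pow_quadratic trace_pow_of_charpoly frobeniusDensity inv_mul_fixes)

variable (N : ℕ) [NeZero N] (S : Finset ℕ)

/-- The vectors with prescribed eigenvalues under the good Hecke operators. -/
def eigW (B : Type) [CommRing B] (lam : ℕ → B) :
    Submodule B (Fin (2 * Gamma0.genus N) → B) where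
  carrier := {v | ∀ (ℓ : ℕ) (hℓ : ℓ.Prime), ℓ ∉ S →
    ((opMat N ℓ hℓ).map (Int.castRingHom B)).mulVec v = lam ℓ • v}
  zero_mem' ℓ hℓ _ := by rw [Matrix.mulVec_zero, smul_zero]
  add_mem' {v w} hv hw ℓ hℓ hS := by
    rw [Matrix.mulVec_add, hv ℓ hℓ hS, hw ℓ hℓ hS, smul_add]
  smul_mem' c v hv ℓ hℓ hS := by
    rw [Matrix.mulVec_smul, hv ℓ hℓ hS, smul_comm]

variable {N S} {p : ℕ} [Fact p.Prime] (E : TorsionIso N p) (G : TorsionGalois N p)
  {B : Type} [CommRing B] (ι : ℤ_[p] →+* B) {lam : ℕ → B}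

include G in
theorem gal_mem_eigW (σ : AbsGal) {v : Fin (2 * Gamma0.genus N) → B}
    (hv : v ∈ eigW N S B lam) : ((E.gal σ).map ι).mulVec v ∈ eigW N S B lam := by
  intro ℓ hℓ hS
  have h : (E.gal σ).map ι * (opMat N ℓ hℓ).map (Int.castRingHom B) =
      (opMat N ℓ hℓ).map (Int.castRingHom B) * (E.gal σ).map ι := by
    have e : (opMat N ℓ hℓ).map (Int.castRingHom B) =
        ι.mapMatrix ((opMat N ℓ hℓ).map (Int.castRingHom ℤ_[p])) := by
      ext i k; simp
    rw [e]
    exact ((E.gal_commute_opMat G σ ℓ hℓ).map ι.mapMatrix).eq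
  rw [Matrix.mulVec_mulVec, ← h, ← Matrix.mulVec_mulVec, hv ℓ hℓ hS, Matrix.mulVec_smul]

/-- Galois on the eigenvectors. -/
def galW : AbsGal →* Module.End B (eigW N S B lam) where
  toFun σ := ((E.gal σ).map ι).mulVecLin.restrict fun _ hv => gal_mem_eigW E G ι σ hv
  map_one' := LinearMap.ext fun v => Subtype.ext (by
    show ((E.gal 1).map ι).mulVec v.1 = v.1
    rw [map_one, Matrix.map_one _ (map_zero _) (map_one _), Matrix.one_mulVec])
  map_mul' σ τ := LinearMap.ext fun v => Subtype.ext (by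
    show ((E.gal (σ * τ)).map ι).mulVec v.1 =
      ((E.gal σ).map ι).mulVec (((E.gal τ).map ι).mulVec v.1)
    rw [map_mul, Matrix.map_mul, Matrix.mulVec_mulVec])

theorem coe_galW (σ : AbsGal) (v : eigW N S B lam) :
    (galW E G ι σ v : Fin (2 * Gamma0.genus N) → B) = ((E.gal σ).map ι).mulVec v.1 := rfl

/-- The quadratic equation at a Frobenius element. -/
theorem galW_frobenius {ℓ : ℕ} (hℓ : ℓ.Prime) (hℓN : ¬ ℓ ∣ N * p) (hℓS : ℓ ∉ S)
    {A : ValuationSubring (AlgebraicClosure ℚ)} (hA : A.LiesOverPrime ℓ) {σ : AbsGal}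
    (hσ : A.IsFrobeniusAt σ ℓ) :
    galW E G ι (lam := lam) σ * galW E G ι σ -
        algebraMap B (Module.End B (eigW N S B lam)) (lam ℓ) * galW E G ι σ +
      ((ℓ : ℕ) : Module.End B (eigW N S B lam)) = 0 := by
  refine LinearMap.ext fun v => Subtype.ext ?_
  have h := congrArg (fun M : Matrix _ _ ℤ_[p] => (ι.mapMatrix M).mulVec v.1)
    (E.gal_frobenius G ℓ hℓ hℓN A hA σ hσ)
  have e : ι.mapMatrix (GaloisReps.matIn (latticeMat N) ℤ_[p]
      (HeckeDuality.heckeOp N 2 ℓ hℓ)) = (opMat N ℓ hℓ).map (Int.castRingHom B) := by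
    rw [GaloisReps.matIn_apply, GaloisReps.latticeMat_heckeOp]
    ext i k; simp
  simp only [map_add, map_sub, map_mul, e, map_zero, Matrix.zero_mulVec, Matrix.add_mulVec,
    Matrix.sub_mulVec, ← Matrix.mulVec_mulVec, Nat.cast_smul_eq_nsmul, map_nsmul, map_one,
    Matrix.smul_mulVec, Matrix.one_mulVec, RingHom.mapMatrix_apply] at h
  rw [(gal_mem_eigW E G ι σ v.2) ℓ hℓ hℓS] at h
  simpa [coe_galW, Module.algebraMap_end_apply, ← Nat.cast_smul_eq_nsmul B, natCast_zsmul,
    Module.End.natCast_apply] using h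

/-- The trace of a power of a two by two matrix. -/
theorem trace_pow_eq_powerTrace {O : Type} [CommRing O] [Nontrivial O]
    (X : Matrix (Fin 2) (Fin 2) O) (ℓ : ℕ) (hdet : X.det = (ℓ : O)) (i : ℕ) :
    (X ^ i).trace = powerTrace X.trace (ℓ : O) i := by
  have h := trace_pow_of_charpoly (V := Fin 2 → O) (by simp) (Matrix.toLin' X) X.trace ℓ (by
    rw [← LinearMap.charpoly_toMatrix (Matrix.toLin' X) (Pi.basisFun O (Fin 2)),
      LinearMap.toMatrix_eq_toMatrix', LinearMap.toMatrix'_toLin', Matrix.charpoly_fin_two, hdet]) i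
  rw [← Matrix.toLin'_pow, LinearMap.trace_eq_matrix_trace O (Pi.basisFun O (Fin 2)),
    LinearMap.toMatrix_eq_toMatrix', LinearMap.toMatrix'_toLin'] at h
  exact h

variable {O : Type} [CommRing O] [IsDomain O] [IsDiscreteValuationRing O]

/-- The value of the characteristic polynomial. -/
def charMat (G : Matrix (Fin (2 * Gamma0.genus N)) (Fin (2 * Gamma0.genus N)) B)
    (X : Matrix (Fin 2) (Fin 2) B) :
    Matrix (Fin (2 * Gamma0.genus N)) (Fin (2 * Gamma0.genus N)) B :=
  G * G - X.trace • G + X.det • 1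

theorem map_charMat {B' : Type} [CommRing B'] (f : B →+* B')
    (G : Matrix (Fin (2 * Gamma0.genus N)) (Fin (2 * Gamma0.genus N)) B)
    (X : Matrix (Fin 2) (Fin 2) B) : (charMat G X).map f = charMat (G.map f) (X.map f) := by
  have h1 : (X.map f).trace = f X.trace := by simp [Matrix.trace_fin_two]
  have h2 : (X.map f).det = f X.det := by rw [RingHom.map_det]; rfl
  ext i k
  simp only [charMat, h1, h2, Matrix.map_apply, Matrix.add_apply, Matrix.sub_apply,
    Matrix.smul_apply, Matrix.mul_apply, smul_eq_mul, map_add, map_sub, map_mul, map_sum,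
    Matrix.one_apply, apply_ite f, map_one, map_zero]

variable (ιO : ℤ_[p] →+* O) (ρ : AbsGal →* Matrix (Fin 2) (Fin 2) O)
  (hcont : ∀ n : ℕ, ∃ L : IntermediateField ℚ (AlgebraicClosure ℚ), FiniteDimensional ℚ L ∧
    ∀ σ : AbsGal, (∀ x ∈ L, σ x = x) → ∀ i j, (ρ σ - 1) i j ∈ maximalIdeal O ^ n)
  (hpO : (p : O) ∈ maximalIdeal O) {lamO : ℕ → O}
  (hfrob : ∀ ℓ : ℕ, ℓ.Prime → ℓ ∉ S → ∀ A : ValuationSubring (AlgebraicClosure ℚ),
    A.LiesOverPrime ℓ → ∀ σ : AbsGal, A.IsFrobeniusAt σ ℓ →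
      (ρ σ).trace = lamO ℓ ∧ (ρ σ).det = (ℓ : O))

include G hcont hpO hfrob in
/-- Integral eigenvectors are killed. -/
theorem charMat_mulVec_eq_zero (g : AbsGal) {z : Fin (2 * Gamma0.genus N) → O}
    (hz : z ∈ eigW N S O lamO) : (charMat ((E.gal g).map ιO) (ρ g)).mulVec z = 0 := by
  classical
  funext k
  have hmem : ∀ n : ℕ, (charMat ((E.gal g).map ιO) (ρ g)).mulVec z k ∈ maximalIdeal O ^ n := by
    intro n
    obtain ⟨L₁, hL₁, h₁⟩ := E.gal_continuous G n
    obtain ⟨L₂, hL₂, h₂⟩ := hcont n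
    obtain ⟨ℓ, hℓ, hℓS, A, hA, σ, hσ, i, hi⟩ :=
      frobeniusDensity (L₁ ⊔ L₂) inferInstance g (S ∪ (N * p).primeFactors)
    rw [Finset.mem_union, not_or] at hℓS
    have hℓNp : ¬ ℓ ∣ N * p := fun h => hℓS.2 (Nat.mem_primeFactors.mpr
      ⟨hℓ, h, mul_ne_zero (NeZero.ne N) (Fact.out : p.Prime).ne_zero⟩)
    obtain ⟨htr, hdet⟩ := hfrob ℓ hℓ hℓS.1 A hA σ hσ
    set π := Ideal.Quotient.mk (maximalIdeal O ^ n) with hπ
    have hfix := inv_mul_fixes (fun x hx => (hi x hx).symm)
    -- the congruences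
    have hG : ((E.gal g).map ιO).map π = ((E.gal (σ ^ i)).map ιO).map π := by
      have h := h₁ _ fun x hx => hfix x (le_sup_left (a := L₁) hx)
      have hZ : (E.gal g).map (PadicInt.toZModPow n) =
          (E.gal (σ ^ i)).map (PadicInt.toZModPow n) := by
        rw [← mul_inv_cancel_left (σ ^ i) g, map_mul, Matrix.map_mul, h, mul_one]
      ext a b
      simp only [Matrix.map_apply]
      rw [Ideal.Quotient.eq, ← map_sub]
      have hab := congrFun (congrFun hZ a) b
      simp only [Matrix.map_apply] at hab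
      rw [← sub_eq_zero, ← map_sub, ← RingHom.mem_ker, PadicInt.ker_toZModPow] at hab
      obtain ⟨c, hc⟩ := Ideal.mem_span_singleton'.mp hab
      rw [← hc, map_mul, map_pow, map_natCast]
      exact Ideal.mul_mem_left _ _ (Ideal.pow_mem_pow hpO n)
    have hX : (ρ g).map π = (ρ (σ ^ i)).map π := by
      have h := h₂ _ fun x hx => hfix x (le_sup_right (a := L₁) hx)
      have h1 : (ρ ((σ ^ i)⁻¹ * g)).map π = 1 := by
        rw [← sub_eq_zero]
        ext a b
        rw [Matrix.sub_apply, Matrix.map_apply, Matrix.zero_apply]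
        have : (1 : Matrix (Fin 2) (Fin 2) (O ⧸ maximalIdeal O ^ n)) a b =
            π ((1 : Matrix (Fin 2) (Fin 2) O) a b) := by
          rw [Matrix.one_apply, Matrix.one_apply, apply_ite π, map_one, map_zero]
        rw [this, ← map_sub, Ideal.Quotient.eq_zero_iff_mem]
        exact h a b
      rw [← mul_inv_cancel_left (σ ^ i) g, map_mul, Matrix.map_mul, h1, mul_one]
    -- the equation at the power of the Frobenius element
    have hzero : (charMat ((E.gal (σ ^ i)).map ιO) (ρ (σ ^ i))).mulVec z = 0 := by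
      have hq := galW_frobenius E G ιO (lam := lamO) hℓ hℓNp hℓS.1 hA hσ
      have h3 := pow_quadratic (R := Module.End O (eigW N S O lamO))
        (Algebra.commute_algebraMap_left (lamO ℓ) (galW E G ιO (lam := lamO) σ)) ℓ hq i
      rw [← map_natCast (algebraMap O (Module.End O (eigW N S O lamO))) ℓ,
        ← map_powerTrace, ← htr, ← trace_pow_eq_powerTrace _ ℓ hdet i, ← map_pow ρ,
        ← map_pow (galW E G ιO (lam := lamO))] at h3
      have hd : ((ℓ ^ i : ℕ) : O) = (ρ (σ ^ i)).det := by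
        rw [map_pow ρ, Matrix.det_pow, hdet, Nat.cast_pow]
      rw [← map_natCast (algebraMap O (Module.End O (eigW N S O lamO))) (ℓ ^ i), hd] at h3
      have h4 := congrArg Subtype.val (LinearMap.congr_fun h3 ⟨z, hz⟩)
      simp only [LinearMap.add_apply, LinearMap.sub_apply, Module.End.mul_apply,
        Module.algebraMap_end_apply, LinearMap.zero_apply, Submodule.coe_add, Submodule.coe_sub,
        Submodule.coe_smul, Submodule.coe_zero, coe_galW] at h4
      rw [charMat, Matrix.add_mulVec, Matrix.sub_mulVec, ← Matrix.mulVec_mulVec, Matrix.smul_mulVec,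
        Matrix.smul_mulVec, Matrix.one_mulVec]
      exact h4
    rw [← Ideal.Quotient.eq_zero_iff_mem, ← hπ, RingHom.map_mulVec, map_charMat, hG, hX,
      ← map_charMat, ← RingHom.map_mulVec, hzero, Pi.zero_apply, map_zero]
  rw [Pi.zero_apply]
  have h := Submodule.mem_iInf _ |>.mpr hmem
  rwa [Ideal.iInf_pow_eq_bot_of_isLocalRing _ (maximalIdeal.isMaximal O).ne_top,
    Ideal.mem_bot] at h

include G hcont hpO hfrob in
/-- The complex eigenvectors. -/
theorem galW_quadratic {j : O →+* ℂ} (hj : Function.Injective j) (lam : ℕ → ℂ)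
    (hlam : ∀ ℓ : ℕ, ℓ.Prime → ℓ ∉ S → j (lamO ℓ) = lam ℓ) (g : AbsGal) :
    galW E G (j.comp ιO) (S := S) (lam := lam) g * galW E G (j.comp ιO) g -
        ((ρ g).map j).trace • galW E G (j.comp ιO) g +
      ((ρ g).map j).det • (1 : Module.End ℂ (eigW N S ℂ lam)) = 0 := by
  refine LinearMap.ext fun v => Subtype.ext ?_
  have key : ((charMat ((E.gal g).map ιO) (ρ g)).map j).mulVec v.1 = 0 :=
    mulVec_eq_zero_of_descent hj
      (fun ℓ : {ℓ : ℕ // ℓ.Prime ∧ ℓ ∉ S} =>
        (opMat N ℓ.1 ℓ.2.1).map (Int.castRingHom O) - lamO ℓ.1 • 1)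
      (charMat ((E.gal g).map ιO) (ρ g))
      (fun z hz => charMat_mulVec_eq_zero E G ιO ρ hcont hpO hfrob g fun ℓ hℓ hS => by
        have h := hz ⟨ℓ, hℓ, hS⟩
        rwa [Matrix.sub_mulVec, sub_eq_zero, Matrix.smul_mulVec, Matrix.one_mulVec] at h)
      v.1 fun ℓ => by
        have e : ((opMat N ℓ.1 ℓ.2.1).map (Int.castRingHom O) - lamO ℓ.1 • 1).map j =
            (opMat N ℓ.1 ℓ.2.1).map (Int.castRingHom ℂ) - lam ℓ.1 • 1 := by
          ext a b
          by_cases hab : a = b <;> simp [hab, hlam ℓ.1 ℓ.2.1 ℓ.2.2]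
        rw [e, Matrix.sub_mulVec, v.2 ℓ.1 ℓ.2.1 ℓ.2.2, Matrix.smul_mulVec, Matrix.one_mulVec,
          sub_self]
  rw [map_charMat, charMat, Matrix.add_mulVec, Matrix.sub_mulVec, ← Matrix.mulVec_mulVec,
    Matrix.smul_mulVec, Matrix.smul_mulVec, Matrix.one_mulVec] at key
  simp only [LinearMap.add_apply, LinearMap.sub_apply, Module.End.mul_apply, LinearMap.smul_apply,
    Module.End.one_apply, LinearMap.zero_apply, Submodule.coe_add, Submodule.coe_sub,
    Submodule.coe_smul, Submodule.coe_zero, coe_galW]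
  rw [show (E.gal g).map ⇑(j.comp ιO) = ((E.gal g).map ιO).map j from
    (Matrix.map_map).symm]
  exact key

end Fermat.Agent.RT.InertiaTW

end
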