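import Fermat.Agent.RT.InertiaTW.UnitQuot
import Fermat.Agent.RT.InertiaTW.KummerChar
import Fermat.Agent.RT.InertiaTW.GroupSum

/-!
# Monodromy and valuations of translates

`s ↦ (s⁻¹)ᵀ` sends `SL₂(𝔽_q)` into the group acting on the field of level `q n`; there a translate
has the translated monodromy. Orders at the places are divisible by `m` for the units of classes and
their translates.
-/

set_option autoImplicit false
set_option linter.unusedSectionVars false

noncomputable section

open scoped Classical MatrixGroups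

namespace Fermat.Agent.RT.InertiaTW

open ModularCurve AlgebraicCurve Matrix CongruenceSubgroup Fermat.Agent.Arith Fermat.Agent.Carayol
open Fermat.Agent.Carayol.Omega
open Fermat.Agent.JacTorsion (divGrp toTorsion torsionEquiv)

attribute [local instance 2000] serAlg

/-- `s ↦ (s⁻¹)ᵀ`. -/
def tInv {q : ℕ} : SL(2, ZMod q) →* GL (Fin 2) (ZMod q) where
  toFun s := ⟨((s⁻¹ : SL(2, ZMod q)) : Matrix (Fin 2) (Fin 2) (ZMod q))ᵀ,
    (s : Matrix (Fin 2) (Fin 2) (ZMod q))ᵀ,
    by rw [← Matrix.transpose_mul, ← Matrix.SpecialLinearGroup.coe_mul, mul_inv_cancel,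
      Matrix.SpecialLinearGroup.coe_one, Matrix.transpose_one],
    by rw [← Matrix.transpose_mul, ← Matrix.SpecialLinearGroup.coe_mul, inv_mul_cancel,
      Matrix.SpecialLinearGroup.coe_one, Matrix.transpose_one]⟩
  map_one' := Units.ext (by
    show ((1⁻¹ : SL(2, ZMod q)) : Matrix (Fin 2) (Fin 2) (ZMod q))ᵀ = 1
    rw [inv_one, Matrix.SpecialLinearGroup.coe_one, Matrix.transpose_one])
  map_mul' s t := Units.ext (by
    show (((s * t)⁻¹ : SL(2, ZMod q)) : Matrix (Fin 2) (Fin 2) (ZMod q))ᵀ =
      ((s⁻¹ : SL(2, ZMod q)) : Matrix (Fin 2) (Fin 2) (ZMod q))ᵀ *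
        ((t⁻¹ : SL(2, ZMod q)) : Matrix (Fin 2) (Fin 2) (ZMod q))ᵀ
    rw [_root_.mul_inv_rev, Matrix.SpecialLinearGroup.coe_mul, Matrix.transpose_mul])

theorem tInv_sMinus {q : ℕ} [Fact q.Prime] (a : ZMod q) : tInv (sMinus a) = uPlus (-a) := by
  refine Units.ext ?_
  show (((sMinus a)⁻¹ : SL(2, ZMod q)) : Matrix (Fin 2) (Fin 2) (ZMod q))ᵀ = _
  rw [Matrix.SpecialLinearGroup.coe_inv, coe_sMinus]
  ext i j
  fin_cases i <;> fin_cases j <;> simp [uPlus, Matrix.adjugate_fin_two]

theorem tInv_sPlus {q : ℕ} [Fact q.Prime] (a : ZMod q) : tInv (sPlus a) = uMinus (-a) := by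
  refine Units.ext ?_
  show (((sPlus a)⁻¹ : SL(2, ZMod q)) : Matrix (Fin 2) (Fin 2) (ZMod q))ᵀ = _
  rw [Matrix.SpecialLinearGroup.coe_inv, coe_sPlus]
  ext i j
  fin_cases i <;> fin_cases j <;> simp [uMinus, Matrix.adjugate_fin_two]

theorem diagElt_mul_uPlus {q : ℕ} (a d : (ZMod q)ˣ) (x : ZMod q) :
    diagElt a d * uPlus x = uPlus ((a : ZMod q) * ((d⁻¹ : (ZMod q)ˣ) : ZMod q) * x) * diagElt a d := by
  refine Units.ext ?_
  simp [diagElt, uPlus, mul_assoc, mul_comm x, mul_left_comm]

theorem diagElt_mul_uMinus {q : ℕ} (a d : (ZMod q)ˣ) (x : ZMod q) :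
    diagElt a d * uMinus x = uMinus ((d : ZMod q) * ((a⁻¹ : (ZMod q)ˣ) : ZMod q) * x) * diagElt a d := by
  refine Units.ext ?_
  simp [diagElt, uMinus, mul_assoc, mul_comm x, mul_left_comm]

namespace QData

variable {q n R N m : ℕ} [NeZero (q * n)] [Fact q.Prime] [NeZero n] [NeZero N] [NeZero q]
  [NeZero m] [Fact (q.Coprime n)] (D : QData q n)

/-- A translate has the translated monodromy. -/
theorem kumChar_act (s : SL(2, ZMod q)) {y : D.Om}
    {Φ : Additive (CongruenceSubgroup.Gamma (q * n)) →+ ZMod m} (h : KumChar D.E D.base m y Φ) :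
    KumChar D.E D.base m (D.act (tInv s) y) (s • Φ) := by
  rw [smul_eq_conjHomG (liftSL_mem (n := n) s⁻¹) (map_liftSL _)]
  refine h.subst _ ?_
  obtain ⟨e, he, hval⟩ := D.E.exists_moves_subst D.base (liftSL (n := n) s⁻¹)
  have hM : redMat (q * n) (liftSL (n := n) s⁻¹) =
      liftMat D.hcop ((tInv s : GL (Fin 2) (ZMod q)) : Matrix (Fin 2) (Fin 2) (ZMod q)) := by
    obtain ⟨h1, h2, h3, h4⟩ := Gamma_mem.mp (liftSL_mem (n := n) s⁻¹)
    have hq := congrArg (fun g : SL(2, ZMod q) => (g : Matrix (Fin 2) (Fin 2) (ZMod q)))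
      (map_liftSL (n := n) s⁻¹)
    ext i j
    apply (crt D.hcop).injective
    rw [crt_liftMat]
    show (crt D.hcop) ((liftSL (n := n) s⁻¹ i j : ℤ) : ZMod (q * n)) = _
    rw [map_intCast]
    refine Prod.ext ?_ ?_
    · rw [Prod.fst_intCast]
      exact congrFun (congrFun hq i) j
    · rw [Prod.snd_intCast]
      fin_cases i <;> fin_cases j <;> simp [h1, h2, h3, h4]
  rw [hM] at he
  rw [(D.act_moves (tInv s)).ext he]
  exact hval y

variable (hR : R ∣ n) (hN : N ∣ q * R * q)

include hR hN in
theorem rescale_mem (γ : CongruenceSubgroup.Gamma (q * n)) : rescale q n γ ∈ Gamma0 N :=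
  rescale_mem_Gamma0 (hN.trans (dvd_of_eq (by ring))) hR γ

/-- The monodromy of the unit of a class. -/
def classChar (P : Pic0.torsion QBar (modularFunctionFieldBar N) m) :
    Additive (CongruenceSubgroup.Gamma (q * n)) →+ ZMod m :=
  (torsionEquiv N m P).1.comp
    (MonoidHom.toAdditive ((rescale q n).codRestrict (Gamma0 N) (rescale_mem hR hN)))

theorem kumChar_classUnit {P : Pic0.torsion QBar (modularFunctionFieldBar N) m}
    {f : divGrp QBar (modularFunctionFieldBar N) m} (hf : IsClassFun (inertiaOne D.A q) P f) :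
    KumChar D.E D.base m (D.classUnit m hR hN f hf.fix : D.Om) (classChar hR hN P) := by
  obtain rfl := hf.cls
  exact kumChar_toTorsion D.E D.hι D.base f (D.coe_classUnit m hR hN f hf.fix) (rescale_mem hR hN)

/-- Divisibility of the orders is stable under translation. -/
theorem places_actUnit {y : D.Omˣ} (h : Places D.base m y) (g : GL (Fin 2) (ZMod q)) :
    Places D.base m (D.actUnit g y) := by
  intro v hv
  exact h (v.comap (D.act g).toRingEquiv.toRingHom) fun c hc => by
    show v (D.act g (algebraMap D.base D.Om c)) = 1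
    rw [AlgEquiv.commutes]
    exact hv c hc

theorem places_mul {y z : D.Omˣ} (h : Places D.base m y) (h' : Places D.base m z) :
    Places D.base m (y * z) := fun v hv => by
  rw [Units.val_mul, map_mul, WithZero.log_mul (v.ne_zero_iff.mpr y.ne_zero)
    (v.ne_zero_iff.mpr z.ne_zero)]
  exact dvd_add (h v hv) (h' v hv)

theorem places_one : Places D.base m (1 : D.Omˣ) := fun v _ => by
  rw [Units.val_one, map_one, WithZero.log_one]; exact dvd_zero _

theorem places_pow {y : D.Omˣ} (h : Places D.base m y) : ∀ i : ℕ, Places D.base m (y ^ i)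
  | 0 => by rw [pow_zero]; exact D.places_one
  | i + 1 => by rw [pow_succ]; exact D.places_mul (places_pow h i) h

theorem places_prod {κ : Type*} (T : Finset κ) {y : κ → D.Omˣ}
    (h : ∀ i ∈ T, Places D.base m (y i)) : Places D.base m (∏ i ∈ T, y i) :=
  Finset.prod_induction _ (Places D.base m) (fun _ _ => D.places_mul) D.places_one h

set_option maxHeartbeats 800000 in
theorem places_classUnit {P : Pic0.torsion QBar (modularFunctionFieldBar N) m}
    {f : divGrp QBar (modularFunctionFieldBar N) m} (hf : IsClassFun (inertiaOne D.A q) P f) :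
    Places D.base m (D.classUnit m hR hN f hf.fix) := by
  intro v hv
  set fe : modularFunctionFieldBar N := ((f : (modularFunctionFieldBar N)ˣ) : modularFunctionFieldBar N)
  have hord : ∀ Q : Place QBar (modularFunctionFieldBar N),
      Q.ord fe = (m : ℤ) * JacTorsion.divQuot f Q := fun Q => by
    have := DFunLike.congr_fun (JacTorsion.smul_divQuot f) Q
    rw [Finsupp.smul_apply, smul_eq_mul, JacTorsion.div_apply] at this
    exact this.symm
  have hfix : ∀ σ ∈ inertiaOne D.A q,
      arithmeticGalois (modularFunctionFieldFull N) σ • JacTorsion.divQuot f = JacTorsion.divQuot f := by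
    intro σ hσ
    refine Finsupp.ext fun Q => mul_left_cancel₀ (Int.natCast_ne_zero.mpr (NeZero.ne m)) ?_
    rw [SemilinearAut.divisor_smul_apply, ← hord, ← hord]
    conv_rhs => rw [← smul_inv_smul (arithmeticGalois (modularFunctionFieldFull N) σ) Q,
      ← (coeffFixed_iff (x := fe)).mp hf.fix σ hσ, SemilinearAut.ord_smul]
  have h := dvd_log_valuation hfix (Units.ne_zero (f : (modularFunctionFieldBar N)ˣ)) hord
    (mem_ratField fe.2 hf.fix) (v.comap (D.toField hR hN)) fun c hc => by
    show v (D.toField hR hN _) = 1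
    refine D.valuation_const v hv (c := (c : QBar)) ?_ fun h => hc (Subtype.ext h)
    rw [coe_toField]
    show qExpand QBar n (algebraMap (IntermediateField.fixedField (inertiaOne D.A q)) (LaurentSeries QBar) c) = _
    rw [IsScalarTower.algebraMap_apply (IntermediateField.fixedField (inertiaOne D.A q)) QBar (LaurentSeries QBar),
      algebraMap_laurent_comp, HahnSeries.C_apply, ModularCurve.qExpand_single, mul_zero,
      ← HahnSeries.C_apply]
    rfl
  rw [D.val_classUnit m hR hN f hf.fix]
  exact h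

end QData

end Fermat.Agent.RT.InertiaTW

end
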