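import Fermat.Agent.RT.InertiaTW.TwistKill
import Fermat.Agent.RT.InertiaTW.Coeffs
import Mathlib.LinearAlgebra.Matrix.ToLin

/-!
# The geometric theorem for inertia at twisted level

An eigenvector of inertia at `q` in `S ⊗ T_p J₀(N)` with character `θ`, such that `θ χ` and
`θ χ⁻¹` sum to zero, is killed by the trace to the lower unipotents of the twist by `χ`.
-/

set_option autoImplicit false
set_option linter.unusedSectionVars false

noncomputable section

open scoped Classical MatrixGroups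

namespace Fermat.Agent.RT.InertiaTW

open ModularCurve AlgebraicCurve Matrix Fermat.Agent.Carayol
open Fermat.Agent.Carayol.Omega
open Fermat.Agent.Arith (QBar)
open Fermat.Agent.GaloisReps (TorsionIso JTors AbsGal torsionIso galTors coord)

variable {q n p R N : ℕ} [Fact q.Prime] [Fact p.Prime] [NeZero n] [NeZero (q * n)] [NeZero N]
  [Fact (q.Coprime n)]

/-- The data at `q`. -/
theorem exists_qData {A : ValuationSubring QBar} (hA : A.LiesOverPrime q) {L : ℕ}
    (hL : L = 7 ∨ L = 9) (hLn : L ∣ n) : ∃ D : QData q n, D.A = A := by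
  obtain ⟨ζ₀, hζ₀⟩ := HasEnoughRootsOfUnity.exists_primitiveRoot QBar (q * n)
  obtain ⟨i, -, hi⟩ := (hζ₀.map_of_injective JacTorsion.ιQ.injective).eq_pow_of_pow_eq_one
    (isPrimitiveRoot_zetaC (q * n)).pow_eq_one
  exact ⟨⟨A, hA, ⟨JacTorsion.ιQ, ζ₀ ^ i, by rw [map_pow, hi]⟩, rfl, Fact.out, L, hL, hLn⟩, rfl⟩

variable (hR : R ∣ n) (hN : N ∣ q * R * q) (hc : GaloisReps.ConjProperty N)

theorem classChar_psi (K : ℕ) [NeZero (p ^ K)] (x : JTors N p K) :
    QData.classChar (q := q) (n := n) hR hN x =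
      piVec hR hN (ZMod (p ^ K)) ((torsionIso N p hc).psi K x) := by
  rw [TorsionIso.psi_apply, piVec_coord hR hN _ ((torsionIso N p hc).e K x).2]
  show QData.classChar hR hN x = resHom hR hN _ (GaloisReps.atkinHom N _
    (GaloisReps.atkinHom N _ (JacTorsion.torsionEquiv N (p ^ K) x).1))
  rw [GaloisReps.atkinHom_atkinHom]
  rfl

variable {S : Type} [CommRing S] [Algebra ℤ_[p] S] [Module.Free ℤ_[p] S] [Module.Finite ℤ_[p] S]

local notation "GAL" => TorsionIso.gal (torsionIso N p hc)

set_option maxHeartbeats 1600000 in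
/-- The twisted projection kills the vectors on which inertia at `q` acts through `θ`, when `θ` is
orthogonal to both `χ` and `χ⁻¹`. -/
theorem twPi_eq_zero (hpq : p ≠ q) (θ χ : (ZMod q)ˣ →* S) (h₁ : ∑ a, θ a * χ a = 0)
    (h₂ : ∑ a, θ a * χ a⁻¹ = 0) {A : ValuationSubring QBar} (hA : A.LiesOverPrime q) {L : ℕ}
    (hL : L = 7 ∨ L = 9) (hLn : L ∣ n) (w : Fin (2 * Gamma0.genus N) → S)
    (hw : ∀ σ ∈ A.inertiaSubgroupIn ℚ, ∀ d : (ZMod q)ˣ,
      (∀ μ : QBar, μ ^ q = 1 → σ μ = μ ^ (d : ZMod q).val) →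
      ((GAL σ).map (algebraMap ℤ_[p] S)).mulVec w = θ d • w) :
    twPi (q := q) (n := n) hR hN S χ w = 0 := by
  obtain ⟨D, rfl⟩ := exists_qData (q := q) (n := n) hA hL hLn
  have : NeZero q := ⟨(Fact.out : q.Prime).ne_zero⟩
  set κ := Module.Free.ChooseBasisIndex ℤ_[p] S
  set b : Module.Basis κ ℤ_[p] S := Module.Free.chooseBasis ℤ_[p] S with hb
  have hcomp : ∀ (x y : S) (k : κ), b.repr (x * y) k =
      ∑ l, Algebra.leftMulMatrix b x k l * b.repr y l := fun x y k => by
    rw [← Algebra.leftMulMatrix_mulVec_repr b x y]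
    rfl
  -- the components
  set wc : κ → Fin (2 * Gamma0.genus N) → ℤ_[p] := fun k i => b.repr (w i) k with hwc
  have hgal : ∀ σ ∈ D.A.inertiaSubgroupIn ℚ, ∀ d : (ZMod q)ˣ,
      (∀ μ : QBar, μ ^ q = 1 → σ μ = μ ^ (d : ZMod q).val) → ∀ k,
      (GAL σ).mulVec (wc k) = ∑ l, Algebra.leftMulMatrix b (θ d) k l • wc l := by
    intro σ hσ d hd k
    funext i
    have h := congrArg (fun z => b.repr z k) (congrFun (hw σ hσ d hd) i)
    simp only [Matrix.mulVec, dotProduct, Matrix.map_apply, Pi.smul_apply, smul_eq_mul, map_sum,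
      Finsupp.coe_finsetSum, Finset.sum_apply, hcomp (θ d), ← Algebra.smul_def, map_smul,
      Finsupp.smul_apply] at h
    rw [Finset.sum_apply]
    simpa [Matrix.mulVec, dotProduct, hwc] using h
  -- each component of the value is killed modulo every power of `p`
  refine AddMonoidHom.ext fun x => b.ext_elem fun j => ?_
  rw [AddMonoidHom.zero_apply, map_zero, Finsupp.zero_apply]
  set y := twPi (q := q) (n := n) hR hN S χ w x with hy
  set G : ℕ := glueExp (upperComb q) * q with hG
  have hG0 : (G : ℤ_[p]) ≠ 0 := Nat.cast_ne_zero.mpr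
    (mul_ne_zero (glueExp_pos _).ne' (NeZero.ne q))
  refine ((mul_eq_zero (a := (G : ℤ_[p]))).mp (PadicInt.ext_of_toZModPow.mp fun K => ?_)).resolve_left hG0
  rw [map_zero, map_mul, map_natCast, ← nsmul_eq_mul]
  have : NeZero (p ^ K) := ⟨pow_ne_zero _ (Fact.out : p.Prime).ne_zero⟩
  have hmq : (p ^ K).Coprime q :=
    ((Nat.coprime_primes Fact.out Fact.out).mpr hpq).pow_left K
  set π : ℤ_[p] →+* ZMod (p ^ K) := PadicInt.toZModPow K with hπ
  set E := torsionIso N p hc with hE
  set Lm : S →+* Matrix κ κ (ZMod (p ^ K)) :=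
    (π.mapMatrix).comp (Algebra.leftMulMatrix b).toRingHom with hLm
  let P₀ : κ → JTors N p K := fun k => (E.psi K).symm fun i => π (wc k i)
  have hP₀ : ∀ σ ∈ D.A.inertiaSubgroupIn ℚ, ∀ d : (ZMod q)ˣ,
      (∀ μ : QBar, μ ^ q = 1 → σ μ = μ ^ (d : ZMod q).val) → ∀ k,
        galTors K σ (P₀ k) = ∑ l, (Lm (θ d) k l).val • P₀ l := by
    intro σ hσ d hd k
    refine (E.psi K).injective ?_
    rw [← TorsionIso.galLvl_mulVec, ← TorsionIso.map_gal, map_sum, AddEquiv.apply_symm_apply]
    have h := congrArg (fun v : Fin (2 * Gamma0.genus N) → ℤ_[p] => fun i => π (v i))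
      (hgal σ hσ d hd k)
    funext i
    refine ((RingHom.map_mulVec π (GAL σ) (wc k) i).symm.trans (congrFun h i)).trans ?_
    simp only [Finset.sum_apply, map_sum, Pi.smul_apply, smul_eq_mul, map_mul, map_nsmul, P₀,
      AddEquiv.apply_symm_apply]
    exact Finset.sum_congr rfl fun l _ => by
      rw [← smul_eq_mul, QData.smul_eq_val_nsmul]
      rfl
  let P : κ → D.fixedTors N (p ^ K) := fun k => ⟨P₀ k, fun σ hσ => by
    have h := hP₀ σ hσ.1 1 (fun μ hμ => by
      rw [hσ.2 μ hμ, Units.val_one, ZMod.val_one, pow_one]) k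
    rw [map_one, map_one] at h
    refine (congrArg Subtype.val h).trans (congrArg Subtype.val ?_)
    refine (Finset.sum_eq_single k (fun l _ hl => ?_) (by simp)).trans ?_
    · rw [Matrix.one_apply_ne hl.symm, ZMod.val_zero, zero_smul]
    · rw [Matrix.one_apply_eq]
      refine (E.psi K).injective ?_
      rw [map_nsmul, ← QData.smul_eq_val_nsmul, one_smul]⟩
  have hkill := D.twist_kill (m := p ^ K) hmq hR hN Lm θ χ h₁ h₂ P (fun σ hσ d hd k => by
    have := congrArg (JTors N p K).subtype (hP₀ σ hσ d hd k)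
    rw [map_sum] at this
    refine this.trans (Finset.sum_congr rfl fun l _ => ?_)
    exact map_nsmul (JTors N p K).subtype _ _) j
  -- identify the component
  let r : κ → S →+ ZMod (p ^ K) := fun k =>
    π.toAddMonoidHom.comp ((Finsupp.applyAddHom k).comp b.repr.toAddMonoidHom)
  have hr : ∀ (c z : S) (k : κ), r k (c * z) = ∑ l, Lm c k l * r l z := fun c z k => by
    show π (b.repr (c * z) k) = _
    rw [hcomp, map_sum]
    exact Finset.sum_congr rfl fun l _ => map_mul π _ _
  have hcl : ∀ k, QData.classChar (q := q) (n := n) hR hN (P₀ k) =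
      (r k).comp (piVec hR hN S w) := fun k => by
    rw [classChar_psi hR hN hc, AddEquiv.apply_symm_apply, comp_piVec]
    rfl
  have hval : π (b.repr y j) = QData.twChar (q := q) (n := n) (fun v => Lm (χ v) j)
      (fun k => QData.classChar hR hN (P₀ k)) x := by
    show r j y = _
    obtain ⟨γ, rfl⟩ := Additive.ofMul.surjective x
    simp only [hy, twPi_apply, lowerTr, twistOp, QData.twChar, Finset.smul_sum,
      AddMonoidHom.finsetSum_apply, map_sum, hcl]
    refine Finset.sum_congr rfl fun s _ => Finset.sum_congr rfl fun v _ => ?_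
    rw [smul_comm (sMinus s) (χ v), AddMonoidHom.smul_apply, smul_eq_mul, hr]
    exact Finset.sum_congr rfl fun k _ => rfl
  rw [hval, ← AddMonoidHom.smul_apply]
  exact DFunLike.congr_fun hkill x

end Fermat.Agent.RT.InertiaTW

end
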