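import Fermat.Agent.RT.InertiaTW.TwistSum

/-!
# Twisted monodromy of eigenclasses of inertia is killed by a constant

For classes of order dividing `m` fixed by the inertia elements fixing `μ_q`, on which inertia acts
through a character `θ` of `(ℤ/q)ˣ` with `θ χ` and `θ χ⁻¹` of sum zero, the trace to the lower
unipotents of the twist by `χ` of their monodromy is killed by a constant independent of `m`.
-/

set_option autoImplicit false
set_option linter.unusedSectionVars false

noncomputable section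

open scoped Classical MatrixGroups

namespace Fermat.Agent.RT.InertiaTW

open ModularCurve AlgebraicCurve Matrix Fermat.Agent.Arith Fermat.Agent.Carayol
open Fermat.Agent.Carayol.Omega

attribute [local instance 2000] serAlg

namespace QData

variable {q n R N m : ℕ} [NeZero (q * n)] [Fact q.Prime] [NeZero n] [NeZero N] [NeZero q]
  [NeZero m] [Fact (q.Coprime n)] (D : QData q n)

instance uqModule : Module (ZMod m) (D.UQ m) :=
  AddCommGroup.zmodModule (D.nsmul_eq_zero m)

theorem smul_uMk (c : ZMod m) (y : D.Omˣ) : c • D.uMk m y = D.uMk m (y ^ c.val) := by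
  conv_lhs => rw [← ZMod.natCast_zmod_val c, Nat.cast_smul_eq_nsmul]
  rfl

theorem uMk_prod {ι : Type*} (T : Finset ι) (y : ι → D.Omˣ) :
    D.uMk m (∏ i ∈ T, y i) = ∑ i ∈ T, D.uMk m (y i) :=
  map_sum (QuotientAddGroup.mk' (D.powUnits m)) (fun i => Additive.ofMul (y i)) T

theorem actUnit_mul (g h : GL (Fin 2) (ZMod q)) (y : D.Omˣ) :
    D.actUnit (g * h) y = D.actUnit g (D.actUnit h y) := Units.ext (by
  show D.act (g * h) (y : D.Om) = D.act g (D.act h y)
  rw [map_mul, AlgEquiv.mul_apply])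

/-- Monodromy under translation by an upper unipotent. -/
theorem kumChar_uPlus (a : ZMod q) {y : D.Omˣ}
    {Φ : Additive (CongruenceSubgroup.Gamma (q * n)) →+ ZMod m}
    (h : KumChar D.E D.base m (y : D.Om) Φ) :
    KumChar D.E D.base m (D.actUnit (uPlus a) y : D.Om) (sMinus (-a) • Φ) := by
  have := D.kumChar_act (sMinus (-a)) h
  rwa [tInv_sMinus, neg_neg] at this

/-- Monodromy under translation by a lower unipotent. -/
theorem kumChar_uMinus (a : ZMod q) {y : D.Omˣ}
    {Φ : Additive (CongruenceSubgroup.Gamma (q * n)) →+ ZMod m}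
    (h : KumChar D.E D.base m (y : D.Om) Φ) :
    KumChar D.E D.base m (D.actUnit (uMinus a) y : D.Om) (sPlus (-a) • Φ) := by
  have := D.kumChar_act (sPlus (-a)) h
  rwa [tInv_sPlus, neg_neg] at this

theorem kumChar_prod {ι : Type*} (T : Finset ι) {y : ι → D.Omˣ}
    {Φ : ι → Additive (CongruenceSubgroup.Gamma (q * n)) →+ ZMod m}
    (h : ∀ i ∈ T, KumChar D.E D.base m (y i : D.Om) (Φ i)) :
    KumChar D.E D.base m ((∏ i ∈ T, y i : D.Omˣ) : D.Om) (∑ i ∈ T, Φ i) := by
  rw [Units.coe_prod]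
  exact KumChar.prod T h

theorem smul_eq_val_nsmul {M : Type*} [AddCommGroup M] [Module (ZMod m) M] (c : ZMod m) (x : M) :
    c • x = c.val • x := by
  rw [← Nat.cast_smul_eq_nsmul (ZMod m), ZMod.natCast_zmod_val]

variable {κ : Type*} [Fintype κ] (c : (ZMod q)ˣ → κ → ZMod m)

/-- A twisted product of translates. -/
def twUnit (Y : κ → D.Omˣ) : D.Omˣ :=
  ∏ s : ZMod q, ∏ v : (ZMod q)ˣ, ∏ k,
    D.actUnit (uPlus (-s)) (D.actUnit (uMinus (-(v : ZMod q))) (Y k)) ^ (c v k).val

/-- The twisted sum of translates of monodromies. -/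
def twChar (Φ : κ → Additive (CongruenceSubgroup.Gamma (q * n)) →+ ZMod m) :
    Additive (CongruenceSubgroup.Gamma (q * n)) →+ ZMod m :=
  ∑ s : ZMod q, ∑ v : (ZMod q)ˣ, ∑ k, c v k • sMinus s • sPlus (v : ZMod q) • Φ k

theorem uMk_twUnit (Y : κ → D.Omˣ) :
    D.uMk m (D.twUnit c Y) = ∑ s : ZMod q, ∑ v : (ZMod q)ˣ, ∑ k, c v k •
      D.uAct m (uPlus (-s)) (D.uAct m (uMinus (-(v : ZMod q))) (D.uMk m (Y k))) := by
  simp only [twUnit, uMk_prod, uAct_mk, smul_uMk]

variable {Y : κ → D.Omˣ} {Φ : κ → Additive (CongruenceSubgroup.Gamma (q * n)) →+ ZMod m}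

theorem kumChar_twUnit (h : ∀ k, KumChar D.E D.base m (Y k : D.Om) (Φ k)) :
    KumChar D.E D.base m (D.twUnit c Y : D.Om) (twChar c Φ) := by
  refine D.kumChar_prod _ fun s _ => D.kumChar_prod _ fun v _ => D.kumChar_prod _ fun k _ => ?_
  rw [smul_eq_val_nsmul, Units.val_pow_eq_pow_val]
  refine KumChar.pow ?_ _
  have := D.kumChar_uPlus (-s) (D.kumChar_uMinus (-(v : ZMod q)) (h k))
  rwa [neg_neg, neg_neg] at this

theorem places_twUnit (h : ∀ k, Places D.base m (Y k)) : Places D.base m (D.twUnit c Y) :=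
  D.places_prod _ fun _ _ => D.places_prod _ fun _ _ => D.places_prod _ fun k _ =>
    D.places_pow (D.places_actUnit (D.places_actUnit (h k) _) _) _

theorem sMinus_smul_twChar (t : ZMod q) : sMinus t • twChar c Φ = twChar c Φ := by
  simp only [twChar, Finset.smul_sum]
  refine Fintype.sum_equiv (Equiv.addLeft t) _ _ fun s => ?_
  refine Finset.sum_congr rfl fun v _ => Finset.sum_congr rfl fun k _ => ?_
  rw [smul_comm (sMinus t) (c v k), smul_smul (sMinus t) (sMinus s), sMinus_mul, Equiv.coe_addLeft]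

/-- The norm along the upper unipotents. -/
def upperNorm (y : D.Omˣ) : D.Omˣ := ∏ t : ZMod q, D.actUnit (uPlus t) y

theorem actUnit_upperNorm (a : ZMod q) (y : D.Omˣ) :
    D.actUnit (uPlus a) (D.upperNorm y) = D.upperNorm y := by
  rw [upperNorm, map_prod]
  exact Fintype.prod_equiv (Equiv.addLeft a) _ _ fun t => by
    rw [← actUnit_mul, ← uPlus_add, Equiv.coe_addLeft]

theorem uMk_upperNorm {y : D.Omˣ} {x : D.UQ m} (hy : D.uMk m y = x)
    (hx : ∀ t : ZMod q, D.uAct m (uPlus t) x = x) : D.uMk m (D.upperNorm y) = (q : ℤ) • x := by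
  have : ∀ t : ZMod q, D.uMk m (D.actUnit (uPlus t) y) = x := fun t => by rw [← uAct_mk, hy, hx]
  rw [upperNorm, uMk_prod, Finset.sum_congr rfl fun t _ => this t, Finset.sum_const,
    Finset.card_univ, ZMod.card, natCast_zsmul]

theorem kumChar_upperNorm {y : D.Omˣ}
    (hy : KumChar D.E D.base m (y : D.Om) (twChar c Φ)) :
    KumChar D.E D.base m (D.upperNorm y : D.Om) (q • twChar c Φ) := by
  have := D.kumChar_prod Finset.univ (Φ := fun t : ZMod q => sMinus (-t) • twChar c Φ)
    fun t _ => D.kumChar_uPlus t hy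
  rwa [Finset.sum_congr rfl fun t _ => sMinus_smul_twChar c (-t), Finset.sum_const,
    Finset.card_univ, ZMod.card] at this

theorem torOp_zsmul {M : Type*} [AddCommGroup M] (a : ℤ) (Φ : GL (Fin 2) (ZMod q) → M) :
    torOp (fun g => a • Φ g) = a • torOp Φ :=
  (map_torOp (DistribSMul.toAddMonoidHom M a) Φ).symm

set_option maxHeartbeats 800000 in
/-- The integral study at `q`. -/
theorem kumChar_upperNorm_pow (hmq : m.Coprime q) {y : D.Omˣ} {x : D.UQ m} (hy : D.uMk m y = x)
    (hx : ∀ t : ZMod q, D.uAct m (uPlus t) x = x)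
    (ht : torOp (fun g => D.uAct m g x) = 0) (hpl : Places D.base m y) :
    KumChar D.E D.base m ((D.upperNorm y : D.Om) ^ glueExp (upperComb q)) 0 := by
  let z := D.upperNorm y
  have hz : z = D.upperNorm y := rfl
  have hlam0 : D.uMk m (D.level.lam (upperComb q) (D.level.transl z)) = 0 := by
    have e : D.uMk m (D.level.lam (upperComb q) (D.level.transl z)) =
        torOp fun g : GL (Fin 2) (ZMod q) => D.uAct m g (D.uMk m z) := by
      rw [torOp_eq_sum]
      show (QuotientAddGroup.mk' (D.powUnits m))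
        (∑ g, (upperComb q).coeffs g • Additive.ofMul (D.level.transl z g)) = _
      rw [map_sum]
      refine Finset.sum_congr rfl fun g _ => ?_
      rw [map_zsmul]
      rfl
    rw [e, hz, D.uMk_upperNorm hy hx]
    simp only [map_zsmul]
    rw [torOp_zsmul, ht, smul_zero]
  obtain ⟨γ, hγ⟩ := D.uMk_eq_zero m hlam0
  obtain ⟨κ', h, hh⟩ := exists_const_mul_pow (L := D.level) (U := inertialBase D.hA Fact.out)
    (D.E.cuspEmb D.hA Fact.out D.hcop D.L D.hL D.hLn fun d =>
      exists_aut_inertiaField D.hA Fact.out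
        ((Fact.out : q.Prime).coprime_iff_not_dvd.1 D.hcop) D.E.isPrimitiveRoot d)
    (upperComb q) (TateLevel.isUnit_natCast (L := D.level) (U := inertialBase D.hA Fact.out) hmq)
    (f := z) (γ := γ) (κ := 1) (by
      rintro t ⟨a, rfl⟩
      exact D.actUnit_upperNorm a.toAdd y)
    (D.places_prod _ fun t _ => D.places_actUnit hpl _) (by rw [hγ, map_one, one_mul])
  have e := congrArg Units.val hh
  rw [Units.val_pow_eq_pow_val, Units.val_mul, Units.val_pow_eq_pow_val] at e
  rw [show (z : D.Om) ^ glueExp (upperComb q) =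
    algebraMap D.base D.Om (κ' : D.base) * (h : D.Om) ^ m from e]
  simpa using (kumChar_const (E := D.E) (m := m) κ'.ne_zero).mul
    (kumChar_pow_self (E := D.E) (k := D.base) (m := m) h.ne_zero)

variable [DecidableEq κ]

set_option maxHeartbeats 800000 in
/-- The twisted monodromy is killed by a constant. -/
theorem twist_kill (hmq : m.Coprime q) (hR : R ∣ n) (hN : N ∣ q * R * q) {S : Type*} [CommRing S]
    (Lm : S →+* Matrix κ κ (ZMod m))
    (θ χ : (ZMod q)ˣ →* S) (h₁ : ∑ a, θ a * χ a = 0) (h₂ : ∑ a, θ a * χ a⁻¹ = 0)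
    (P : κ → D.fixedTors N m)
    (hgal : ∀ σ ∈ D.A.inertiaSubgroupIn ℚ, ∀ d : (ZMod q)ˣ,
      (∀ μ : QBar, μ ^ q = 1 → σ μ = μ ^ (d : ZMod q).val) → ∀ i,
        σ • ((P i : Pic0.torsion QBar (modularFunctionFieldBar N) m) : JZero N) =
          ∑ k, (Lm (θ d) i k).val •
            ((P k : Pic0.torsion QBar (modularFunctionFieldBar N) m) : JZero N))
    (j : κ) :
    (glueExp (upperComb q) * q) • twChar (fun v => Lm (χ v) j) (fun k =>
      classChar hR hN (P k : Pic0.torsion QBar (modularFunctionFieldBar N) m)) = 0 := by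
  let X : κ → D.UQ m := fun k => D.ofClass m hR hN (P k)
  have hX : X = fun k => D.ofClass m hR hN (P k) := rfl
  have hfix : ∀ a k, D.uAct m (diagElt a a⁻¹) (X k) = X k := fun a k =>
    D.uAct_ofClass_diag m hR hN rfl rfl (by
      rw [coe_diagElt, Matrix.det_fin_two_of, mul_zero, sub_zero, Units.mul_inv]) (P k)
  have hd : ∀ d i, D.uAct m (diagElt 1 d) (X i) = ∑ k, Lm (θ d) i k • X k := by
    intro d i
    obtain ⟨σ, hσ, hσd⟩ := exists_inertia_unit D.hA d
    let P' : D.fixedTors N m := ∑ k, (Lm (θ d) i k).val • P k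
    rw [hX, D.uAct_ofClass_galois m hR hN hσ hσd (P := P i) (P' := P') (by
      rw [hgal σ hσ d hσd i]
      push_cast [P']
      rfl), map_sum]
    exact Finset.sum_congr rfl fun k _ => (map_nsmul _ _ _).trans (smul_eq_val_nsmul _ _).symm
  have hf : ∀ k, IsClassFun (inertiaOne D.A q)
      (P k : Pic0.torsion QBar (modularFunctionFieldBar N) m) (D.classRep m (P k)) :=
    fun k => D.classRep_spec m (P k)
  let Y : κ → D.Omˣ := fun k => D.classUnit m hR hN _ (hf k).fix
  have hyX : D.uMk m (D.twUnit (fun v => Lm (χ v) j) Y) = twSum Lm χ (D.uAct m) X 1 j := by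
    rw [uMk_twUnit]
    simp only [twSum, one_mul]
    refine Finset.sum_congr rfl fun s _ => Finset.sum_congr rfl fun v _ =>
      Finset.sum_congr rfl fun k _ => ?_
    rw [← D.ofClass_eq m hR hN (hf k)]
  have hYΦ : ∀ k, KumChar D.E D.base m (Y k : D.Om)
      (classChar hR hN (P k : Pic0.torsion QBar (modularFunctionFieldBar N) m)) := fun k =>
    D.kumChar_classUnit hR hN (hf k)
  have hpl : ∀ k, Places D.base m (Y k) := fun k => D.places_classUnit hR hN (hf k)
  clear_value Y
  have hy1 := D.kumChar_upperNorm (fun v => Lm (χ v) j) (D.kumChar_twUnit (fun v => Lm (χ v) j) hYΦ)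
  have ht : ∀ t : ZMod q, D.uAct m (uPlus t) (twSum Lm χ (D.uAct m) X 1 j) =
      twSum Lm χ (D.uAct m) X 1 j :=
    fun t => act_uPlus_twSum Lm χ (D.uAct m) X (D.uAct_mul m) t 1 j
  have ht' :=
    torOp_twSum Lm θ χ (D.uAct m) X (D.uAct_mul m) hfix hd h₁ h₂ j
  have hpl' : Places D.base m (D.twUnit (fun v => Lm (χ v) j) Y) :=
    D.places_twUnit (fun v => Lm (χ v) j) hpl
  generalize twSum Lm χ (D.uAct m) X 1 j = x at hyX ht ht'
  generalize D.twUnit (fun v => Lm (χ v) j) Y = y at hyX hy1 hpl'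
  have h0 := D.kumChar_upperNorm_pow hmq hyX ht ht' hpl'
  have h1 := hy1.pow (glueExp (upperComb q))
  rw [mul_smul]
  exact h1.unique h0

end QData

end Fermat.Agent.RT.InertiaTW

end
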