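import Fermat.Agent.RT.InertiaTW.GroupSum
import Fermat.Agent.RT.InertiaTW.Scale
import Fermat.Agent.RT.GammaH.Coeff
import Fermat.Agent.Periods.Congruence.Injective

/-!
# The periods of a form with nebentypus on `Γ₁(qR)`, rescaled to `Γ(qn)`

They are fixed by the lower unipotents, are eigenvectors of the diagonal matrices and do not
vanish; translation by `x/q` acts on them as an upper unipotent.
-/

set_option autoImplicit false
set_option linter.unusedSectionVars false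

noncomputable section

open UpperHalfPlane hiding I
open CongruenceSubgroup Matrix.SpecialLinearGroup
open scoped MatrixGroups ModularForm

namespace Fermat.Agent.RT.InertiaTW

open Fermat.Agent.Periods (IsPrimitive exists_primitive_of_le)
open Fermat.Agent.Periods.Congruence (per per_eq per_injective)
open Fermat.Agent.RT.GammaH (IsNeb transl val_transl)

variable {q n R : ℕ} [Fact q.Prime] [NeZero (q * n)] [NeZero q] [NeZero R]

namespace IsRescale

variable {γ γ' δ δ' : SL(2, ℤ)}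

theorem mul (h : IsRescale q γ δ) (h' : IsRescale q γ' δ') :
    IsRescale q (γ * γ') (δ * δ') := by
  refine ⟨?_, ?_, ?_, ?_⟩ <;>
    simp [Matrix.mul_apply, Fin.sum_univ_two, h.upperLeft, h.lowerLeft, h.lowerRight,
      h'.upperLeft, h'.lowerLeft, h'.lowerRight, ← h.upperRight, ← h'.upperRight] <;> ring

theorem inv (h : IsRescale q γ δ) : IsRescale q γ⁻¹ δ⁻¹ := by
  refine ⟨?_, ?_, ?_, ?_⟩ <;>
    simp [Matrix.adjugate_fin_two, h.upperLeft, h.lowerLeft, h.lowerRight, ← h.upperRight]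

theorem unique (h : IsRescale q γ δ) (h' : IsRescale q γ δ') : δ = δ' := by
  ext i j
  fin_cases i <;> fin_cases j
  · exact h.upperLeft.trans h'.upperLeft.symm
  · exact mul_right_cancel₀ (Int.natCast_ne_zero.mpr (NeZero.ne q))
      (h.upperRight.trans h'.upperRight.symm)
  · exact h.lowerLeft.trans h'.lowerLeft.symm
  · exact h.lowerRight.trans h'.lowerRight.symm

end IsRescale

variable {ε : DirichletCharacter ℂ q} {f : ℍ → ℂ} (hf : IsNeb (q * R) ε f) (hR : R ∣ n)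

include hR in
/-- The periods on `Γ(qn)`. -/
def rescPer : Additive (Gamma (q * n)) →+ ℂ :=
  (per (hf.toForm (dvd_mul_right q R))).comp
    (MonoidHom.toAdditive ((rescale q n).codRestrict (Gamma1 (q * R)) (rescale_mem_Gamma1 hR)))

theorem rescPer_apply {G : ℍ → ℂ} (hG : IsPrimitive f G) (γ : Gamma (q * n)) (z : ℍ) :
    rescPer hf hR (Additive.ofMul γ) = G (rescale q n γ • z) - G z :=
  per_eq (f := hf.toForm (dvd_mul_right q R)) hG ⟨_, rescale_mem_Gamma1 hR γ⟩ z

include hf in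
theorem exists_primitive_neb : ∃ G, IsPrimitive f G := by
  obtain ⟨G, hG, -⟩ := exists_primitive_of_le (N := q * R) (Γ := Gamma1 (q * R))
    (fun γ hγ => (Gamma1_mem _ _).mpr
      ⟨(Gamma_mem.mp hγ).1, (Gamma_mem.mp hγ).2.2.2, (Gamma_mem.mp hγ).2.2.1⟩)
    (hf.toForm (dvd_mul_right q R))
  exact ⟨G, hG⟩

variable [Fact (q.Coprime n)]

/-- The action is conjugation by the rescaled lift. -/
theorem smul_rescPer {G : ℍ → ℂ} (hG : IsPrimitive f G) {s : SL(2, ZMod q)} {l e : SL(2, ℤ)}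
    (hl : l ∈ Gamma n) (hs : map (Int.castRingHom (ZMod q)) l = s⁻¹) (he : IsRescale q l e)
    (γ : Gamma (q * n)) (z : ℍ) :
    (s • rescPer hf hR) (Additive.ofMul γ) =
      G ((e * rescale q n γ) • z) - G (e • z) := by
  rw [smul_eq_conjHomG hl hs, conjHomG_apply, rescPer_apply hf hR hG _ (e • z)]
  have : rescale q n ⟨l * γ * l⁻¹, (Gamma_normal _).conj_mem _ γ.2 l⟩ =
      e * rescale q n γ * e⁻¹ :=
    (isRescale_rescale _).unique ((he.mul (isRescale_rescale γ)).mul he.inv)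
  rw [this, ← mul_smul, inv_mul_cancel_right]

theorem sMinus_smul_rescPer (s : ZMod q) : sMinus s • rescPer hf hR = rescPer hf hR := by
  obtain ⟨G, hG⟩ := exists_primitive_neb hf
  have hn : IsUnit (n : ZMod q) := by
    rw [ZMod.isUnit_iff_coprime]; exact (Fact.out : q.Coprime n).symm
  set t : ℕ := ((hn.unit⁻¹ : (ZMod q)ˣ) * (-s) : ZMod q).val with ht
  have hts : (((n * t : ℕ) : ℤ) : ZMod q) = -s := by
    rw [Int.cast_natCast, Nat.cast_mul, ht, ZMod.natCast_zmod_val, ← mul_assoc,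
      IsUnit.mul_val_inv, one_mul]
  let l : SL(2, ℤ) := ⟨!![1, 0; ((n * t : ℕ) : ℤ), 1], by simp [Matrix.det_fin_two]⟩
  let e : SL(2, ℤ) := ⟨!![1, 0; ((n * t : ℕ) : ℤ) * q, 1], by simp [Matrix.det_fin_two]⟩
  have hl : l ∈ Gamma n := Gamma_mem.mpr ⟨by simp [l], by simp [l], by simp [l], by simp [l]⟩
  have hs : map (Int.castRingHom (ZMod q)) l = (sMinus s)⁻¹ := by
    refine Subtype.ext ?_
    show ((l : Matrix (Fin 2) (Fin 2) ℤ).map (Int.castRingHom (ZMod q))) = _
    rw [Matrix.SpecialLinearGroup.coe_inv, coe_sMinus]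
    ext i j
    fin_cases i <;> fin_cases j <;> simp [l, Matrix.adjugate_fin_two]
    simpa using hts
  have he : IsRescale q l e := ⟨rfl, by simp [l, e], by simp [l, e], rfl⟩
  have heΓ : e ∈ Gamma1 (q * R) := by
    refine (Gamma1_mem _ _).mpr ⟨by simp [e], by simp [e], ?_⟩
    rw [ZMod.intCast_zmod_eq_zero_iff_dvd]
    obtain ⟨k, rfl⟩ := hR
    exact ⟨(k : ℤ) * t, by simp [e]; ring⟩
  refine AddMonoidHom.ext fun x => ?_
  obtain ⟨γ, rfl⟩ := Additive.ofMul.surjective x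
  set z := UpperHalfPlane.I
  rw [smul_rescPer hf hR hG hl hs he γ z, rescPer_apply hf hR hG γ z]
  have hper : ∀ w : ℍ, per (hf.toForm (dvd_mul_right q R)) (Additive.ofMul ⟨e, heΓ⟩) =
      G (e • w) - G w := fun w => per_eq hG ⟨e, heΓ⟩ w
  have h1 := hper (rescale q n γ • z)
  have h2 := hper z
  rw [mul_smul]
  linear_combination h2 - h1

theorem sDiag_smul_rescPer (u : (ZMod q)ˣ) :
    sDiag u • rescPer hf hR = ε (((u⁻¹ : (ZMod q)ˣ) : ZMod q)) • rescPer hf hR := by
  obtain ⟨G, hG⟩ := exists_primitive_neb hf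
  obtain ⟨l, hl, hs⟩ := exists_lift (n := n) (Fact.out : q.Coprime n) (sDiag u)⁻¹
  have hs' : ∀ i j, ((l i j : ℤ) : ZMod q) =
      ((sDiag u)⁻¹ : SL(2, ZMod q)) i j := fun i j => by
    rw [← hs]; rfl
  have h01 : (q : ℤ) ∣ l 0 1 := by
    rw [← ZMod.intCast_zmod_eq_zero_iff_dvd, hs', Matrix.SpecialLinearGroup.coe_inv, coe_sDiag,
      Matrix.adjugate_fin_two]
    exact neg_zero
  have h11 : ((l 1 1 : ℤ) : ZMod q) = ((u⁻¹ : (ZMod q)ˣ) : ZMod q) := by
    rw [hs', Matrix.SpecialLinearGroup.coe_inv, coe_sDiag, Matrix.adjugate_fin_two]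
    rfl
  obtain ⟨b, hb⟩ := h01
  have hdet : (!![l 0 0, b; l 1 0 * (q : ℤ), l 1 1] : Matrix (Fin 2) (Fin 2) ℤ).det = 1 := by
    have := l.det_coe
    rw [Matrix.det_fin_two] at this
    rw [Matrix.det_fin_two_of]
    linear_combination this + l 1 0 * hb
  let e : SL(2, ℤ) := ⟨_, hdet⟩
  have he : IsRescale q l e := ⟨rfl, by simp [e, hb, mul_comm], rfl, rfl⟩
  have heΓ : e ∈ Gamma0 (q * R) := by
    rw [Gamma0_mem, ZMod.intCast_zmod_eq_zero_iff_dvd]
    obtain ⟨c, hc⟩ := (entry_mem_Gamma hl).2.2.1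
    obtain ⟨k, rfl⟩ := hR
    exact ⟨(k : ℤ) * c, by simp [e, hc]; ring⟩
  have hslash : f ∣[(2 : ℤ)] e = ε (((u⁻¹ : (ZMod q)ˣ) : ZMod q)) • f := by
    rw [hf.neb e heΓ, show e 1 1 = l 1 1 from rfl, h11]
  set c := ε (((u⁻¹ : (ZMod q)ˣ) : ZMod q))
  have hc : IsPrimitive (c • f) (fun z => G (e • z)) := hslash ▸ hG.comp_SL e
  refine AddMonoidHom.ext fun x => ?_
  obtain ⟨γ, rfl⟩ := Additive.ofMul.surjective x
  set z := UpperHalfPlane.I
  rw [smul_rescPer hf hR hG hl hs he γ z, AddMonoidHom.smul_apply, smul_eq_mul,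
    rescPer_apply hf hR hG γ z, mul_smul]
  have := hc.sub_eq (hG.const_smul c) (rescale q n γ • z) z
  simp only [Pi.smul_apply, smul_eq_mul] at this
  linear_combination this

/-- The real matrix `diag(1, q)`. -/
def scaleGL (q : ℕ) [NeZero q] : GL (Fin 2) ℝ :=
  Matrix.GeneralLinearGroup.mkOfDetNeZero !![1, 0; 0, (q : ℝ)]
    (by simpa [Matrix.det_fin_two] using NeZero.ne q)

theorem IsRescale.mul_scaleGL {γ δ : SL(2, ℤ)} (h : IsRescale q γ δ) :
    mapGL ℝ δ * scaleGL q = scaleGL q * mapGL ℝ γ := by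
  refine Units.ext ?_
  have h01 : ((δ 0 1 : ℤ) : ℝ) * q = γ 0 1 := by exact_mod_cast h.upperRight
  have h10 : ((δ 1 0 : ℤ) : ℝ) = γ 1 0 * q := by exact_mod_cast h.lowerLeft
  ext i j
  fin_cases i <;> fin_cases j <;>
    simp [scaleGL, Matrix.GeneralLinearGroup.mkOfDetNeZero, Matrix.mul_apply, Fin.sum_univ_two,
      h.upperLeft, h.lowerRight, h01, h10, mul_comm]

omit [NeZero q] in
theorem val_mapGL_T_zpow (x : ℤ) :
    ((mapGL ℝ (ModularGroup.T ^ x) : GL (Fin 2) ℝ) : Matrix (Fin 2) (Fin 2) ℝ) = !![1, (x : ℝ); 0, 1] := by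
  ext i j
  show (((ModularGroup.T ^ x : SL(2, ℤ)) i j : ℤ) : ℝ) = _
  rw [ModularGroup.coe_T_zpow]
  fin_cases i <;> fin_cases j <;> simp

theorem transl_mul_scaleGL (x : ℤ) :
    transl q x * scaleGL q = scaleGL q * mapGL ℝ (ModularGroup.T ^ x) := by
  refine Units.ext ?_
  have hq : (q : ℝ) ≠ 0 := Nat.cast_ne_zero.mpr (NeZero.ne q)
  rw [Units.val_mul, Units.val_mul, val_transl]
  rw [val_mapGL_T_zpow]
  ext i j
  fin_cases i <;> fin_cases j <;>
    simp [scaleGL, Matrix.GeneralLinearGroup.mkOfDetNeZero, Matrix.mul_apply, Fin.sum_univ_two, hq]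

/-- Translation by `x / q` acts on the periods as an upper unipotent. -/
theorem sPlus_smul_rescPer {G : ℍ → ℂ} (hG : IsPrimitive f G) (x : ZMod q) (γ : Gamma (q * n))
    (z : ℍ) : (sPlus (-x) • rescPer hf hR) (Additive.ofMul γ) =
      G (transl q x.val • rescale q n γ • z) - G (transl q x.val • z) := by
  have hn : IsUnit (n : ZMod q) := by
    rw [ZMod.isUnit_iff_coprime]; exact (Fact.out : q.Coprime n).symm
  set t : ℕ := ((hn.unit⁻¹ : (ZMod q)ˣ) * x : ZMod q).val with ht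
  set x' : ℤ := ((n * t : ℕ) : ℤ) with hx'
  have hxx : ((x' : ℤ) : ZMod q) = x := by
    rw [hx', Int.cast_natCast, Nat.cast_mul, ht, ZMod.natCast_zmod_val, ← mul_assoc,
      IsUnit.mul_val_inv, one_mul]
  have hTn : ModularGroup.T ^ x' ∈ Gamma n :=
    by simpa using ModularGroup_T_pow_mem_Gamma (n : ℤ) x' ⟨t, by rw [hx']; push_cast; ring⟩
  have hTq : map (Int.castRingHom (ZMod q)) (ModularGroup.T ^ x') = (sPlus (-x))⁻¹ := by
    refine Subtype.ext ?_
    show ((ModularGroup.T ^ x' : SL(2, ℤ)) : Matrix (Fin 2) (Fin 2) ℤ).map _ = _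
    rw [Matrix.SpecialLinearGroup.coe_inv, coe_sPlus, ModularGroup.coe_T_zpow]
    ext i j
    fin_cases i <;> fin_cases j <;> simp [Matrix.adjugate_fin_two, hxx]
  set γ' : Gamma (q * n) := ⟨ModularGroup.T ^ x' * γ * (ModularGroup.T ^ x')⁻¹,
    (Gamma_normal _).conj_mem _ γ.2 _⟩ with hγ'
  have hmove : mapGL ℝ (rescale q n γ') * transl q x' =
      transl q x' * mapGL ℝ (rescale q n γ) := by
    refine mul_right_cancel (b := scaleGL q) ?_
    rw [mul_assoc, transl_mul_scaleGL, ← mul_assoc, (isRescale_rescale γ').mul_scaleGL, mul_assoc,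
      ← map_mul, mul_assoc (transl q x'), (isRescale_rescale γ).mul_scaleGL, ← mul_assoc,
      transl_mul_scaleGL, mul_assoc (scaleGL q), ← map_mul, hγ']
    simp only [inv_mul_cancel_right]
  rw [smul_eq_conjHomG hTn hTq, conjHomG_apply, rescPer_apply hf hR hG γ' (transl q x' • z)]
  have hact : ∀ w : ℍ, rescale q n γ' • transl q x' • w = transl q x' • rescale q n γ • w := by
    intro w
    show mapGL ℝ (rescale q n γ') • transl q x' • w = transl q x' • mapGL ℝ (rescale q n γ) • w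
    rw [← mul_smul, hmove, mul_smul]
  rw [hact]
  -- the representative of `x` does not matter
  obtain ⟨k, hk⟩ : (q : ℤ) ∣ x' - x.val := by
    rw [← ZMod.intCast_zmod_eq_zero_iff_dvd, Int.cast_sub, hxx, Int.cast_natCast,
      ZMod.natCast_zmod_val, sub_self]
  have hT1 : ModularGroup.T ^ k ∈ Gamma1 (q * R) := by
    refine (Gamma1_mem _ _).mpr ?_
    rw [ModularGroup.coe_T_zpow]
    simp
  have htr : ∀ w : ℍ, transl q x' • w = ModularGroup.T ^ k • transl q x.val • w := by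
    intro w
    show transl q x' • w = mapGL ℝ (ModularGroup.T ^ k) • transl q x.val • w
    rw [← mul_smul]
    congr 1
    refine Units.ext ?_
    have hq : (q : ℝ) ≠ 0 := Nat.cast_ne_zero.mpr (NeZero.ne q)
    have hkR : (x' : ℝ) = x.val + q * k := by
      have : x' = x.val + q * k := by omega
      exact_mod_cast this
    rw [Units.val_mul, val_transl, val_transl]
    rw [val_mapGL_T_zpow, hkR]
    ext i j
    fin_cases i <;> fin_cases j <;> simp [Matrix.mul_apply, Fin.sum_univ_two]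
    field_simp
  have hper : ∀ w : ℍ, per (hf.toForm (dvd_mul_right q R))
      (Additive.ofMul ⟨ModularGroup.T ^ k, hT1⟩) = G (ModularGroup.T ^ k • w) - G w := fun w =>
    per_eq hG ⟨ModularGroup.T ^ k, hT1⟩ w
  have h1 := hper (transl q x.val • rescale q n γ • z)
  have h2 := hper (transl q x.val • z)
  rw [htr, htr]
  linear_combination h2 - h1

/-- The periods on `Γ(qn)` do not vanish. -/
theorem rescPer_ne_zero (hf0 : f ≠ 0) : rescPer (n := n) hf hR ≠ 0 := by
  intro h0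
  have : NeZero n := ⟨right_ne_zero_of_mul (NeZero.ne (q * n))⟩
  obtain ⟨G, hG⟩ := exists_primitive_neb hf
  have hle : Gamma (q * R) ≤ Gamma1 (q * R) := fun γ hγ => (Gamma1_mem _ _).mpr
    ⟨(Gamma_mem.mp hγ).1, (Gamma_mem.mp hγ).2.2.2, (Gamma_mem.mp hγ).2.2.1⟩
  refine hf0 ?_
  have h := per_injective hle (f := hf.toForm (dvd_mul_right q R)) (AddMonoidHom.ext fun x => ?_)
  · exact congrArg DFunLike.coe h
  obtain ⟨δ, rfl⟩ := Additive.ofMul.surjective x
  have : (Gamma (q * q * n)).FiniteIndex := inferInstance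
  have := Gamma_normal (q * q * n)
  set K := (Gamma (q * q * n)).index
  have hK : (δ : SL(2, ℤ)) ^ K ∈ Gamma (q * q * n) := Subgroup.pow_index_mem _ _
  obtain ⟨⟨a, ha⟩, ⟨b, hb⟩, ⟨c, hc⟩, ⟨d, hd⟩⟩ := entry_mem_Gamma hK
  set ε' := (δ : SL(2, ℤ)) ^ K
  push_cast at ha hb hc hd
  have hdet : (!![ε' 0 0, ε' 0 1 * (q : ℤ); (q : ℤ) * n * c, ε' 1 1] :
      Matrix (Fin 2) (Fin 2) ℤ).det = 1 := by
    have := ε'.det_coe
    rw [Matrix.det_fin_two] at this
    rw [Matrix.det_fin_two_of]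
    linear_combination this + (ε' 0 1) * hc
  let γ : SL(2, ℤ) := ⟨_, hdet⟩
  have hγ : γ ∈ Gamma (q * n) := by
    refine Gamma_mem.mpr ⟨?_, ?_, ?_, ?_⟩
    · refine ((ZMod.intCast_eq_intCast_iff_dvd_sub 1 _ _).mpr ?_).symm.trans Int.cast_one
      exact ⟨q * a, by simp [γ]; linear_combination ha⟩
    · rw [ZMod.intCast_zmod_eq_zero_iff_dvd]
      exact ⟨q * q * b, by simp [γ]; linear_combination (q : ℤ) * hb⟩
    · rw [ZMod.intCast_zmod_eq_zero_iff_dvd]
      exact ⟨c, by simp [γ]⟩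
    · refine ((ZMod.intCast_eq_intCast_iff_dvd_sub 1 _ _).mpr ?_).symm.trans Int.cast_one
      exact ⟨q * d, by simp [γ]; linear_combination hd⟩
  have hr : rescale q n ⟨γ, hγ⟩ = ε' := (isRescale_rescale ⟨γ, hγ⟩).unique
    ⟨by simp [γ], by simp [γ], by simp [γ]; linear_combination hc, by simp [γ]⟩
  have h1 := DFunLike.congr_fun h0 (Additive.ofMul ⟨γ, hγ⟩)
  rw [rescPer_apply hf hR hG _ UpperHalfPlane.I, hr, AddMonoidHom.zero_apply] at h1
  have h2 : per (hf.toForm (dvd_mul_right q R)) (Additive.ofMul (δ ^ K)) = 0 := by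
    rw [per_eq hG _ UpperHalfPlane.I]
    exact h1
  rw [ofMul_pow, map_nsmul, nsmul_eq_mul] at h2
  exact (mul_eq_zero.mp h2).resolve_left (Nat.cast_ne_zero.mpr Subgroup.FiniteIndex.index_ne_zero)

end Fermat.Agent.RT.InertiaTW

end
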