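import Fermat.Agent.RT.InertiaTW.GroupSum
import Fermat.Agent.RT.InertiaTW.TorComb
import Fermat.Agent.RT.InertiaTW.Translates

/-!
# Twisted translates of eigenvectors of the torus

If the diagonal matrices act on vectors `X k` through a character `θ`, the twisted sums of their
translates are killed by the combination of sums over the tori as soon as `θ χ` and `θ χ⁻¹` sum to
zero.
-/

set_option autoImplicit false

noncomputable section

open Matrix Fermat.Agent.Carayol

namespace Fermat.Agent.RT.InertiaTW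

variable {q m : ℕ} [Fact q.Prime] {κ : Type*} [Fintype κ] [DecidableEq κ] {S : Type*} [CommRing S]
  (Lm : S →+* Matrix κ κ (ZMod m)) (θ χ : (ZMod q)ˣ →* S)
  {M : Type*} [AddCommGroup M] [Module (ZMod m) M] (act : GL (Fin 2) (ZMod q) → (M →+ M))
  (X : κ → M)

/-- The twisted sum of translates with coefficient `c`. -/
def twSum (c : S) (j : κ) : M :=
  ∑ s : ZMod q, ∑ v : (ZMod q)ˣ, ∑ k, Lm (c * χ v) j k •
    act (uPlus (-s)) (act (uMinus (-(v : ZMod q))) (X k))

/-- `twSum` is additive in the coefficient. -/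
def twSumHom (j : κ) : S →+ M :=
  AddMonoidHom.mk' (fun c => twSum Lm χ act X c j) fun a b => by
    simp only [twSum, add_mul, map_add, Matrix.add_apply, add_smul, Finset.sum_add_distrib]

theorem twSumHom_apply (c : S) (j : κ) : twSumHom Lm χ act X j c = twSum Lm χ act X c j := rfl

theorem act_smul (g : GL (Fin 2) (ZMod q)) (c : ZMod m) (x : M) :
    act g (c • x) = c • act g x := ZMod.map_smul (act g) c x

variable (hact : ∀ g h x, act (g * h) x = act g (act h x))

include hact in
theorem act_uPlus_twSum (t : ZMod q) (c : S) (j : κ) :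
    act (uPlus t) (twSum Lm χ act X c j) = twSum Lm χ act X c j := by
  simp only [twSum, map_sum, act_smul act]
  refine Fintype.sum_equiv (Equiv.subRight t) _ _ fun s => ?_
  refine Finset.sum_congr rfl fun v _ => Finset.sum_congr rfl fun k _ => ?_
  rw [← hact (uPlus t), ← uPlus_add, Equiv.subRight_apply, neg_sub, sub_eq_add_neg]

variable (hfix : ∀ a k, act (diagElt a a⁻¹) (X k) = X k)
  (hd : ∀ d k, act (diagElt 1 d) (X k) = ∑ l, Lm (θ d) k l • X l)

include hact hfix hd in
theorem act_diag_twSum (a d : (ZMod q)ˣ) (j : κ) :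
    act (diagElt a d) (twSum Lm χ act X 1 j) =
      twSum Lm χ act X (θ (a * d) * χ (a * d⁻¹)) j := by
  have hX : ∀ k, act (diagElt a d) (X k) = ∑ l, Lm (θ (a * d)) k l • X l := fun k => by
    have e : (diagElt a d : GL (Fin 2) (ZMod q)) = diagElt a a⁻¹ * diagElt 1 (a * d) := by
      refine Units.ext ?_
      rw [Units.val_mul, coe_diagElt, coe_diagElt, coe_diagElt, Matrix.mul_fin_two]
      simp only [Units.val_one, mul_one, mul_zero, zero_mul, add_zero, zero_add,
        Units.val_mul, Units.inv_mul_cancel_left]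
    rw [e, hact, hd, map_sum]
    exact Finset.sum_congr rfl fun l _ => by rw [act_smul act, hfix]
  simp only [twSum, map_sum, act_smul act]
  refine Fintype.sum_equiv (Equiv.mulLeft₀ ((a : ZMod q) * ((d⁻¹ : (ZMod q)ˣ) : ZMod q))
    (mul_ne_zero a.ne_zero (d⁻¹).ne_zero)) _ _ fun s => ?_
  refine Fintype.sum_equiv (Equiv.mulLeft (d * a⁻¹)) _ _ fun v => ?_
  have e : ∀ x : M, act (diagElt a d) (act (uPlus (-s)) (act (uMinus (-(v : ZMod q))) x)) =
      act (uPlus (-((a : ZMod q) * ((d⁻¹ : (ZMod q)ˣ) : ZMod q) * s)))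
        (act (uMinus (-((d * a⁻¹ * v : (ZMod q)ˣ) : ZMod q))) (act (diagElt a d) x)) := fun x => by
    rw [← hact, diagElt_mul_uPlus, hact, ← hact (diagElt a d), diagElt_mul_uMinus, hact,
      mul_neg, mul_neg, Units.val_mul, Units.val_mul]
  have hχ : Lm (χ v) * Lm (θ (a * d)) =
      Lm (θ (a * d) * χ (a * d⁻¹) * χ (d * a⁻¹ * v)) := by
    rw [← map_mul Lm, mul_assoc (θ (a * d)), ← map_mul χ, mul_comm]
    congr 3
    rw [mul_assoc, ← mul_assoc d⁻¹, ← mul_assoc d⁻¹, inv_mul_cancel, one_mul, mul_inv_cancel_left]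
  simp only [Equiv.coe_mulLeft, Equiv.mulLeft₀_apply, one_mul, e, hX, map_sum,
    act_smul act, Finset.smul_sum, smul_smul]
  rw [Finset.sum_comm]
  refine Finset.sum_congr rfl fun l _ => ?_
  rw [← Finset.sum_smul, ← hχ, Matrix.mul_apply]

include hact hfix hd in
theorem torOp_twSum (h₁ : ∑ a, θ a * χ a = 0) (h₂ : ∑ a, θ a * χ a⁻¹ = 0) (j : κ) :
    torOp (fun g => act g (twSum Lm χ act X 1 j)) = 0 := by
  simp only [torOp, act_diag_twSum Lm θ χ act X hact hfix hd, mul_one, inv_one, one_mul]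
  simp only [← twSumHom_apply, ← map_sum, h₁, h₂, map_zero, add_zero, smul_zero, zero_sub,
    neg_eq_zero]
  have : ∑ a : (ZMod q)ˣ, ∑ d : (ZMod q)ˣ, θ (a * d) * χ (a * d⁻¹) =
      (∑ a, θ a * χ a) * ∑ d, θ d * χ d⁻¹ := by
    rw [Finset.sum_mul_sum]
    exact Finset.sum_congr rfl fun a _ => Finset.sum_congr rfl fun d _ => by
      rw [map_mul, map_mul]; ring
  rw [this, h₁, zero_mul, map_zero]

end Fermat.Agent.RT.InertiaTW

end
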