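import Fermat.Agent.RT.InertiaTW.LevelUnits

/-!
# From fixed classes to units modulo `m`-th powers

`ofClass` is additive, is fixed by the diagonal matrices of determinant one and turns an inertia
element moving `μ_q` by `d` into `diag(1, d)`.
-/

set_option autoImplicit false
set_option linter.unusedSectionVars false

noncomputable section

open scoped Classical

namespace Fermat.Agent.RT.InertiaTW

open ModularCurve AlgebraicCurve Matrix Fermat.Agent.Arith Fermat.Agent.Carayol
open Fermat.Agent.Carayol.Omega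
open Fermat.Agent.JacTorsion (divGrp toTorsion)

attribute [local instance 2000] serAlg

namespace QData

variable {q n R N : ℕ} [NeZero (q * n)] [Fact q.Prime] [NeZero n] [NeZero N]
  (D : QData q n) (m : ℕ) [NeZero m]

/-- The `m`-th powers. -/
def powUnits : AddSubgroup (Additive D.Omˣ) :=
  (nsmulAddMonoidHom m : Additive D.Omˣ →+ Additive D.Omˣ).range

/-- Units modulo `m`-th powers. -/
abbrev UQ : Type := Additive D.Omˣ ⧸ D.powUnits m

/-- The class of a unit. -/
def uMk (y : D.Omˣ) : D.UQ m := QuotientAddGroup.mk (Additive.ofMul y)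

theorem uMk_mul (y z : D.Omˣ) : D.uMk m (y * z) = D.uMk m y + D.uMk m z := rfl

theorem uMk_eq_zero {y : D.Omˣ} (h : D.uMk m y = 0) : ∃ z : D.Omˣ, y = z ^ m := by
  obtain ⟨z, hz⟩ := (QuotientAddGroup.eq_zero_iff _).mp h
  refine ⟨z.toMul, ?_⟩
  have := congrArg Additive.toMul hz
  simpa using this.symm

theorem nsmul_eq_zero (x : D.UQ m) : m • x = 0 := by
  obtain ⟨y, rfl⟩ := QuotientAddGroup.mk_surjective x
  exact (QuotientAddGroup.eq_zero_iff _).mpr ⟨y, rfl⟩

/-- Translation of units. -/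
def actUnit (g : GL (Fin 2) (ZMod q)) : D.Omˣ →* D.Omˣ :=
  Units.map (D.act g).toRingEquiv.toRingHom.toMonoidHom

theorem coe_actUnit (g : GL (Fin 2) (ZMod q)) (y : D.Omˣ) :
    (D.actUnit g y : D.Om) = D.act g y := rfl

/-- The action on the quotient. -/
def uAct (g : GL (Fin 2) (ZMod q)) : D.UQ m →+ D.UQ m :=
  QuotientAddGroup.map _ _ (MonoidHom.toAdditive (D.actUnit g)) fun x hx => by
    obtain ⟨z, rfl⟩ := hx
    exact ⟨MonoidHom.toAdditive (D.actUnit g) z, (map_nsmul _ m z).symm⟩

theorem uAct_mk (g : GL (Fin 2) (ZMod q)) (y : D.Omˣ) :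
    D.uAct m g (D.uMk m y) = D.uMk m (D.actUnit g y) := rfl

theorem uAct_mul (g h : GL (Fin 2) (ZMod q)) (x : D.UQ m) :
    D.uAct m (g * h) x = D.uAct m g (D.uAct m h x) := by
  obtain ⟨y, rfl⟩ := QuotientAddGroup.mk_surjective x
  obtain ⟨y, rfl⟩ := Additive.ofMul.surjective y
  show D.uMk m _ = D.uMk m _
  congr 1
  refine Units.ext ?_
  show D.act (g * h) (y : D.Om) = D.act g (D.act h y)
  rw [map_mul, AlgEquiv.mul_apply]

variable (N) in
/-- The classes fixed by the group. -/
def fixedTors : AddSubgroup (Pic0.torsion QBar (modularFunctionFieldBar N) m) where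
  carrier := {P | ∀ σ ∈ inertiaOne D.A q, σ • (P : JZero N) = P}
  zero_mem' σ _ := smul_zero σ
  add_mem' {P Q} hP hQ σ hσ := by
    rw [AddSubgroup.coe_add]
    exact (smul_add σ (P : JZero N) (Q : JZero N)).trans (congrArg₂ (· + ·) (hP σ hσ) (hQ σ hσ))
  neg_mem' {P} hP σ hσ := by
    rw [AddSubgroup.coe_neg]
    exact (smul_neg σ (P : JZero N)).trans (congrArg Neg.neg (hP σ hσ))

variable (hR : R ∣ n) (hN : N ∣ q * R * q)

/-- The unit of a function with fixed coefficients. -/
def classUnit (f : divGrp QBar (modularFunctionFieldBar N) m)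
    (hf : CoeffFixed (inertiaOne D.A q) (serOf f)) : D.Omˣ :=
  Units.mk0 (D.toField hR hN ⟨serOf f, mem_ratField ((f : (modularFunctionFieldBar N)ˣ) :
      modularFunctionFieldBar N).2 hf⟩)
    ((_root_.map_ne_zero (D.toField hR hN)).mpr fun h => serOf_ne_zero f (congrArg Subtype.val h))

theorem coe_classUnit (f : divGrp QBar (modularFunctionFieldBar N) m)
    (hf : CoeffFixed (inertiaOne D.A q) (serOf f)) :
    ((D.classUnit m hR hN f hf : D.Om) : LaurentSeries QBar) = qExpand QBar n (serOf f) := rfl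

theorem val_classUnit (f : divGrp QBar (modularFunctionFieldBar N) m)
    (hf : CoeffFixed (inertiaOne D.A q) (serOf f)) :
    (D.classUnit m hR hN f hf : D.Om) = D.toField hR hN ⟨serOf f,
      mem_ratField ((f : (modularFunctionFieldBar N)ˣ) : modularFunctionFieldBar N).2 hf⟩ := by
  unfold classUnit
  exact Units.val_mk0 _

theorem uMk_classUnit_eq {P : Pic0.torsion QBar (modularFunctionFieldBar N) m}
    {f g : divGrp QBar (modularFunctionFieldBar N) m}
    (hf : IsClassFun (inertiaOne D.A q) P f) (hg : IsClassFun (inertiaOne D.A q) P g) :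
    D.uMk m (D.classUnit m hR hN f hf.fix) = D.uMk m (D.classUnit m hR hN g hg.fix) := by
  obtain ⟨h, hh0, hhf, e⟩ := hf.unique hg
  set z : D.Omˣ := Units.mk0 (D.toField hR hN ⟨(h : LaurentSeries QBar), mem_ratField h.2 hhf⟩)
    ((_root_.map_ne_zero (D.toField hR hN)).mpr fun e =>
      hh0 (ZeroMemClass.coe_eq_zero.mp (by simpa using congrArg Subtype.val e)))
  have e' : D.classUnit m hR hN f hf.fix = D.classUnit m hR hN g hg.fix * z ^ m := by
    refine Units.ext (Subtype.ext ?_)
    rw [coe_classUnit, e, map_mul, map_pow]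
    rfl
  have h0 : D.uMk m (z ^ m) = 0 :=
    (QuotientAddGroup.eq_zero_iff (N := D.powUnits m) _).mpr ⟨Additive.ofMul z, rfl⟩
  rw [e', uMk_mul, h0]
  exact add_zero (D.uMk m (D.classUnit m hR hN g hg.fix))

theorem classUnit_mul (f g : divGrp QBar (modularFunctionFieldBar N) m)
    (hf : CoeffFixed (inertiaOne D.A q) (serOf f)) (hg : CoeffFixed (inertiaOne D.A q) (serOf g))
    (hfg : CoeffFixed (inertiaOne D.A q) (serOf (f * g))) :
    D.classUnit m hR hN (f * g) hfg = D.classUnit m hR hN f hf * D.classUnit m hR hN g hg := by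
  refine Units.ext (Subtype.ext ?_)
  rw [coe_classUnit, serOf_mul, map_mul]
  rfl

/-- A normalised function of a fixed class. -/
def classRep (P : D.fixedTors N m) : divGrp QBar (modularFunctionFieldBar N) m :=
  (exists_classFun P.2).choose

theorem classRep_spec (P : D.fixedTors N m) :
    IsClassFun (inertiaOne D.A q) (P : Pic0.torsion QBar (modularFunctionFieldBar N) m)
      (D.classRep m P) :=
  (exists_classFun P.2).choose_spec

/-- The class of units attached to a fixed class. -/
def classVal (P : D.fixedTors N m) : D.UQ m :=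
  D.uMk m (D.classUnit m hR hN (D.classRep m P) (D.classRep_spec m P).fix)

theorem classVal_eq {P : D.fixedTors N m} {f : divGrp QBar (modularFunctionFieldBar N) m}
    (hf : IsClassFun (inertiaOne D.A q) (P : Pic0.torsion QBar (modularFunctionFieldBar N) m) f) :
    D.classVal m hR hN P = D.uMk m (D.classUnit m hR hN f hf.fix) :=
  D.uMk_classUnit_eq m hR hN (D.classRep_spec m P) hf

theorem classVal_add (P Q : D.fixedTors N m) :
    D.classVal m hR hN (P + Q) = D.classVal m hR hN P + D.classVal m hR hN Q := by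
  have hPQ := (D.classRep_spec m P).mul (D.classRep_spec m Q)
  rw [D.classVal_eq m hR hN (P := P + Q) hPQ,
    D.classUnit_mul m hR hN _ _ (D.classRep_spec m P).fix (D.classRep_spec m Q).fix hPQ.fix,
    uMk_mul]
  rfl

/-- The class of units attached to a fixed class, additively. -/
def ofClass : D.fixedTors N m →+ D.UQ m :=
  AddMonoidHom.mk' (D.classVal m hR hN) (D.classVal_add m hR hN)

theorem ofClass_eq {P : D.fixedTors N m} {f : divGrp QBar (modularFunctionFieldBar N) m}
    (hf : IsClassFun (inertiaOne D.A q) (P : Pic0.torsion QBar (modularFunctionFieldBar N) m) f) :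
    D.ofClass m hR hN P = D.uMk m (D.classUnit m hR hN f hf.fix) :=
  D.classVal_eq m hR hN hf

set_option maxHeartbeats 800000 in
theorem uAct_ofClass_diag {g : GL (Fin 2) (ZMod q)}
    (h01 : (g : Matrix (Fin 2) (Fin 2) (ZMod q)) 0 1 = 0)
    (h10 : (g : Matrix (Fin 2) (Fin 2) (ZMod q)) 1 0 = 0)
    (hdet : (g : Matrix (Fin 2) (Fin 2) (ZMod q)).det = 1) (P : D.fixedTors N m) :
    D.uAct m g (D.ofClass m hR hN P) = D.ofClass m hR hN P := by
  obtain ⟨f, hf⟩ : ∃ f, IsClassFun (inertiaOne D.A q) P.1 f := ⟨_, D.classRep_spec m P⟩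
  rw [D.ofClass_eq m hR hN hf, uAct_mk]
  refine congrArg (D.uMk m) (Units.ext ?_)
  rw [coe_actUnit, D.val_classUnit m hR hN f hf.fix]
  exact D.act_toField_of_diag hR hN h01 h10 hdet _

set_option maxHeartbeats 800000 in
theorem uAct_ofClass_galois {σ : QBar ≃ₐ[ℚ] QBar} (hσ : σ ∈ D.A.inertiaSubgroupIn ℚ)
    {d : (ZMod q)ˣ} (hd : ∀ μ : QBar, μ ^ q = 1 → σ μ = μ ^ (d : ZMod q).val)
    {P P' : D.fixedTors N m}
    (h : ((P' : Pic0.torsion QBar (modularFunctionFieldBar N) m) : JZero N) =
      σ • ((P : Pic0.torsion QBar (modularFunctionFieldBar N) m) : JZero N)) :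
    D.uAct m (diagElt 1 d) (D.ofClass m hR hN P) = D.ofClass m hR hN P' := by
  obtain ⟨f, hf⟩ : ∃ f, IsClassFun (inertiaOne D.A q) P.1 f := ⟨_, D.classRep_spec m P⟩
  have hnorm : ∀ τ ∈ inertiaOne D.A q, σ⁻¹ * τ * σ ∈ inertiaOne D.A q := fun τ hτ =>
    ⟨mul_mem (mul_mem (inv_mem hσ) hτ.1) hσ, fun μ hμ => by
      rw [AlgEquiv.mul_apply, AlgEquiv.mul_apply, hτ.2 (σ μ) (by rw [← map_pow, hμ, map_one]),
        ← AlgEquiv.mul_apply, inv_mul_cancel, AlgEquiv.one_apply]⟩
  rw [D.ofClass_eq m hR hN hf, uAct_mk, D.ofClass_eq m hR hN (hf.galois hnorm h)]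
  refine congrArg (D.uMk m) (Units.ext ?_)
  rw [coe_actUnit, D.val_classUnit m hR hN f hf.fix,
    D.val_classUnit m hR hN (galDiv σ f) (hf.galois hnorm h).fix]
  exact D.act_toField_galois hR hN hσ hd _ _ (serOf_galDiv σ f)

end QData

end Fermat.Agent.RT.InertiaTW

end
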